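import Mathlib

/-!
# Special pairs

`SpecialPair l e N F`: a tame pair with unipotent inertia `1 + N` and Frobenius `F` of trace
`e (l + 1)` and determinant `l`.  Such a pair has the parametrised forms `paramN`, `paramF` (in
the chart where the kernel line of `N` is visible) or `compN`, `compF` (Frobenius in companion
form): `SpecialPair.eq_param`, `SpecialPair.eq_comp`.  `exists_frame` makes a nonzero `N` upper
triangular over the coefficient ring.
-/

set_option autoImplicit false
set_option linter.unusedSectionVars false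

noncomputable section

namespace FLTAgent.Lower.Lift.Final

open Matrix

variable {R : Type*} [CommRing R]

/-- `N` and `F` are the inertia part and Frobenius of a special tame pair. -/
structure SpecialPair (l e : R) (N F : Matrix (Fin 2) (Fin 2) R) : Prop where
  trN : N.trace = 0
  sqN : N * N = 0
  tame : F * N = l • (N * F)
  trF : F.trace = e * (l + 1)
  detF : F.det = l

theorem SpecialPair.map {R' : Type*} [CommRing R'] (f : R →+* R') {l e : R}
    {N F : Matrix (Fin 2) (Fin 2) R} (H : SpecialPair l e N F) :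
    SpecialPair (f l) (f e) (f.mapMatrix N) (f.mapMatrix F) := by
  have hs : ∀ X : Matrix (Fin 2) (Fin 2) R, f.mapMatrix (l • X) = f l • f.mapMatrix X := fun X => by
    ext i j; simp
  refine ⟨?_, by rw [← map_mul, H.sqN, map_zero], by rw [← map_mul, ← map_mul, H.tame, hs], ?_, ?_⟩
  · rw [RingHom.mapMatrix_apply, ← AddMonoidHom.map_trace, H.trN, map_zero]
  · rw [RingHom.mapMatrix_apply, ← AddMonoidHom.map_trace, H.trF, map_mul, map_add, map_one]
  · rw [← RingHom.map_det, H.detF]

theorem SpecialPair.of_injective {R' : Type*} [CommRing R'] (f : R →+* R')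
    (hf : Function.Injective f) {l e : R} {N F : Matrix (Fin 2) (Fin 2) R}
    (H : SpecialPair (f l) (f e) (f.mapMatrix N) (f.mapMatrix F)) : SpecialPair l e N F := by
  have hM : Function.Injective (f.mapMatrix : Matrix (Fin 2) (Fin 2) R →+* _) :=
    fun X Y h => Matrix.ext fun i j => hf (congrFun (congrFun h i) j)
  have hs : ∀ X : Matrix (Fin 2) (Fin 2) R, f.mapMatrix (l • X) = f l • f.mapMatrix X := fun X => by
    ext i j; simp
  refine ⟨hf ?_, hM (by rw [map_mul, H.sqN, map_zero]),
    hM (by rw [map_mul, hs, map_mul, H.tame]), hf ?_, hf ?_⟩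
  · have := H.trN
    rwa [RingHom.mapMatrix_apply, ← AddMonoidHom.map_trace, ← map_zero f] at this
  · have := H.trF
    rwa [RingHom.mapMatrix_apply, ← AddMonoidHom.map_trace, ← map_one f, ← map_add, ← map_mul] at this
  · have := H.detF
    rwa [← RingHom.map_det] at this

theorem SpecialPair.conj {l e : R} {N F G Gi : Matrix (Fin 2) (Fin 2) R}
    (H : SpecialPair l e N F) (h : G * Gi = 1) :
    SpecialPair l e (Gi * N * G) (Gi * F * G) := by
  have hc : ∀ X Y : Matrix (Fin 2) (Fin 2) R, Gi * X * G * (Gi * Y * G) = Gi * (X * Y) * G :=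
    fun X Y => by
      rw [show Gi * X * G * (Gi * Y * G) = Gi * X * (G * Gi) * Y * G by
        simp only [Matrix.mul_assoc], h, Matrix.mul_one, Matrix.mul_assoc Gi X Y]
  have ht : ∀ X : Matrix (Fin 2) (Fin 2) R, (Gi * X * G).trace = X.trace := fun X => by
    rw [Matrix.trace_mul_comm, ← Matrix.mul_assoc, h, Matrix.one_mul]
  refine ⟨by rw [ht, H.trN], ?_, ?_, by rw [ht, H.trF], ?_⟩
  · rw [hc, H.sqN, Matrix.mul_zero, Matrix.zero_mul]
  · rw [hc, hc, H.tame, Matrix.mul_smul, Matrix.smul_mul]
  · rw [Matrix.det_mul, Matrix.det_mul, mul_right_comm, ← Matrix.det_mul,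
      mul_eq_one_comm.1 h, Matrix.det_one, one_mul, H.detF]

/-- The six entry equations. -/
theorem SpecialPair.entries {l e : R} {N F : Matrix (Fin 2) (Fin 2) R} (H : SpecialPair l e N F) :
    N 1 1 = -N 0 0 ∧ N 0 0 * N 0 0 + N 0 1 * N 1 0 = 0 ∧
      F 0 0 * N 0 0 + F 0 1 * N 1 0 = l * (N 0 0 * F 0 0 + N 0 1 * F 1 0) ∧
      F 0 0 * N 0 1 + F 0 1 * N 1 1 = l * (N 0 0 * F 0 1 + N 0 1 * F 1 1) ∧
      F 1 0 * N 0 0 + F 1 1 * N 1 0 = l * (N 1 0 * F 0 0 + N 1 1 * F 1 0) ∧
      F 0 0 + F 1 1 = e * (l + 1) ∧ F 0 0 * F 1 1 - F 0 1 * F 1 0 = l := by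
  have h1 := H.trN
  have h2 := congrFun (congrFun H.sqN 0) 0
  have h3 := congrFun (congrFun H.tame 0) 0
  have h4 := congrFun (congrFun H.tame 0) 1
  have h5 := congrFun (congrFun H.tame 1) 0
  have h6 := H.trF
  have h7 := H.detF
  rw [Matrix.trace_fin_two] at h1 h6
  rw [Matrix.det_fin_two] at h7
  simp only [Matrix.mul_apply, Fin.sum_univ_two, Matrix.smul_apply, smul_eq_mul,
    Matrix.zero_apply] at h2 h3 h4 h5
  exact ⟨by linear_combination h1, h2, h3, h4, h5, h6, h7⟩

/-- The inertia part in the chart of the line through `(1, -t)`. -/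
def paramN (t b : R) : Matrix (Fin 2) (Fin 2) R :=
  !![t * b, b; -(t ^ 2 * b), -(t * b)]

/-- Frobenius in the chart of the line through `(1, -t)`. -/
def paramF (l e t B : R) : Matrix (Fin 2) (Fin 2) R :=
  !![e * l + t * B, B; -(t ^ 2 * B) - t * (e * (l - 1)), e - t * B]

theorem paramN_map {R' : Type*} [CommRing R'] (f : R →+* R') (t b : R) :
    f.mapMatrix (paramN t b) = paramN (f t) (f b) := by
  ext i j; fin_cases i <;> fin_cases j <;> simp [paramN]

theorem paramF_map {R' : Type*} [CommRing R'] (f : R →+* R') (l e t B : R) :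
    f.mapMatrix (paramF l e t B) = paramF (f l) (f e) (f t) (f B) := by
  ext i j; fin_cases i <;> fin_cases j <;> simp [paramF]

theorem specialPair_param {l e : R} (he : e * e = 1) (t b B : R) :
    SpecialPair l e (paramN t b) (paramF l e t B) := by
  refine ⟨?_, ?_, ?_, ?_, ?_⟩
  · simp [paramN, Matrix.trace_fin_two]
  · ext i j; fin_cases i <;> fin_cases j <;>
      simp [paramN, Matrix.mul_apply, Fin.sum_univ_two] <;> ring
  · ext i j; fin_cases i <;> fin_cases j <;>
      simp [paramN, paramF, Matrix.mul_apply, Fin.sum_univ_two] <;> ring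
  · simp [paramF, Matrix.trace_fin_two]; ring
  · simp [paramF, Matrix.det_fin_two]
    linear_combination l * he

/-- A nonscalar place: Frobenius in companion form. -/
def compN (e b : R) : Matrix (Fin 2) (Fin 2) R :=
  !![e * b, b; -b, -(e * b)]

/-- Frobenius in companion form. -/
def compF (l e : R) : Matrix (Fin 2) (Fin 2) R :=
  !![0, -l; 1, e * (l + 1)]

theorem compN_map {R' : Type*} [CommRing R'] (f : R →+* R') (e b : R) :
    f.mapMatrix (compN e b) = compN (f e) (f b) := by
  ext i j; fin_cases i <;> fin_cases j <;> simp [compN]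

theorem compF_map {R' : Type*} [CommRing R'] (f : R →+* R') (l e : R) :
    f.mapMatrix (compF l e) = compF (f l) (f e) := by
  ext i j; fin_cases i <;> fin_cases j <;> simp [compF]

theorem specialPair_comp {l e : R} (he : e * e = 1) (b : R) :
    SpecialPair l e (compN e b) (compF l e) := by
  refine ⟨?_, ?_, ?_, ?_, ?_⟩
  · simp [compN, Matrix.trace_fin_two]
  · ext i j; fin_cases i <;> fin_cases j <;>
      simp [compN, Matrix.mul_apply, Fin.sum_univ_two] <;>
      first | ring1 | linear_combination (b * b) * he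
  · ext i j; fin_cases i <;> fin_cases j <;>
      simp [compN, compF, Matrix.mul_apply, Fin.sum_univ_two] <;>
      first
        | ring1
        | linear_combination (-(b * l * (l + 1))) * he
        | linear_combination (b * l * (l + 1)) * he
        | linear_combination (-(b * (l * l - 1))) * he
        | linear_combination (b * (l * l - 1)) * he
  · simp [compF, Matrix.trace_fin_two]
  · simp [compF, Matrix.det_fin_two]

section Domain

variable [IsDomain R] {l e : R} {N F : Matrix (Fin 2) (Fin 2) R}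

theorem SpecialPair.eq_comp (H : SpecialPair l e N F) (hl0 : l ≠ 0) (hl1 : l + 1 ≠ 0)
    (h0 : F 0 0 = 0) (h1 : F 1 0 = 1) :
    N = compN e (N 0 1) ∧ F = compF l e := by
  obtain ⟨hd, -, h00, -, h10, htr, hdet⟩ := H.entries
  rw [h0, h1] at h00 h10 hdet
  rw [h0, zero_add] at htr
  have hF01 : F 0 1 = -l := by linear_combination -hdet
  have hc : N 1 0 = -N 0 1 := mul_left_cancel₀ hl0 (by
    rw [hF01] at h00
    linear_combination -h00)
  have ha : N 0 0 = e * N 0 1 := mul_left_cancel₀ hl1 (by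
    rw [htr, hc, hd] at h10
    linear_combination h10)
  refine ⟨Matrix.ext fun i j => ?_, Matrix.ext fun i j => ?_⟩
  · fin_cases i <;> fin_cases j <;> simp [compN, hd, hc, ha]
  · fin_cases i <;> fin_cases j <;> simp [compF, h0, h1, hF01, htr]

theorem SpecialPair.eq_param (H : SpecialPair l e N F) (hl0 : l ≠ 0) (hl1 : l + 1 ≠ 0)
    (hb : N 0 1 ≠ 0) {t : R} (ht : N 0 0 = t * N 0 1) :
    N = paramN t (N 0 1) ∧ F = paramF l e t (F 0 1) := by
  obtain ⟨hd, hsq, h00, h01, -, htr, -⟩ := H.entries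
  have hc : N 1 0 = -(t ^ 2 * N 0 1) := mul_left_cancel₀ hb (by
    rw [ht] at hsq
    linear_combination hsq)
  have h11 : F 1 1 = e * (l + 1) - F 0 0 := by linear_combination htr
  have hA : F 0 0 = e * l + t * F 0 1 := mul_left_cancel₀ (mul_ne_zero hb hl1) (by
    rw [hd, ht, h11] at h01
    linear_combination h01)
  have hC : F 1 0 = -(t ^ 2 * F 0 1) - t * (e * (l - 1)) := mul_left_cancel₀ (mul_ne_zero hb hl0) (by
    rw [ht, hc, hA] at h00
    linear_combination -h00)
  refine ⟨Matrix.ext fun i j => ?_, Matrix.ext fun i j => ?_⟩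
  · fin_cases i <;> fin_cases j <;> simp [paramN, hd, hc, ht]
  · fin_cases i <;> fin_cases j <;> simp [paramF, hA, hC, h11] <;> ring

/-- If the kernel line of `N` is the second basis vector, Frobenius is lower triangular. -/
theorem SpecialPair.lower (H : SpecialPair l e N F) (hl1 : l + 1 ≠ 0) (hb : N 0 1 = 0)
    (hN : N ≠ 0) : N 0 0 = 0 ∧ N 1 1 = 0 ∧ F 0 1 = 0 ∧ F 0 0 = e ∧ F 1 1 = l * e := by
  obtain ⟨hd, hsq, h00, -, h10, htr, -⟩ := H.entries
  rw [hb, zero_mul, add_zero] at hsq
  have ha : N 0 0 = 0 := mul_self_eq_zero.1 hsq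
  rw [ha, neg_zero] at hd
  have hc : N 1 0 ≠ 0 := fun hc => hN (Matrix.ext fun i j => by
    fin_cases i <;> fin_cases j <;> simp [ha, hb, hc, hd])
  rw [ha, hb] at h00
  rw [ha, hd] at h10
  simp only [mul_zero, zero_mul, add_zero, zero_add] at h00 h10
  have hF01 : F 0 1 = 0 := (mul_eq_zero.1 h00).resolve_right hc
  have hF11 : F 1 1 = l * F 0 0 := mul_right_cancel₀ hc (by linear_combination h10)
  have hF00 : F 0 0 = e := mul_right_cancel₀ hl1 (by
    rw [hF11] at htr
    linear_combination htr)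
  exact ⟨ha, hd, hF01, hF00, by rw [hF11, hF00]⟩

/-- The three cutting entries leave only the scalar pair in residue characteristic. -/
theorem SpecialPair.eq_scalar_of_cut (H : SpecialPair l e N F) (hl : l = 1) (he : e * e = 1)
    (hb : N 0 1 = 0) (hC : F 1 0 = 0) (hcB : N 1 0 = F 0 1) : N = 0 ∧ F = e • 1 := by
  obtain ⟨hd, hsq, h00, -, -, htr, hdet⟩ := H.entries
  subst hl
  rw [hb, zero_mul, add_zero] at hsq
  have ha : N 0 0 = 0 := mul_self_eq_zero.1 hsq
  rw [ha, hb, hC, ← hcB] at h00
  simp only [mul_zero, zero_mul, add_zero, zero_add] at h00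
  have hc : N 1 0 = 0 := mul_self_eq_zero.1 h00
  rw [hC, ← hcB, hc] at hdet
  have hA : F 0 0 = e := sub_eq_zero.1 (mul_self_eq_zero.1 (by
    linear_combination F 0 0 * htr - hdet + he))
  rw [ha, neg_zero] at hd
  refine ⟨Matrix.ext fun i j => ?_, Matrix.ext fun i j => ?_⟩
  · fin_cases i <;> fin_cases j <;> simp [ha, hb, hc, hd]
  · fin_cases i <;> fin_cases j <;> simp [hA, hC, ← hcB, hc]
    linear_combination htr - hA

end Domain

section DVR

variable {O : Type*} [CommRing O] [IsDomain O] [IsDiscreteValuationRing O]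

/-- A frame in which the inertia part is upper triangular. -/
theorem exists_frame {N : Matrix (Fin 2) (Fin 2) O} (htr : N.trace = 0) (hsq : N * N = 0)
    (hN : N ≠ 0) :
    ∃ (G Gi : Matrix (Fin 2) (Fin 2) O) (b : O),
      G * Gi = 1 ∧ Gi * G = 1 ∧ Gi * N * G = !![0, b; 0, 0] := by
  classical
  rw [Matrix.trace_fin_two] at htr
  have h := congrFun (congrFun hsq 0) 0
  simp only [Matrix.mul_apply, Fin.sum_univ_two, Matrix.zero_apply] at h
  have hd : N 1 1 = -N 0 0 := by linear_combination htr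
  by_cases hbt : N 0 1 ≠ 0 ∧ N 0 1 ∣ N 0 0
  · obtain ⟨hb, t, ht⟩ := hbt
    have hc : N 1 0 = -(t ^ 2 * N 0 1) := mul_left_cancel₀ hb (by
      rw [ht] at h
      linear_combination h)
    refine ⟨!![1, 0; -t, 1], !![1, 0; t, 1], N 0 1, ?_, ?_, ?_⟩
    · ext i j; fin_cases i <;> fin_cases j <;> simp [Matrix.mul_apply, Fin.sum_univ_two]
    · ext i j; fin_cases i <;> fin_cases j <;> simp [Matrix.mul_apply, Fin.sum_univ_two]
    · ext i j; fin_cases i <;> fin_cases j <;>
        simp [Matrix.mul_apply, Fin.sum_univ_two, Matrix.vecMul, dotProduct, hd, hc, ht] <;> ring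
  · have hcs : N 1 0 ≠ 0 ∧ N 1 0 ∣ N 0 0 := by
      by_cases hb : N 0 1 = 0
      · rw [hb, zero_mul, add_zero] at h
        have ha := mul_self_eq_zero.1 h
        refine ⟨fun hc => hN (Matrix.ext fun i j => ?_), ha ▸ dvd_zero _⟩
        fin_cases i <;> fin_cases j <;> simp [ha, hb, hc, hd]
      · have hba : ¬ N 0 1 ∣ N 0 0 := fun hd => hbt ⟨hb, hd⟩
        obtain ⟨u, hu⟩ := (ValuationRing.dvd_total (N 0 0) (N 0 1)).resolve_right hba
        have ha : N 0 0 ≠ 0 := fun ha => hba (ha ▸ dvd_zero _)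
        have hac : N 0 0 = -(N 1 0 * u) := mul_left_cancel₀ ha (by
          rw [hu] at h
          linear_combination h)
        exact ⟨fun hc => ha (by rw [hac, hc, zero_mul, neg_zero]),
          hac ▸ (dvd_mul_right _ _).neg_right⟩
    obtain ⟨hc, s, hs⟩ := hcs
    have hb : N 0 1 = -(s ^ 2 * N 1 0) := mul_left_cancel₀ hc (by
      rw [hs] at h
      linear_combination h)
    refine ⟨!![s, 1; 1, 0], !![0, 1; 1, -s], N 1 0, ?_, ?_, ?_⟩
    · ext i j; fin_cases i <;> fin_cases j <;> simp [Matrix.mul_apply, Fin.sum_univ_two]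
    · ext i j; fin_cases i <;> fin_cases j <;> simp [Matrix.mul_apply, Fin.sum_univ_two]
    · ext i j; fin_cases i <;> fin_cases j <;>
        simp [Matrix.mul_apply, Fin.sum_univ_two, Matrix.vecMul, dotProduct, hd, hb, hs] <;> ring

end DVR

end FLTAgent.Lower.Lift.Final
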