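import Mathlib
import Fermat.Agent.Lower.Lift.HopSystem
import Fermat.Agent.Deform.Carayol

/-!
# One representation from a pair over finite rings

`nonempty_pairRep`: two representations over finite local rings with the same absolutely
irreducible residual representation come from one representation over the trace ring of the pair,
a local subring of the product (`PairRep`).  The preliminary lemmas transport entries and
determinants along equivalences and bases.
-/

set_option autoImplicit false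
set_option linter.unusedSectionVars false
set_option linter.style.haveILetI false

noncomputable section

namespace FLTAgent.Lower.Lift.Final

open IsLocalRing (maximalIdeal ResidueField)
open FLTAgent.Lower
open FLTAgent.Deform (MatRep MCont mapRep toRep conjRep)

local notation "ℚ̄" => AlgebraicClosure ℚ
local notation "Γℚ" => (AlgebraicClosure ℚ ≃ₐ[ℚ] AlgebraicClosure ℚ)

section Equiv

variable {A : Type} [CommRing A] [IsLocalRing A] {ρ ρ' : GaloisRepAdic A}

theorem conj_of_equiv (e : GaloisRepAdic.Equiv ρ ρ') (σ : Γℚ) :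
    e.toLinearEquiv.conj (ρ.ρ σ) = ρ'.ρ σ := by
  refine LinearMap.ext fun y => ?_
  rw [LinearEquiv.conj_apply_apply, e.map_apply, LinearEquiv.apply_symm_apply]

theorem det_eq_of_isEquiv (h : ρ.IsEquiv ρ') (σ : Γℚ) :
    LinearMap.det (ρ.ρ σ) = LinearMap.det (ρ'.ρ σ) := by
  obtain ⟨e⟩ := h
  rw [← conj_of_equiv e σ, LinearEquiv.conj_apply, LinearMap.comp_assoc, LinearMap.det_conj]

theorem charpoly_eq_of_isEquiv (h : ρ.IsEquiv ρ') (σ : Γℚ) :
    LinearMap.charpoly (ρ.ρ σ) = LinearMap.charpoly (ρ'.ρ σ) := by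
  obtain ⟨e⟩ := h
  rw [← conj_of_equiv e σ, LinearEquiv.charpoly_conj]

theorem eq_one_of_isEquiv (h : ρ.IsEquiv ρ') {σ : Γℚ} (h1 : ρ'.ρ σ = 1) : ρ.ρ σ = 1 := by
  obtain ⟨e⟩ := h
  refine LinearMap.ext fun x => e.toLinearEquiv.injective ?_
  rw [e.map_apply, h1]
  rfl

/-- A basis with the same matrices. -/
theorem exists_basis_of_equiv (h : ρ.IsEquiv ρ') (b : Module.Basis (Fin 2) A ρ.V) :
    ∃ b' : Module.Basis (Fin 2) A ρ'.V, ∀ τ, matHom ρ' b' τ = matHom ρ b τ := by
  obtain ⟨e⟩ := h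
  refine ⟨b.map e.toLinearEquiv, fun τ => Matrix.ext fun i j => ?_⟩
  rw [matHom_apply, matHom_apply, Module.Basis.map_apply, ← e.map_apply]
  simp

/-- Entries of `ρ τ - 1` in another basis are combinations of those in one. -/
theorem entries_mem_of_basis (b b' : Module.Basis (Fin 2) A ρ.V) (τ : Γℚ) (J : Ideal A)
    (hJ : ∀ i j, (matHom ρ b τ - 1) i j ∈ J) : ∀ i j, (matHom ρ b' τ - 1) i j ∈ J := by
  intro i j
  have hlin : ∀ w : ρ.V, ∀ i, b.repr ((ρ.ρ τ - 1) w) i ∈ J := fun w i => by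
    rw [show b.repr ((ρ.ρ τ - 1) w) i = ((matHom ρ b τ - 1).mulVec ⇑(b.repr w)) i by
      rw [show matHom ρ b τ - 1 = LinearMap.toMatrix b b (ρ.ρ τ - 1) by
        rw [map_sub, LinearMap.toMatrix_one]; rfl, LinearMap.toMatrix_mulVec_repr]]
    simp only [Matrix.mulVec, dotProduct]
    exact Ideal.sum_mem _ fun s _ => Ideal.mul_mem_right _ _ (hJ i s)
  have h5 : (matHom ρ b' τ - 1) i j = b'.repr ((ρ.ρ τ - 1) (b' j)) i := by
    rw [Matrix.sub_apply, matHom_apply, LinearMap.sub_apply, map_sub, Finsupp.sub_apply,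
      Module.End.one_apply, Module.Basis.repr_self]
    simp [Matrix.one_apply, Finsupp.single_apply, eq_comm]
  rw [h5, ← b.sum_repr ((ρ.ρ τ - 1) (b' j)), map_sum, Finsupp.finsetSum_apply]
  refine Ideal.sum_mem _ fun s _ => ?_
  rw [map_smul, Finsupp.smul_apply, smul_eq_mul]
  exact Ideal.mul_mem_right _ _ (hlin _ s)

end Equiv

variable {O : Type} [CommRing O] [IsDomain O] [IsDiscreteValuationRing O]
  [Finite (ResidueField O)]

local notation "k" => ResidueField O

theorem residue_eq_map_resHom {R : Type} [CommRing R] [IsLocalRing R] [Algebra O R]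
    [IsLocalHom (algebraMap O R)] (χ : R →ₐ[O] ResidueField O) (x : R) :
    IsLocalRing.residue R x = ResidueField.map (algebraMap O R) (χ x) := by
  have h := FLTAgent.Deform.sub_algebraMap_sec_mem χ x
  rw [← IsLocalRing.residue_eq_zero_iff, map_sub, sub_eq_zero] at h
  rw [h]
  conv_rhs => rw [← FLTAgent.Deform.residue_sec (χ x)]
  rw [ResidueField.map_residue]

theorem resHom_matHom {R : Type} [CommRing R] [IsLocalRing R] [Algebra O R]
    [IsLocalHom (algebraMap O R)] (χ : R →ₐ[O] ResidueField O)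
    {M : Matrix (Fin 2) (Fin 2) R} {X : Matrix (Fin 2) (Fin 2) (ResidueField O)}
    (h : (IsLocalRing.residue R).mapMatrix M = (ResidueField.map (algebraMap O R)).mapMatrix X)
    (i j : Fin 2) : χ (M i j) = X i j := by
  have h1 := congrFun (congrFun h i) j
  rw [RingHom.mapMatrix_apply, RingHom.mapMatrix_apply, Matrix.map_apply, Matrix.map_apply,
    residue_eq_map_resHom χ] at h1
  exact (ResidueField.map (algebraMap O R)).injective h1

theorem residual_isEquiv_of_resHom {R : Type} [CommRing R] [IsLocalRing R] [Algebra O R]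
    [IsLocalHom (algebraMap O R)] (χ : R →ₐ[O] ResidueField O)
    {ρbar : ResidualGaloisRep (ResidueField O)} (ρ : GaloisRepAdic R)
    (b : Module.Basis (Fin 2) R ρ.V) (c₀ : Module.Basis (Fin 2) (ResidueField O) ρbar.V)
    (h : ∀ τ i j, χ (matHom ρ b τ i j) = resMat ρbar c₀ τ i j) :
    ρ.residual.IsEquiv (ρbar.baseChangeAlong (ResidueField.map (algebraMap O R))) := by
  letI : Algebra (ResidueField O) (ResidueField R) :=
    (ResidueField.map (algebraMap O R)).toAlgebra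
  refine residual_isEquiv_of_matrix _ _ (b.baseChange (ResidueField R))
    (c₀.baseChange (ResidueField R)) fun τ i j => ?_
  change (b.baseChange (ResidueField R)).repr
      (((ρ.ρ τ).baseChange (ResidueField R)) ((b.baseChange (ResidueField R)) j)) i =
    (c₀.baseChange (ResidueField R)).repr
      (((ρbar.ρ τ).baseChange (ResidueField R)) ((c₀.baseChange (ResidueField R)) j)) i
  rw [Module.Basis.baseChange_apply, Module.Basis.baseChange_apply, LinearMap.baseChange_tmul,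
    LinearMap.baseChange_tmul, Module.Basis.baseChange_repr_tmul,
    Module.Basis.baseChange_repr_tmul, Algebra.smul_def, Algebra.smul_def, mul_one, mul_one,
    ← matHom_apply]
  change IsLocalRing.residue R (matHom ρ b τ i j) = ResidueField.map (algebraMap O R)
    (c₀.repr (ρbar.ρ τ (c₀ j)) i)
  rw [residue_eq_map_resHom χ, h]
  rfl

theorem isNilpotent_prod {R₁ R₂ : Type} [CommRing R₁] [IsLocalRing R₁] [Finite R₁] [CommRing R₂]
    [IsLocalRing R₂] [Finite R₂] {x : R₁ × R₂} (h₁ : x.1 ∈ maximalIdeal R₁)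
    (h₂ : x.2 ∈ maximalIdeal R₂) : IsNilpotent x := by
  obtain ⟨a, ha⟩ := FLTAgent.Deform.exists_maximalIdeal_pow_eq_bot (A := R₁)
  obtain ⟨c, hc⟩ := FLTAgent.Deform.exists_maximalIdeal_pow_eq_bot (A := R₂)
  refine ⟨a + c, Prod.ext ?_ ?_⟩
  · have := Ideal.pow_mem_pow h₁ a
    rw [ha, Ideal.mem_bot] at this
    rw [Prod.pow_fst, pow_add, this, zero_mul]
    rfl
  · have := Ideal.pow_mem_pow h₂ c
    rw [hc, Ideal.mem_bot] at this
    rw [Prod.pow_snd, pow_add, this, mul_zero]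
    rfl

/-- A representation over the trace ring of a pair. -/
structure PairRep {R₁ R₂ : Type} [CommRing R₁] [IsLocalRing R₁] [Algebra O R₁] [CommRing R₂]
    [IsLocalRing R₂] [Algebra O R₂] (ρbar : ResidualGaloisRep (ResidueField O))
    (ρ₁ : GaloisRepAdic R₁) (ρ₂ : GaloisRepAdic R₂) : Type 1 where
  A : Type
  [instCommRing : CommRing A]
  [instIsLocalRing : IsLocalRing A]
  [instAlgebra : Algebra O A]
  [instFinite : Finite A]
  [instIsLocalHom : IsLocalHom (algebraMap O A)]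
  χ : A →ₐ[O] ResidueField O
  pr₁ : A →ₐ[O] R₁
  pr₂ : A →ₐ[O] R₂
  pr₁_isLocalHom : IsLocalHom (pr₁ : A →+* R₁)
  pr₂_isLocalHom : IsLocalHom (pr₂ : A →+* R₂)
  inj : Function.Injective fun x => (pr₁ x, pr₂ x)
  surj₁ : Function.Surjective pr₁
  surj₂ : Function.Surjective pr₂
  ρ : GaloisRepAdic A
  equiv₁ : (ρ.baseChangeAlong (pr₁ : A →+* R₁) pr₁_isLocalHom).IsEquiv ρ₁
  equiv₂ : (ρ.baseChangeAlong (pr₂ : A →+* R₂) pr₂_isLocalHom).IsEquiv ρ₂
  residual : ρ.residual.IsEquiv (ρbar.baseChangeAlong (ResidueField.map (algebraMap O A)))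
  adjoin_trace : Algebra.adjoin O (Set.range ρ.trace) = ⊤

attribute [instance] PairRep.instCommRing PairRep.instIsLocalRing PairRep.instAlgebra
  PairRep.instFinite PairRep.instIsLocalHom

set_option maxHeartbeats 1000000 in
-- long construction
theorem nonempty_pairRep {R₁ R₂ : Type} [CommRing R₁] [IsLocalRing R₁] [Algebra O R₁] [Finite R₁]
    [IsLocalHom (algebraMap O R₁)] [CommRing R₂] [IsLocalRing R₂] [Algebra O R₂] [Finite R₂]
    [IsLocalHom (algebraMap O R₂)] {ρbar : ResidualGaloisRep (ResidueField O)}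
    (habs : ρbar.IsAbsolutelyIrreducible) (χ₁ : R₁ →ₐ[O] ResidueField O)
    (χ₂ : R₂ →ₐ[O] ResidueField O) (hR₂ : Function.Surjective (algebraMap O R₂))
    (ρ₁ : GaloisRepAdic R₁) (ρ₂ : GaloisRepAdic R₂)
    (he₁ : ρ₁.residual.IsEquiv (ρbar.baseChangeAlong (ResidueField.map (algebraMap O R₁))))
    (he₂ : ρ₂.residual.IsEquiv (ρbar.baseChangeAlong (ResidueField.map (algebraMap O R₂))))
    (hadj : Algebra.adjoin O (Set.range ρ₁.trace) = ⊤) :
    Nonempty (PairRep ρbar ρ₁ ρ₂) := by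
  classical
  let c₀ := Module.finBasisOfFinrankEq (ResidueField O) ρbar.V ρbar.finrank_eq
  obtain ⟨b₁, hb₁⟩ := exists_basis_residual ρ₁ ρbar c₀ _ he₁
  obtain ⟨b₂, hb₂⟩ := exists_basis_residual ρ₂ ρbar c₀ _ he₂
  let E : Subalgebra O (R₁ × R₂) :=
    AlgHom.equalizer (χ₁.comp (AlgHom.fst O R₁ R₂)) (χ₂.comp (AlgHom.snd O R₁ R₂))
  let f₁ : E →ₐ[O] R₁ := (AlgHom.fst O R₁ R₂).comp E.val
  let f₂ : E →ₐ[O] R₂ := (AlgHom.snd O R₁ R₂).comp E.val
  let χE : E →ₐ[O] ResidueField O := χ₁.comp f₁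
  have hnil : ∀ x : E, χE x = 0 → IsNilpotent x := fun x hx => by
    refine (IsNilpotent.map_iff (f := E.val) Subtype.val_injective).1
      (isNilpotent_prod ?_ ?_)
    · exact (FLTAgent.Deform.resHom_eq_zero_iff χ₁ _).1 hx
    · exact (FLTAgent.Deform.resHom_eq_zero_iff χ₂ _).1 (x.2.symm.trans hx)
  haveI : IsLocalRing E := FLTAgent.Deform.isLocalRing_of_resHom χE hnil
  have hpair : ∀ x y : E, f₁ x = f₁ y → f₂ x = f₂ y → x = y := fun x y h h' =>
    Subtype.ext (Prod.ext h h')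
  have hext : ∀ X Y : Matrix (Fin 2) (Fin 2) E,
      f₁.toRingHom.mapMatrix X = f₁.toRingHom.mapMatrix Y →
      f₂.toRingHom.mapMatrix X = f₂.toRingHom.mapMatrix Y → X = Y := fun X Y h h' =>
    Matrix.ext fun i j => hpair _ _ (congrFun (congrFun h i) j) (congrFun (congrFun h' i) j)
  have hres₁ : ∀ τ i j, χ₁ (matHom ρ₁ b₁ τ i j) = resMat ρbar c₀ τ i j := fun τ =>
    resHom_matHom χ₁ (hb₁ τ)
  have hres₂ : ∀ τ i j, χ₂ (matHom ρ₂ b₂ τ i j) = resMat ρbar c₀ τ i j := fun τ =>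
    resHom_matHom χ₂ (hb₂ τ)
  let M₀ : Γℚ → Matrix (Fin 2) (Fin 2) E := fun τ => Matrix.of fun i j =>
    ⟨(matHom ρ₁ b₁ τ i j, matHom ρ₂ b₂ τ i j), (hres₁ τ i j).trans (hres₂ τ i j).symm⟩
  have hM₁ : ∀ τ, f₁.toRingHom.mapMatrix (M₀ τ) = matHom ρ₁ b₁ τ := fun τ => rfl
  have hM₂ : ∀ τ, f₂.toRingHom.mapMatrix (M₀ τ) = matHom ρ₂ b₂ τ := fun τ => rfl
  let M : MatRep E :=
    { toFun := M₀
      map_one' := hext _ _ (by rw [hM₁, map_one, map_one]) (by rw [hM₂, map_one, map_one])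
      map_mul' := fun x y => hext _ _ (by rw [map_mul, hM₁, hM₁, hM₁, map_mul])
        (by rw [map_mul, hM₂, hM₂, hM₂, map_mul]) }
  let A₀ : Subalgebra O E := Algebra.adjoin O (Set.range fun g => (M g).trace)
  have hspan : Submodule.span (ResidueField O) (Set.range (mapRep χE.toRingHom M)) = ⊤ := by
    rw [← FLTAgent.Deform.span_matOf_eq_top ρbar habs c₀]
    refine congrArg (fun f => Submodule.span (ResidueField O) (Set.range f)) (funext fun τ => ?_)
    ext i j
    rw [LinearMap.toMatrix_apply]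
    exact hres₁ τ i j
  obtain ⟨U, hU, hmem⟩ := FLTAgent.Deform.exists_conjRep_mem χE A₀ M hspan
    fun g => Algebra.subset_adjoin ⟨g, rfl⟩
  let χ₀ : A₀ →ₐ[O] ResidueField O := χE.comp A₀.val
  haveI : IsLocalRing A₀ := FLTAgent.Deform.isLocalRing_of_resHom (A := ↥A₀) χ₀ fun x hx =>
    (IsNilpotent.map_iff (f := A₀.val) Subtype.val_injective).1 (hnil _ hx)
  haveI : IsLocalHom (algebraMap O A₀) := FLTAgent.Deform.isLocalHom_algebraMap (A := ↥A₀) χ₀
  have hext₀ : ∀ X Y : Matrix (Fin 2) (Fin 2) A₀,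
      (∀ i j, (X i j : E) = (Y i j : E)) → X = Y := fun X Y h =>
    Matrix.ext fun i j => Subtype.ext (h i j)
  let MA₀ : Γℚ → Matrix (Fin 2) (Fin 2) A₀ := fun τ => Matrix.of fun i j =>
    ⟨conjRep U M τ i j, hmem τ i j⟩
  have hMA : ∀ τ, A₀.val.toRingHom.mapMatrix (MA₀ τ) = conjRep U M τ := fun τ => rfl
  have hinjA : Function.Injective (A₀.val.toRingHom.mapMatrix :
      Matrix (Fin 2) (Fin 2) A₀ →+* Matrix (Fin 2) (Fin 2) E) := fun X Y h =>
    hext₀ X Y fun i j => congrFun (congrFun h i) j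
  let MA : MatRep A₀ :=
    { toFun := MA₀
      map_one' := hinjA (by rw [hMA, map_one, map_one])
      map_mul' := fun x y => hinjA (by rw [map_mul, hMA, hMA, hMA, map_mul]) }
  have hcont : MCont MA := by
    intro n
    obtain ⟨a, ha⟩ := FLTAgent.Deform.exists_maximalIdeal_pow_eq_bot (A := R₁)
    obtain ⟨c, hc⟩ := FLTAgent.Deform.exists_maximalIdeal_pow_eq_bot (A := R₂)
    obtain ⟨L₁, hL₁, h₁⟩ := exists_level ρ₁ b₁ a
    obtain ⟨L₂, hL₂, h₂⟩ := exists_level ρ₂ b₂ c
    haveI := hL₁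
    haveI := hL₂
    refine ⟨L₁ ⊔ L₂, inferInstance, fun σ hσ i j => ?_⟩
    have hM1 : M σ = 1 := by
      refine hext _ _ ?_ ?_
      · show f₁.toRingHom.mapMatrix (M₀ σ) = _
        rw [hM₁, map_one]
        ext i j
        have h := congrFun (congrFun (h₁ σ fun x hx =>
          hσ x ((le_sup_left : L₁ ≤ L₁ ⊔ L₂) hx)) i) j
        rw [RingHom.mapMatrix_apply, Matrix.map_apply, Matrix.one_apply,
          ← map_one (Ideal.Quotient.mk (maximalIdeal R₁ ^ a)),
          ← map_zero (Ideal.Quotient.mk (maximalIdeal R₁ ^ a)), ← apply_ite,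
          Ideal.Quotient.mk_eq_mk_iff_sub_mem, ha, Ideal.mem_bot, sub_eq_zero] at h
        rw [h, Matrix.one_apply]
      · show f₂.toRingHom.mapMatrix (M₀ σ) = _
        rw [hM₂, map_one]
        ext i j
        have h := congrFun (congrFun (h₂ σ fun x hx =>
          hσ x ((le_sup_right : L₂ ≤ L₁ ⊔ L₂) hx)) i) j
        rw [RingHom.mapMatrix_apply, Matrix.map_apply, Matrix.one_apply,
          ← map_one (Ideal.Quotient.mk (maximalIdeal R₂ ^ c)),
          ← map_zero (Ideal.Quotient.mk (maximalIdeal R₂ ^ c)), ← apply_ite,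
          Ideal.Quotient.mk_eq_mk_iff_sub_mem, hc, Ideal.mem_bot, sub_eq_zero] at h
        rw [h, Matrix.one_apply]
    have hMA1 : MA σ = 1 := hinjA (by
      show A₀.val.toRingHom.mapMatrix (MA₀ σ) = _
      rw [hMA, map_one, FLTAgent.Deform.conjRep_apply, hM1, mul_one, Units.mul_inv])
    rw [hMA1]
    rcases eq_or_ne i j with h | h <;> simp [h]
  have hχtr : ∀ g, ((MA g).trace : A₀) = ⟨(M g).trace, Algebra.subset_adjoin ⟨g, rfl⟩⟩ := fun g => by
    refine Subtype.ext ?_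
    show A₀.val.toRingHom (MA₀ g).trace = (M g).trace
    rw [AddMonoidHom.map_trace, ← RingHom.mapMatrix_apply, hMA, FLTAgent.Deform.conjRep_apply,
      Matrix.trace_units_conj]
  let p₁ : A₀ →ₐ[O] R₁ := f₁.comp A₀.val
  let p₂ : A₀ →ₐ[O] R₂ := f₂.comp A₀.val
  have hl₁ : IsLocalHom (p₁ : A₀ →+* R₁) := FLTAgent.Deform.isLocalHom_of_resHom (A := ↥A₀) χ₀ χ₁ p₁
  have hl₂ : IsLocalHom (p₂ : A₀ →+* R₂) := FLTAgent.Deform.isLocalHom_of_resHom (A := ↥A₀) χ₀ χ₂ p₂
  have hequiv : ∀ {R : Type} [CommRing R] [IsLocalRing R] (f : E →+* R)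
      (hf : IsLocalHom (f.comp A₀.val.toRingHom)) (ρ : GaloisRepAdic R)
      (b : Module.Basis (Fin 2) R ρ.V), (∀ τ, f.mapMatrix (M τ) = matHom ρ b τ) →
      ((toRep MA hcont).baseChangeAlong (f.comp A₀.val.toRingHom) hf).IsEquiv ρ := by
    intro R _ _ f hf ρ b hfM
    let Uf : (Matrix (Fin 2) (Fin 2) R)ˣ := Units.map f.mapMatrix.toMonoidHom U
    have hc : conjRep Uf (FLTAgent.Deform.matOf ρ b) =
        mapRep (f.comp A₀.val.toRingHom) MA := MonoidHom.ext fun τ => by
      show (Uf : Matrix (Fin 2) (Fin 2) R) * matHom ρ b τ * _ =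
        f.mapMatrix (A₀.val.toRingHom.mapMatrix (MA₀ τ))
      rw [hMA, FLTAgent.Deform.conjRep_apply, map_mul, map_mul, hfM]
      rfl
    obtain ⟨e₁⟩ := FLTAgent.Deform.toRep_baseChangeAlong _ hf MA hcont _
      (hcont.map _ hf) rfl
    obtain ⟨e₂⟩ := FLTAgent.Deform.toRep_conj Uf (FLTAgent.Deform.mcont_matOf ρ b)
      (hcont.map _ hf) hc
    obtain ⟨e₃⟩ := FLTAgent.Deform.isEquiv_toRep_matOf ρ b _
      (FLTAgent.Deform.mcont_matOf ρ b) rfl
    exact ⟨e₁.trans (e₂.symm.trans e₃.symm)⟩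
  have htr₁ : ∀ g, p₁ ((toRep MA hcont).trace g) = ρ₁.trace g := fun g => by
    rw [FLTAgent.Deform.trace_toRep, hχtr]
    show f₁ (M g).trace = _
    rw [← trace_matHom ρ₁ b₁, ← hM₁]
    exact AddMonoidHom.map_trace f₁.toRingHom (M₀ g)
  refine ⟨{ A := A₀, χ := χ₀, pr₁ := p₁, pr₂ := p₂, pr₁_isLocalHom := hl₁, pr₂_isLocalHom := hl₂,
            inj := fun x y h => Subtype.ext (hpair _ _ (Prod.ext_iff.1 h).1 (Prod.ext_iff.1 h).2),
            surj₁ := ?_,
            surj₂ := fun z => (hR₂ z).elim fun c hc => ⟨algebraMap O A₀ c, by rw [p₂.commutes, hc]⟩,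
            ρ := toRep MA hcont,
            equiv₁ := ?_,
            equiv₂ := ?_,
            residual := ?_, adjoin_trace := ?_ }⟩
  · change Function.Surjective p₁
    rw [← AlgHom.range_eq_top, eq_top_iff, ← hadj]
    refine Algebra.adjoin_le ?_
    rintro _ ⟨τ, rfl⟩
    exact ⟨(toRep MA hcont).trace τ, htr₁ τ⟩
  · exact hequiv f₁.toRingHom hl₁ ρ₁ b₁ hM₁
  · exact hequiv f₂.toRingHom hl₂ ρ₂ b₂ hM₂
  · refine residual_isEquiv_of_resHom (R := ↥A₀) χ₀ (toRep MA hcont)
      (FLTAgent.Deform.stdBasis MA hcont) c₀ fun τ i j => ?_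
    rw [show matHom (toRep MA hcont) (FLTAgent.Deform.stdBasis MA hcont) τ = MA τ from
      DFunLike.congr_fun (FLTAgent.Deform.matOf_toRep MA hcont) τ]
    show χE (conjRep U M τ i j) = _
    have hU' : χE.toRingHom.mapMatrix (↑U⁻¹ : Matrix (Fin 2) (Fin 2) E) = 1 := by
      have h : χE.toRingHom.mapMatrix (U : Matrix (Fin 2) (Fin 2) E) *
          χE.toRingHom.mapMatrix (↑U⁻¹ : Matrix (Fin 2) (Fin 2) E) = 1 := by
        rw [← map_mul, Units.mul_inv, map_one]
      rwa [show χE.toRingHom.mapMatrix (U : Matrix (Fin 2) (Fin 2) E) = 1 from hU, one_mul] at h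
    have h : χE.toRingHom.mapMatrix (conjRep U M τ) = χE.toRingHom.mapMatrix (M τ) := by
      rw [FLTAgent.Deform.conjRep_apply, map_mul, map_mul,
        show χE.toRingHom.mapMatrix (U : Matrix (Fin 2) (Fin 2) E) = 1 from hU, hU', one_mul,
        mul_one]
    exact (congrFun (congrFun h i) j).trans (hres₁ τ i j)
  · have hset : Set.range (toRep MA hcont).trace =
        (Subtype.val : ↥A₀ → ↥E) ⁻¹' Set.range fun g => (M g).trace := by
      ext x
      constructor
      · rintro ⟨g, rfl⟩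
        exact ⟨g, by rw [FLTAgent.Deform.trace_toRep, hχtr]⟩
      · rintro ⟨g, hg⟩
        exact ⟨g, by rw [FLTAgent.Deform.trace_toRep, hχtr]; exact Subtype.ext hg⟩
    rw [hset]
    exact Algebra.adjoin_adjoin_coe_preimage

end FLTAgent.Lower.Lift.Final
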