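import Mathlib
import Fermat.Agent.Deform.PowerSeries

/-!
# Power series in the coordinates

Evaluation of series in a complete ring (`exists_seriesHom`) and the filtration by a weight
(`wdeg`, `wtIdeal`): the degree of a substituted truncation along the ideal generated by `ϖ` and
some of the parameters (`aeval_trunc_mem`).  A series vanishing on a parametrisation through the
origin has no constant term (`constantCoeff_eq_zero_of_subst`).
-/

set_option autoImplicit false
set_option linter.unusedSectionVars false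

noncomputable section

namespace FLTAgent.Lower.Lift.Final

open IsLocalRing (maximalIdeal)
open MvPowerSeries (coeff)

variable {O : Type} [CommRing O] [IsLocalRing O] {V Z : Type} [Finite V]

/-- Power series evaluate at elements with a power in the ideal of a complete ring. -/
theorem exists_seriesHom {A : Type} [CommRing A] [Algebra O A] (J : Ideal A) [IsAdicComplete J A]
    (y : V → A) {N : ℕ} (hy : Ideal.span (Set.range y) ^ N ≤ J) :
    ∃ ψ : MvPowerSeries V O →ₐ[O] A, ∀ v, ψ (MvPowerSeries.X v) = y v := by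
  let t : (n : ℕ) → V → A ⧸ J ^ n := fun n v => Ideal.Quotient.mk (J ^ n) (y v)
  have ht : ∀ n, MvPolynomial.idealOfVars V O ^ (N * n) ≤
      RingHom.ker (MvPolynomial.aeval (R := O) (t n)) := by
    intro n
    refine (Ideal.map_eq_bot_iff_le_ker _).1 (eq_bot_iff.2 ?_)
    rw [Ideal.map_pow, MvPolynomial.idealOfVars, Ideal.map_span, ← Set.range_comp]
    have : (⇑(MvPolynomial.aeval (R := O) (t n)) ∘ MvPolynomial.X) =
        ⇑(Ideal.Quotient.mk (J ^ n)) ∘ y := funext fun v => MvPolynomial.aeval_X _ v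
    rw [this, Set.range_comp, ← Ideal.map_span, ← Ideal.map_pow, pow_mul]
    refine (Ideal.map_mono (Ideal.pow_right_mono hy n)).trans ?_
    rw [Ideal.map_quotient_self]
  let f : (n : ℕ) → MvPowerSeries V O →ₐ[O] A ⧸ J ^ n := fun n =>
    FLTAgent.Deform.evalTrunc (N * n) (t n) (ht n)
  let ψ := IsAdicComplete.liftAlgHom J f fun {m n} hle => AlgHom.ext fun g =>
    FLTAgent.Deform.evalTrunc_comp (N * n) (t n) (ht n)
      (Ideal.Quotient.factorₐ O (Ideal.pow_le_pow_right hle)) (N * m)
      (Nat.mul_le_mul_left N hle) (t m) (ht m) (fun v => rfl) g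
  refine ⟨ψ, fun v => (IsHausdorff.eq_iff_smodEq (I := J)).2 fun n => ?_⟩
  rw [SModEq.sub_mem, smul_eq_mul, Ideal.mul_top, ← Ideal.Quotient.mk_eq_mk_iff_sub_mem]
  show Ideal.Quotient.mk (J ^ n) (IsAdicComplete.liftAlgHom J f _ _) = _
  rw [IsAdicComplete.mk_liftAlgHom, ← MvPolynomial.coe_X]
  show FLTAgent.Deform.evalTrunc _ _ _ _ = _
  rw [FLTAgent.Deform.evalTrunc_coe, MvPolynomial.aeval_X]

variable (W : Set Z)

open scoped Classical in
/-- The weight of a monomial: its degree in the variables in `W`. -/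
def wdeg : (Z →₀ ℕ) →+ ℕ :=
  Finsupp.weight fun z => if z ∈ W then 1 else 0

/-- Series whose coefficients of weight `d` lie in the `(n - d)`-th power of the maximal ideal. -/
def wtIdeal (n : ℕ) : Ideal (MvPowerSeries Z O) where
  carrier := {f | ∀ x, coeff x f ∈ maximalIdeal O ^ (n - wdeg W x)}
  zero_mem' x := by rw [map_zero]; exact zero_mem _
  add_mem' hf hg x := by rw [map_add]; exact add_mem (hf x) (hg x)
  smul_mem' c f hf x := by
    classical
    rw [smul_eq_mul, MvPowerSeries.coeff_mul]
    refine Ideal.sum_mem _ fun p hp => Ideal.mul_mem_left _ _ (Ideal.pow_le_pow_right ?_ (hf p.2))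
    rw [Finset.HasAntidiagonal.mem_antidiagonal] at hp
    rw [← hp, map_add]
    omega

theorem wtIdeal_mul_le (a b : ℕ) :
    (wtIdeal W a : Ideal (MvPowerSeries Z O)) * wtIdeal W b ≤ wtIdeal W (a + b) := by
  classical
  refine Ideal.mul_le.2 fun f hf g hg x => ?_
  rw [MvPowerSeries.coeff_mul]
  refine Ideal.sum_mem _ fun p hp => ?_
  rw [Finset.HasAntidiagonal.mem_antidiagonal] at hp
  refine Ideal.pow_le_pow_right (?_ : a + b - wdeg W x ≤
    (a - wdeg W p.1) + (b - wdeg W p.2)) ?_
  · rw [← hp, map_add]; omega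
  · rw [pow_add]; exact Ideal.mul_mem_mul (hf _) (hg _)

theorem pow_le_wtIdeal {I : Ideal (MvPowerSeries Z O)} (hI : I ≤ wtIdeal W 1) (n : ℕ) :
    I ^ n ≤ wtIdeal W n := by
  induction n with
  | zero =>
    intro f _ x
    rw [Nat.zero_sub, pow_zero, Ideal.one_eq_top]
    exact Submodule.mem_top
  | succ n ih =>
    rw [pow_succ]
    exact (Ideal.mul_mono ih hI).trans (wtIdeal_mul_le W _ _)

/-- The ideal of `ϖ` and the weighted variables. -/
def wtGen (ϖ : O) : Ideal (MvPolynomial Z O) :=
  Ideal.span (insert (MvPolynomial.C ϖ) (MvPolynomial.X '' W))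

theorem coe_mem_wtIdeal {ϖ : O} (hϖ : ϖ ∈ maximalIdeal O) {p : MvPolynomial Z O}
    (hp : p ∈ wtGen W ϖ) : (p : MvPowerSeries Z O) ∈ wtIdeal W 1 := by
  classical
  have : wtGen W ϖ ≤ (wtIdeal (O := O) W 1).comap MvPolynomial.coeToMvPowerSeries.ringHom := by
    refine Ideal.span_le.2 ?_
    rintro _ (rfl | ⟨z, hz, rfl⟩)
    · intro x
      show coeff x ((MvPolynomial.C ϖ : MvPolynomial Z O) : MvPowerSeries Z O) ∈ _
      rw [MvPolynomial.coeff_coe, MvPolynomial.coeff_C]
      split_ifs with h
      · subst h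
        rw [map_zero, Nat.sub_zero, pow_one]
        exact hϖ
      · exact zero_mem _
    · intro x
      show coeff x ((MvPolynomial.X z : MvPolynomial Z O) : MvPowerSeries Z O) ∈ _
      rw [MvPolynomial.coeff_coe, MvPolynomial.coeff_X]
      split_ifs with h
      · subst h
        rw [show wdeg W (Finsupp.single z 1) = 1 by simp [wdeg, Finsupp.weight_single, hz],
          Nat.sub_self, pow_zero, Ideal.one_eq_top]
        exact Submodule.mem_top
      · exact zero_mem _
  exact this hp

theorem mem_pow_of_coe_mem {ϖ : O} (hϖ : maximalIdeal O = Ideal.span {ϖ}) {p : MvPolynomial Z O}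
    {n : ℕ} (hp : (p : MvPowerSeries Z O) ∈ wtIdeal W n) : p ∈ wtGen W ϖ ^ n := by
  classical
  have hmon : ∀ x : Z →₀ ℕ, MvPolynomial.monomial x (1 : O) ∈ wtGen W ϖ ^ wdeg W x := by
    intro x
    induction x using Finsupp.induction with
    | zero => rw [map_zero, pow_zero, Ideal.one_eq_top]; exact Submodule.mem_top
    | single_add z k x hz hk ih =>
      rw [map_add, pow_add, show MvPolynomial.monomial (Finsupp.single z k + x) (1 : O) =
        MvPolynomial.X z ^ k * MvPolynomial.monomial x 1 by
          rw [MvPolynomial.X_pow_eq_monomial, MvPolynomial.monomial_mul, one_mul]]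
      refine Ideal.mul_mem_mul ?_ ih
      by_cases hW : z ∈ W
      · rw [show wdeg W (Finsupp.single z k) = k by simp [wdeg, Finsupp.weight_single, hW]]
        exact Ideal.pow_mem_pow (show MvPolynomial.X z ∈ wtGen W ϖ from
          Ideal.subset_span (Or.inr ⟨z, hW, rfl⟩)) k
      · rw [show wdeg W (Finsupp.single z k) = 0 by simp [wdeg, Finsupp.weight_single, hW],
          pow_zero, Ideal.one_eq_top]
        exact Submodule.mem_top
  rw [p.as_sum]
  refine Ideal.sum_mem _ fun x _ => ?_
  have hc := hp x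
  rw [MvPolynomial.coeff_coe, hϖ, Ideal.span_singleton_pow, Ideal.mem_span_singleton] at hc
  obtain ⟨u, hu⟩ := hc
  rw [← mul_one (p.coeff x), ← MvPolynomial.C_mul_monomial, hu, map_mul, map_pow]
  refine Ideal.pow_le_pow_right (show n ≤ (n - wdeg W x) + wdeg W x by omega) ?_
  rw [pow_add]
  exact Ideal.mul_mem_mul (Ideal.mul_mem_right _ _
    (Ideal.pow_mem_pow (Ideal.subset_span (Set.mem_insert _ _)) _)) (hmon x)

/-- A series minus its truncation. -/
theorem sub_truncTotal_mem (f : MvPowerSeries V O) (n : ℕ) :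
    f - (MvPowerSeries.truncTotal n f : MvPolynomial V O) ∈
      Ideal.span (Set.range (MvPowerSeries.X : V → MvPowerSeries V O)) ^ n :=
  FLTAgent.Deform.mem_pow_of_coeff_eq_zero fun x hx => by
    rw [map_sub, MvPolynomial.coeff_coe, MvPowerSeries.coeff_truncTotal _ hx, sub_self]

theorem sub_C_mem (f : MvPowerSeries V O) :
    f - MvPowerSeries.C (MvPowerSeries.constantCoeff f) ∈
      Ideal.span (Set.range (MvPowerSeries.X : V → MvPowerSeries V O)) := by
  classical
  rw [← pow_one (Ideal.span _)]
  refine FLTAgent.Deform.mem_pow_of_coeff_eq_zero fun x hx => ?_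
  obtain rfl := (Finsupp.degree_eq_zero_iff x).1 (by omega)
  simp

variable [Finite Z] {q : V → MvPolynomial Z O}
  (hq : MvPowerSeries.HasSubst fun v => (q v : MvPowerSeries Z O))

theorem substAlgHom_coe_aeval (p : MvPolynomial V O) :
    MvPowerSeries.substAlgHom (R := O) hq (p : MvPowerSeries V O) =
      ((MvPolynomial.aeval q p : MvPolynomial Z O) : MvPowerSeries Z O) := by
  rw [MvPowerSeries.substAlgHom_coe]
  have : MvPolynomial.aeval (fun v => (q v : MvPowerSeries Z O)) =
      (MvPolynomial.coeToMvPowerSeries.algHom O).comp (MvPolynomial.aeval q) :=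
    MvPolynomial.algHom_ext fun v => by
      simp [MvPolynomial.coeToMvPowerSeries.algHom_apply]
  rw [this]
  simp [MvPolynomial.coeToMvPowerSeries.algHom_apply]

theorem substAlgHom_mem_pow {g : MvPowerSeries V O} {n : ℕ}
    (hg : g ∈ Ideal.span (Set.range (MvPowerSeries.X : V → MvPowerSeries V O)) ^ n) :
    MvPowerSeries.substAlgHom (R := O) hq g ∈
      Ideal.span (Set.range fun v => (q v : MvPowerSeries Z O)) ^ n := by
  have h := Ideal.mem_map_of_mem (MvPowerSeries.substAlgHom (R := O) hq).toRingHom hg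
  rw [Ideal.map_pow, Ideal.map_span, ← Set.range_comp] at h
  have e : ((MvPowerSeries.substAlgHom (R := O) hq).toRingHom ∘ MvPowerSeries.X) =
      fun v => (q v : MvPowerSeries Z O) := funext fun v => MvPowerSeries.substAlgHom_X hq v
  rw [e] at h
  exact h

/-- If a series vanishes on the parametrisation, its substituted truncations are deep. -/
theorem aeval_trunc_mem {ϖ : O} (hϖ : maximalIdeal O = Ideal.span {ϖ})
    (hqQ : ∀ v, q v ∈ wtGen W ϖ) {f : MvPowerSeries V O}
    (hf : MvPowerSeries.substAlgHom (R := O) hq f = 0) (n : ℕ) :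
    MvPolynomial.aeval q (MvPowerSeries.truncTotal n f) ∈ wtGen W ϖ ^ n := by
  refine mem_pow_of_coe_mem W hϖ ?_
  rw [← substAlgHom_coe_aeval hq]
  have h := substAlgHom_mem_pow hq (sub_truncTotal_mem f n)
  rw [map_sub, hf, zero_sub, neg_mem_iff] at h
  refine pow_le_wtIdeal W (Ideal.span_le.2 ?_) n h
  rintro _ ⟨v, rfl⟩
  exact coe_mem_wtIdeal W (hϖ ▸ Ideal.mem_span_singleton_self ϖ) (hqQ v)

/-- A series vanishing on a parametrisation through the origin has no constant term. -/
theorem constantCoeff_eq_zero_of_subst (hq0 : ∀ v, MvPolynomial.constantCoeff (q v) = 0)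
    {f : MvPowerSeries V O} (hf : MvPowerSeries.substAlgHom (R := O) hq f = 0) :
    MvPowerSeries.constantCoeff f = 0 := by
  have h := substAlgHom_mem_pow hq (n := 1) (by rw [pow_one]; exact sub_C_mem f)
  rw [pow_one, map_sub, hf, zero_sub, neg_mem_iff, ← MvPolynomial.coe_C,
    substAlgHom_coe_aeval hq, MvPolynomial.aeval_C, MvPolynomial.algebraMap_eq,
    MvPolynomial.coe_C] at h
  have hle : Ideal.span (Set.range fun v => (q v : MvPowerSeries Z O)) ≤
      RingHom.ker (MvPowerSeries.constantCoeff (σ := Z) (R := O)) := by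
    refine Ideal.span_le.2 ?_
    rintro _ ⟨v, rfl⟩
    rw [SetLike.mem_coe, RingHom.mem_ker, ← MvPowerSeries.coeff_zero_eq_constantCoeff_apply,
      MvPolynomial.coeff_coe, ← MvPolynomial.constantCoeff_eq]
    exact hq0 v
  simpa [RingHom.mem_ker] using hle h

end FLTAgent.Lower.Lift.Final
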