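import Mathlib
import Fermat.Agent.Lower.Lift.Dim
import Fermat.Agent.Lower.Lift.Final.Series
import Fermat.Prelude.Thm_IsAdicComplete_of_module_finite

/-!
# A parametrised locus of full dimension passes through the origin

`exists_prime_at_origin`: a domain, finite over `r`-variable power series, whose coordinates lie
on a parametrised locus which `r` equations cut down to the closed point in residue
characteristic has a prime of characteristic zero at which all coordinates vanish.  The series
vanishing on the parametrisation vanish in the domain, and a dimension count does the rest.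
-/

set_option autoImplicit false
set_option linter.unusedSectionVars false
set_option linter.style.haveILetI false

noncomputable section

namespace FLTAgent.Lower.Lift.Final

open IsLocalRing (maximalIdeal ResidueField)
open FLTAgent.Lower

variable {O : Type} [CommRing O] [IsDomain O] [IsDiscreteValuationRing O]
  [IsAdicComplete (maximalIdeal O) O] [Finite (ResidueField O)] {r : ℕ}

local notation "S" => MvPowerSeries (Fin r) O
local notation "𝔐" => maximalIdeal (MvPowerSeries (Fin r) O)

theorem isAdicComplete_series : IsAdicComplete 𝔐 S :=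
  { toIsHausdorff := isHausdorff_mvPowerSeries r
    toIsPrecomplete := FLTAgent.Deform.isPrecomplete_mvPowerSeries }

theorem algebraMap_eq_C {σ : Type} (a : O) :
    algebraMap O (MvPowerSeries σ O) a = MvPowerSeries.C a := by
  rw [MvPowerSeries.algebraMap_apply, Algebra.algebraMap_self, RingHom.id_apply]

theorem mem_maximalIdeal_of_vars {V : Type} [Finite V] {ϖ : O} (hϖ : Irreducible ϖ)
    {P : Ideal (MvPowerSeries V O)} (h1 : MvPowerSeries.C ϖ ∈ P)
    (h2 : ∀ v, MvPowerSeries.X v ∈ P) {f : MvPowerSeries V O}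
    (hf : f ∈ maximalIdeal (MvPowerSeries V O)) : f ∈ P := by
  have hc : MvPowerSeries.constantCoeff f ∈ maximalIdeal O := fun hu =>
    hf (MvPowerSeries.isUnit_iff_constantCoeff.2 hu)
  rw [hϖ.maximalIdeal_eq, Ideal.mem_span_singleton] at hc
  obtain ⟨u, hu⟩ := hc
  rw [← sub_add_cancel f (MvPowerSeries.C (MvPowerSeries.constantCoeff f))]
  refine add_mem (Ideal.span_le.2 ?_ (sub_C_mem f)) ?_
  · rintro _ ⟨v, rfl⟩; exact h2 v
  · rw [hu, map_mul]; exact Ideal.mul_mem_right _ _ h1

set_option maxHeartbeats 1000000 in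
-- one long assembly
/-- **The origin of a parametrised locus.** -/
theorem exists_prime_at_origin {D : Type} [CommRing D] [IsDomain D] [Algebra O D] [Algebra S D]
    [IsScalarTower O S D] [Module.Finite S D] (hinj : Function.Injective (algebraMap S D))
    {ϖ : O} (hϖ : Irreducible ϖ)
    {V Z : Type} [Finite V] [Finite Z] (y : V → D)
    (hy : ∀ Q : Ideal D, Q.IsPrime → Q.comap (algebraMap S D) = 𝔐 → ∀ v, y v ∈ Q)
    (hX : ∀ Q : Ideal D, Q.IsPrime → algebraMap O D ϖ ∈ Q → (∀ v, y v ∈ Q) →
      ∀ i, algebraMap S D (MvPowerSeries.X i) ∈ Q)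
    (W : Set Z) (q : V → MvPolynomial Z O) (hq0 : ∀ v, MvPolynomial.constantCoeff (q v) = 0)
    (hqQ : ∀ v, q v ∈ wtGen W ϖ)
    {K : Type} [Field K] [Algebra O K] [Algebra D K] [IsScalarTower O D K]
    (hDK : Function.Injective (algebraMap D K))
    (τ : Z → K) (hτ : ∀ v, MvPolynomial.aeval τ (q v) = algebraMap D K (y v))
    (B : ValuationSubring K) (hB : ∀ d, algebraMap D K d ∈ B) (hτB : ∀ z, τ z ∈ B)
    (M : Ideal D) [M.IsPrime] (hM : M.comap (algebraMap S D) = 𝔐)
    (hMB : ∀ d ∈ M, algebraMap D K d ∈ B.nonunits)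
    (hτW : ∀ z ∈ W, ∃ d ∈ M, τ z = algebraMap D K d)
    (L : Finset (MvPolynomial V O)) (hLcard : L.card ≤ r)
    (hL0 : ∀ p ∈ L, MvPolynomial.constantCoeff p ∈ maximalIdeal O)
    (hcut : ∀ (E : Type) [CommRing E] [IsDomain E] (g : MvPolynomial V O →+* E),
      (∀ p, MvPolynomial.aeval q p = 0 → g p = 0) → g (MvPolynomial.C ϖ) = 0 →
        (∀ p ∈ L, g p = 0) → ∀ v, g (MvPolynomial.X v) = 0) :
    ∃ Q : Ideal D, Q.IsPrime ∧ (∀ v, y v ∈ Q) ∧ algebraMap O D ϖ ∉ Q := by
  classical
  haveI := isAdicComplete_series (O := O) (r := r)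
  haveI : IsDomain (MvPowerSeries V O) := NoZeroDivisors.to_isDomain _
  haveI : IsDomain (MvPowerSeries Z O) := NoZeroDivisors.to_isDomain _
  haveI : IsNoetherianRing D := IsNoetherianRing.of_finite S D
  haveI : Algebra.IsIntegral S D := Algebra.IsIntegral.of_finite _ _
  have hϖS : (algebraMap O S ϖ) ∈ 𝔐 := fun hu => hϖ.not_isUnit (by
    have := MvPowerSeries.isUnit_iff_constantCoeff.1 hu
    rwa [algebraMap_eq_C, MvPowerSeries.constantCoeff_C] at this)
  have hϖQ : ∀ Q : Ideal D, Q.comap (algebraMap S D) = 𝔐 → algebraMap O D ϖ ∈ Q := fun Q hQ => by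
    rw [IsScalarTower.algebraMap_apply O S D, ← Ideal.mem_comap, hQ]; exact hϖS
  -- evaluation of series in `D`
  let J : Ideal D := (𝔐).map (algebraMap S D)
  haveI : IsAdicComplete J D :=
    (IsAdicComplete.map_algebraMap_iff 𝔐 D).2 (IsAdicComplete.of_module_finite 𝔐 D)
  obtain ⟨N, hN⟩ : ∃ N, Ideal.span (Set.range y) ^ N ≤ J := by
    refine Ideal.exists_pow_le_of_le_radical_of_fg (I := Ideal.span (Set.range y))
      (Ideal.span_le.2 ?_) (IsNoetherian.noetherian _)
    rintro _ ⟨v, rfl⟩
    rw [SetLike.mem_coe, Ideal.radical_eq_sInf, Ideal.mem_sInf]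
    rintro Q ⟨hle, hQ⟩
    exact hy Q hQ (le_antisymm (IsLocalRing.le_maximalIdeal (Ideal.IsPrime.comap _).ne_top)
      (Ideal.map_le_iff_le_comap.1 hle)) v
  obtain ⟨ψ, hψ⟩ := exists_seriesHom (O := O) J y hN
  have hψC : ∀ a : O, ψ (MvPowerSeries.C a) = algebraMap O D a := fun a => by
    rw [← ψ.commutes a, algebraMap_eq_C]
  have hψp : ∀ p : MvPolynomial V O, ψ (p : MvPowerSeries V O) = MvPolynomial.aeval y p := fun p => by
    have : ψ.comp (MvPolynomial.coeToMvPowerSeries.algHom O) = MvPolynomial.aeval y :=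
      MvPolynomial.algHom_ext fun v => by
        simp [MvPolynomial.coeToMvPowerSeries.algHom_apply, hψ]
    rw [← this]
    simp [MvPolynomial.coeToMvPowerSeries.algHom_apply]
  -- the parametrisation
  have hHS : MvPowerSeries.HasSubst fun v => (q v : MvPowerSeries Z O) :=
    MvPowerSeries.hasSubst_of_constantCoeff_zero fun v => by
      rw [← MvPowerSeries.coeff_zero_eq_constantCoeff_apply, MvPolynomial.coeff_coe,
        ← MvPolynomial.constantCoeff_eq]
      exact hq0 v
  let σ := MvPowerSeries.substAlgHom (R := O) hHS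
  let I : Ideal (MvPowerSeries V O) := RingHom.ker σ
  let K₀ : Ideal (MvPowerSeries V O) := RingHom.ker ψ
  haveI : I.IsPrime := RingHom.ker_isPrime _
  haveI : K₀.IsPrime := RingHom.ker_isPrime _
  -- series vanishing on the parametrisation vanish in `D`
  have hIK : I ≤ K₀ := by
    intro f hf
    let E : Subalgebra D K := Algebra.adjoin D (Set.range τ)
    haveI : IsNoetherianRing E :=
      isNoetherianRing_of_fg (Subalgebra.fg_def.2 ⟨_, Set.finite_range τ, rfl⟩)
    have hEB : ∀ e : E, (e : K) ∈ B := fun e => by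
      refine Algebra.adjoin_induction (p := fun x _ => x ∈ B) ?_ hB
        (fun _ _ _ _ ha hb => add_mem ha hb) (fun _ _ _ _ ha hb => mul_mem ha hb) e.2
      rintro _ ⟨z, rfl⟩
      exact hτB z
    let ι : E →+* B := ((algebraMap E K)).codRestrict B.toSubring hEB
    let ME : Ideal E := M.map (algebraMap D E)
    have hME : ME ≠ ⊤ := fun htop => by
      have hle : ME ≤ (maximalIdeal B).comap ι := Ideal.map_le_iff_le_comap.2 fun d hd => by
        rw [Ideal.mem_comap, Ideal.mem_comap]
        exact ValuationSubring.coe_mem_nonunits_iff.1 (hMB d hd)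
      rw [htop, top_le_iff] at hle
      exact Ideal.comap_ne_top _ (IsLocalRing.maximalIdeal.isMaximal B).ne_top hle
    let gE : MvPolynomial Z O →ₐ[O] E :=
      MvPolynomial.aeval fun z => (⟨τ z, Algebra.subset_adjoin ⟨z, rfl⟩⟩ : E)
    have hgEK : ∀ p, ((gE p : E) : K) = MvPolynomial.aeval τ p := fun p => by
      have : ((E.val.restrictScalars O).comp gE) = MvPolynomial.aeval τ :=
        MvPolynomial.algHom_ext fun z => by simp [gE]
      rw [← this]
      rfl
    have hgQ : wtGen W ϖ ≤ ME.comap gE := by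
      refine Ideal.span_le.2 ?_
      rintro _ (rfl | ⟨z, hz, rfl⟩)
      · rw [SetLike.mem_coe, Ideal.mem_comap, MvPolynomial.algHom_C,
          IsScalarTower.algebraMap_apply O D E]
        exact Ideal.mem_map_of_mem _ (hϖQ M hM)
      · obtain ⟨d, hd, hdz⟩ := hτW z hz
        rw [SetLike.mem_coe, Ideal.mem_comap]
        have : gE (MvPolynomial.X z) = algebraMap D E d := Subtype.ext (by
          rw [hgEK, MvPolynomial.aeval_X, hdz]; rfl)
        rw [this]
        exact Ideal.mem_map_of_mem _ hd
    have hkey : ∀ p : MvPolynomial V O, algebraMap D E (MvPolynomial.aeval y p) = gE (MvPolynomial.aeval q p) := by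
      intro p
      have : (IsScalarTower.toAlgHom O D ↥E).comp (MvPolynomial.aeval y) =
          gE.comp (MvPolynomial.aeval q) := MvPolynomial.algHom_ext fun v => Subtype.ext (by
        rw [AlgHom.comp_apply, AlgHom.comp_apply, MvPolynomial.aeval_X, MvPolynomial.aeval_X,
          hgEK, hτ]
        rfl)
      exact AlgHom.congr_fun this p
    have hall : ∀ n, algebraMap D E (ψ f) ∈ ME ^ n := by
      intro n
      set p := MvPowerSeries.truncTotal n f
      rw [show ψ f = ψ (f - (p : MvPowerSeries V O)) + ψ (p : MvPowerSeries V O) by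
        rw [← map_add, sub_add_cancel], map_add, hψp, hkey]
      refine add_mem ?_ ?_
      · rw [← Ideal.map_pow]
        refine Ideal.mem_map_of_mem _ ?_
        have h := Ideal.mem_map_of_mem ψ.toRingHom (sub_truncTotal_mem f n)
        rw [Ideal.map_pow, Ideal.map_span] at h
        refine Ideal.pow_right_mono (Ideal.span_le.2 ?_) n h
        rintro _ ⟨_, ⟨v, rfl⟩, rfl⟩
        exact (hψ v).symm ▸ hy M inferInstance hM v
      · have h := Ideal.pow_right_mono hgQ n
          (aeval_trunc_mem W hHS hϖ.maximalIdeal_eq hqQ (RingHom.mem_ker.1 hf) n)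
        exact Ideal.le_comap_pow _ n h
    have h0 : algebraMap D E (ψ f) = 0 := by
      rw [← Ideal.mem_bot, ← Ideal.iInf_pow_eq_bot_of_isDomain ME hME, Ideal.mem_iInf]
      exact hall
    exact hDK ((congrArg Subtype.val h0).trans (map_zero _).symm)
  have hI0 : ∀ f ∈ I, MvPowerSeries.constantCoeff f = 0 := fun f hf =>
    constantCoeff_eq_zero_of_subst hHS hq0 (RingHom.mem_ker.1 hf)
  -- dimension of the parametrised locus
  haveI : IsNoetherianRing (MvPowerSeries V O) := inferInstance
  haveI : Nontrivial (MvPowerSeries V O ⧸ I) :=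
    Ideal.Quotient.nontrivial_iff.2 ‹I.IsPrime›.ne_top
  haveI : IsLocalRing (MvPowerSeries V O ⧸ I) :=
    IsLocalRing.of_surjective' (Ideal.Quotient.mk I) Ideal.Quotient.mk_surjective
  have hdimI : ringKrullDim (MvPowerSeries V O ⧸ I) ≤ ((r + 1 : ℕ) : ℕ∞) := by
    let mkI := Ideal.Quotient.mk I
    let s : Finset (MvPowerSeries V O ⧸ I) := insert (mkI (MvPowerSeries.C ϖ))
      (L.image fun p : MvPolynomial V O => mkI (p : MvPowerSeries V O))
    have hs : maximalIdeal (MvPowerSeries V O ⧸ I) ∈
        (Ideal.span (s : Set (MvPowerSeries V O ⧸ I))).minimalPrimes := by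
      refine ⟨⟨inferInstance, IsLocalRing.le_maximalIdeal fun htop => ?_⟩, fun P ⟨hP, hsP⟩ _ => ?_⟩
      · have hle : Ideal.span (s : Set (MvPowerSeries V O ⧸ I)) ≤
            (maximalIdeal (MvPowerSeries V O)).map mkI := by
          refine Ideal.span_le.2 fun u hu => ?_
          rcases Finset.mem_insert.1 hu with rfl | hu
          · refine Ideal.mem_map_of_mem _ fun hu => hϖ.not_isUnit ?_
            simpa using MvPowerSeries.isUnit_iff_constantCoeff.1 hu
          · obtain ⟨p, hp, rfl⟩ := Finset.mem_image.1 hu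
            refine Ideal.mem_map_of_mem _ fun hu => hL0 p hp ?_
            have := MvPowerSeries.isUnit_iff_constantCoeff.1 hu
            rwa [← MvPowerSeries.coeff_zero_eq_constantCoeff_apply, MvPolynomial.coeff_coe,
              ← MvPolynomial.constantCoeff_eq] at this
        rw [htop, top_le_iff, IsLocalRing.map_maximalIdeal_of_surjective mkI
          Ideal.Quotient.mk_surjective] at hle
        exact (IsLocalRing.maximalIdeal.isMaximal _).ne_top hle
      · haveI := hP
        let P' := P.comap mkI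
        haveI : P'.IsPrime := Ideal.IsPrime.comap _
        haveI : IsDomain (MvPowerSeries V O ⧸ P') := Ideal.Quotient.isDomain P'
        let g : MvPolynomial V O →+* MvPowerSeries V O ⧸ P' :=
          (Ideal.Quotient.mk P').comp MvPolynomial.coeToMvPowerSeries.ringHom
        have hg : ∀ u : MvPolynomial V O, g u = 0 ↔ (u : MvPowerSeries V O) ∈ P' := fun u =>
          Ideal.Quotient.eq_zero_iff_mem
        have hPI : I ≤ P' := fun f hf => by
          show mkI f ∈ P
          rw [Ideal.Quotient.eq_zero_iff_mem.2 hf]; exact zero_mem _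
        have hC : MvPowerSeries.C ϖ ∈ P' :=
          hsP (Ideal.subset_span (Finset.mem_insert_self _ _))
        have hv := hcut _ g
          (fun u hu => (hg u).2 (hPI (RingHom.mem_ker.2 (by
            rw [substAlgHom_coe_aeval hHS, hu, MvPolynomial.coe_zero]))))
          ((hg _).2 (by rw [MvPolynomial.coe_C]; exact hC))
          (fun u hu => (hg u).2 (hsP (Ideal.subset_span
            (Finset.mem_insert_of_mem (Finset.mem_image_of_mem _ hu)))))
        intro a ha
        obtain ⟨f, rfl⟩ := Ideal.Quotient.mk_surjective a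
        exact mem_maximalIdeal_of_vars hϖ hC
          (fun v => by simpa [MvPolynomial.coe_X] using (hg _).1 (hv v))
          (show f ∈ maximalIdeal _ from fun hu => ha (hu.map mkI))
    rw [← IsLocalRing.maximalIdeal_height_eq_ringKrullDim]
    have h1 := Ideal.height_le_card_of_mem_minimalPrimes_span_finset hs
    have h2 : s.card ≤ r + 1 :=
      (Finset.card_insert_le _ _).trans (Nat.add_le_add_right (Finset.card_image_le.trans hLcard) 1)
    exact_mod_cast h1.trans (by exact_mod_cast h2)
  -- dimension of the image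
  haveI : Nontrivial (MvPowerSeries V O ⧸ K₀) :=
    Ideal.Quotient.nontrivial_iff.2 ‹K₀.IsPrime›.ne_top
  haveI : IsLocalRing (MvPowerSeries V O ⧸ K₀) :=
    IsLocalRing.of_surjective' (Ideal.Quotient.mk K₀) Ideal.Quotient.mk_surjective
  have hψm : ∀ (Q : Ideal D), algebraMap O D ϖ ∈ Q → (∀ v, y v ∈ Q) →
      ∀ f ∈ maximalIdeal (MvPowerSeries V O), ψ f ∈ Q := fun Q h1 h2 f hf =>
    mem_maximalIdeal_of_vars hϖ (P := Q.comap ψ) (by rw [Ideal.mem_comap, hψC]; exact h1)
      (fun v => by rw [Ideal.mem_comap, hψ]; exact h2 v) hf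
  have hdimK : ((r + 1 : ℕ) : WithBot ℕ∞) ≤ ringKrullDim (MvPowerSeries V O ⧸ K₀) := by
    let mkK := Ideal.Quotient.mk K₀
    obtain ⟨s, hs, hscard⟩ := Ideal.exists_finset_card_eq_height_of_isNoetherianRing
      (maximalIdeal (MvPowerSeries V O ⧸ K₀))
    choose lift hlift using Ideal.Quotient.mk_surjective (I := K₀)
    obtain ⟨C, hC⟩ := exists_fullChain hϖ r
    obtain ⟨Q, hQ, hQm, hQh⟩ := exists_prime_top C hinj
    let L' : Finset D := s.image fun u => ψ (lift u)
    have hdim : ringKrullDim (D ⧸ (⊥ : Ideal D)) ≤ (L'.card : ℕ∞) := by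
      refine ringKrullDim_quotient_le_of_list C ⊥ L' (fun P hP hPm v hv => ?_) fun u hu => ?_
      · obtain ⟨z, hz, rfl⟩ := Finset.mem_image.1 hv
        refine hψm P (hϖQ P hPm) (hy P hP hPm) _ fun hun => ?_
        have := hun.map mkK
        rw [hlift] at this
        exact hs.1.2 (Ideal.subset_span hz) this
      · rw [sup_bot_eq, Ideal.radical_eq_sInf, Ideal.mem_sInf]
        rintro P ⟨hle, hP⟩
        haveI := hP
        let P' : Ideal (MvPowerSeries V O) := P.comap ψ
        haveI : P'.IsPrime := Ideal.IsPrime.comap _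
        have hKP : K₀ ≤ P' := fun f hf => by
          rw [Ideal.mem_comap, RingHom.mem_ker.1 hf]; exact zero_mem _
        haveI : (P'.map mkK).IsPrime := Ideal.map_isPrime_of_surjective Ideal.Quotient.mk_surjective
          (by rw [Ideal.mk_ker]; exact hKP)
        have hm : maximalIdeal (MvPowerSeries V O ⧸ K₀) ≤ P'.map mkK :=
          hs.2 ⟨inferInstance, Ideal.span_le.2 fun z hz => by
            rw [← hlift z]
            exact Ideal.mem_map_of_mem _
              (hle (Ideal.subset_span (Finset.mem_coe.2 (Finset.mem_image_of_mem _ hz))))⟩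
            (IsLocalRing.le_maximalIdeal (Ideal.IsPrime.ne_top ‹_›))
        have hm' : maximalIdeal (MvPowerSeries V O) ≤ P' := fun f hf => by
          have h := hm (haveI := IsLocalHom.of_surjective mkK Ideal.Quotient.mk_surjective
            map_nonunit mkK f hf)
          rwa [← Ideal.mem_comap, Ideal.comap_map_of_surjective _ Ideal.Quotient.mk_surjective,
            ← RingHom.ker_eq_comap_bot, Ideal.mk_ker, sup_of_le_left hKP] at h
        have hϖP : algebraMap O D ϖ ∈ P := by
          rw [← hψC]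
          refine hm' fun hu => hϖ.not_isUnit ?_
          simpa using MvPowerSeries.isUnit_iff_constantCoeff.1 hu
        rw [hC] at hu
        rcases hu with rfl | ⟨i, rfl⟩
        · rw [show (MvPowerSeries.C ϖ : S) = algebraMap O S ϖ from (algebraMap_eq_C ϖ).symm,
            ← IsScalarTower.algebraMap_apply]
          exact hϖP
        · refine hX P hP hϖP (fun v => ?_) i
          rw [← hψ]
          exact hm' (FLTAgent.Deform.span_range_X_le_maximalIdeal (Ideal.subset_span ⟨v, rfl⟩))
    rw [← IsLocalRing.maximalIdeal_height_eq_ringKrullDim, ← hscard]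
    calc ((r + 1 : ℕ) : WithBot ℕ∞) ≤ (Q.height : WithBot ℕ∞) := by exact_mod_cast hQh
      _ ≤ ringKrullDim D := Ideal.height_le_ringKrullDim_of_ne_top hQ.ne_top
      _ ≤ ringKrullDim (D ⧸ (⊥ : Ideal D)) :=
        ringKrullDim_le_of_surjective (RingEquiv.quotientBot D).toRingHom
          (RingEquiv.quotientBot D).surjective
      _ ≤ ((L'.card : ℕ∞) : WithBot ℕ∞) := hdim
      _ ≤ _ := by exact_mod_cast Finset.card_image_le
  have hKI : K₀ = I := by
    refine le_antisymm (fun g hg => ?_) hIK
    by_contra hgI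
    haveI : IsDomain (MvPowerSeries V O ⧸ I) := Ideal.Quotient.isDomain I
    let g' := Ideal.Quotient.mk I g
    have hg' : g' ≠ 0 := fun h => hgI (Ideal.Quotient.eq_zero_iff_mem.1 h)
    have h1 := ringKrullDim_quotient_succ_le_of_nonZeroDivisor
      (mem_nonZeroDivisors_of_ne_zero hg')
    let π : (MvPowerSeries V O ⧸ I) ⧸ Ideal.span {g'} →+* MvPowerSeries V O ⧸ K₀ :=
      Ideal.Quotient.lift _ (Ideal.Quotient.factor hIK) fun a ha => by
        obtain ⟨c, rfl⟩ := Ideal.mem_span_singleton'.1 ha
        rw [map_mul, Ideal.Quotient.factor_mk, Ideal.Quotient.eq_zero_iff_mem.2 hg, mul_zero]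
    have h2 : ringKrullDim (MvPowerSeries V O ⧸ K₀) ≤
        ringKrullDim ((MvPowerSeries V O ⧸ I) ⧸ Ideal.span {g'}) :=
      ringKrullDim_le_of_surjective π fun a => by
        obtain ⟨f, rfl⟩ := Ideal.Quotient.mk_surjective a
        exact ⟨Ideal.Quotient.mk _ (Ideal.Quotient.mk I f), rfl⟩
    have h3 : ((r + 1 : ℕ) : WithBot ℕ∞) + 1 ≤ ((r + 1 : ℕ) : WithBot ℕ∞) :=
      (add_le_add (hdimK.trans h2) le_rfl).trans (h1.trans (by exact_mod_cast hdimI))
    have h4 : r + 1 + 1 ≤ r + 1 := by exact_mod_cast h3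
    omega
  -- `D` is finite over the series
  letI : Algebra (MvPowerSeries V O) D := ψ.toRingHom.toAlgebra
  set mR := maximalIdeal (MvPowerSeries V O) with hmR
  haveI : IsAdicComplete mR (MvPowerSeries V O) :=
    { toIsHausdorff := IsHausdorff.of_isLocalRing _ _ (IsLocalRing.maximalIdeal.isMaximal _).ne_top
      toIsPrecomplete := FLTAgent.Deform.isPrecomplete_mvPowerSeries }
  have hmapM : mR.map (algebraMap (MvPowerSeries V O) D) ≤ M :=
    Ideal.map_le_iff_le_comap.2 fun f hf => hψm M (hϖQ M hM) (hy M inferInstance hM) f hf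
  haveI : IsHausdorff mR D := IsHausdorff.map_algebraMap_iff.1 ⟨fun x hx => by
    simp only [SModEq.zero] at hx
    rw [← Ideal.mem_bot, ← Ideal.iInf_pow_eq_bot_of_isDomain M ‹M.IsPrime›.ne_top, Ideal.mem_iInf]
    exact fun n => Ideal.pow_right_mono hmapM n (Submodule.smul_le.2
      (fun a ha b _ => Ideal.mul_mem_right b _ ha) (hx n))⟩
  haveI : Module.Finite (MvPowerSeries V O) D := by
    let J' : Ideal D := mR.map (algebraMap (MvPowerSeries V O) D)
    obtain ⟨N', hN'⟩ : ∃ N', J ^ N' ≤ J' := by
      refine Ideal.exists_pow_le_of_le_radical_of_fg (Ideal.map_le_iff_le_comap.2 fun u hu => ?_)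
        (IsNoetherian.noetherian _)
      rw [Ideal.mem_comap, Ideal.radical_eq_sInf, Ideal.mem_sInf]
      rintro Q ⟨hle, hQ⟩
      have hin : ∀ f ∈ mR, ψ f ∈ Q := fun f hf => hle (Ideal.mem_map_of_mem _ hf)
      have hϖ' : algebraMap O D ϖ ∈ Q := by
        rw [← hψC]
        refine hin _ fun hu => hϖ.not_isUnit ?_
        simpa using MvPowerSeries.isUnit_iff_constantCoeff.1 hu
      have hy' : ∀ v, y v ∈ Q := fun v => by
        rw [← hψ]
        exact hin _ (FLTAgent.Deform.span_range_X_le_maximalIdeal (Ideal.subset_span ⟨v, rfl⟩))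
      refine mem_maximalIdeal_of_vars hϖ (P := Q.comap (algebraMap S D)) ?_ ?_ hu
      · rw [Ideal.mem_comap, show (MvPowerSeries.C ϖ : S) = algebraMap O S ϖ from (algebraMap_eq_C ϖ).symm,
          ← IsScalarTower.algebraMap_apply]
        exact hϖ'
      · exact fun i => hX Q hQ hϖ' hy' i
    haveI : Finite (S ⧸ (𝔐) ^ N') := finite_quotient_pow r N'
    obtain ⟨k, b, hb⟩ := Submodule.fg_iff_exists_fin_generating_family.1
      (Module.finite_def.1 ‹Module.Finite S D›)
    choose rep hrep using Ideal.Quotient.mk_surjective (I := (𝔐) ^ N')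
    let G : (Fin k → S ⧸ (𝔐) ^ N') → D := fun c => ∑ i, algebraMap S D (rep (c i)) * b i
    haveI := Fintype.ofFinite (Fin k → S ⧸ (𝔐) ^ N')
    let f := Fintype.linearCombination (MvPowerSeries V O) G
    haveI : IsPrecomplete mR ((Fin k → S ⧸ (𝔐) ^ N') → MvPowerSeries V O) :=
      (IsAdicComplete.of_module_finite mR _).toIsPrecomplete
    have hf : Function.Surjective f := surjective_of_mkQ_comp_surjective (I := mR) fun x => by
      obtain ⟨d, rfl⟩ := Submodule.Quotient.mk_surjective _ x
      obtain ⟨c, hc⟩ := (Submodule.mem_span_range_iff_exists_fun S).1 (hb ▸ Submodule.mem_top (x := d))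
      refine ⟨Pi.single (fun i => Ideal.Quotient.mk _ (c i)) 1, ?_⟩
      rw [LinearMap.comp_apply, Fintype.linearCombination_apply_single, one_smul,
        Submodule.mkQ_apply, Submodule.Quotient.eq, Ideal.smul_top_eq_map, ← hc]
      refine hN' ?_
      simp only [G, ← Finset.sum_sub_distrib, Algebra.smul_def, ← sub_mul, ← map_sub]
      refine Ideal.sum_mem _ fun i _ => Ideal.mul_mem_right _ _ ?_
      rw [← Ideal.map_pow]
      refine Ideal.mem_map_of_mem _ ?_
      rw [← Ideal.Quotient.mk_eq_mk_iff_sub_mem, hrep]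
    exact Module.Finite.of_surjective f hf
  haveI : Algebra.IsIntegral (MvPowerSeries V O) D := Algebra.IsIntegral.of_finite _ _
  -- the prime over the origin
  haveI : (RingHom.ker (MvPowerSeries.constantCoeff (σ := V) (R := O))).IsPrime :=
    RingHom.ker_isPrime _
  obtain ⟨Q, -, hQ, hQc⟩ := Ideal.exists_ideal_over_prime_of_isIntegral
    (RingHom.ker (MvPowerSeries.constantCoeff (σ := V) (R := O))) (⊥ : Ideal D)
    (fun f hf => RingHom.mem_ker.2 (hI0 f (hKI ▸ RingHom.mem_ker.2 hf)))
  refine ⟨Q, hQ, fun v => ?_, fun hmem => hϖ.ne_zero ?_⟩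
  · rw [← hψ]
    exact hQc.ge (RingHom.mem_ker.2 (MvPowerSeries.constantCoeff_X v))
  · have h : MvPowerSeries.C ϖ ∈ RingHom.ker (MvPowerSeries.constantCoeff (σ := V) (R := O)) :=
      hQc.le (show ψ (MvPowerSeries.C ϖ) ∈ Q by rw [hψC]; exact hmem)
    simpa [RingHom.mem_ker] using h

end FLTAgent.Lower.Lift.Final
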