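import Mathlib
import Fermat.Agent.Lower.Lift.Final.Locus
import Fermat.Agent.Lower.Lift.Final.Frame

/-!
# Coordinates at the special places

`Target` records the special pairs of the lift to be reached at each place, `varMat` the matrices
with coordinates around it, `Frame` a basis with upper triangular inertia part.  The polynomials
`cutPolys` (three at a scalar place, one otherwise, `Target.weight`) leave only the target in
residue characteristic (`vars_eq_zero_of_cutPolys`); by counting, on a domain of full dimension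
the upper entry of inertia cannot vanish at a scalar place in any frame (`frame_upper_ne_zero`).
-/

set_option autoImplicit false
set_option linter.unusedSectionVars false
set_option linter.style.haveILetI false

noncomputable section

namespace FLTAgent.Lower.Lift.Final

open IsLocalRing (maximalIdeal ResidueField)
open FLTAgent.Lower

/-- The variables: the test elements and the entries of the pairs, centred at the target. -/
abbrev Var (g : ℕ) (Λ : Type) : Type := Fin g ⊕ (Λ × Bool × Fin 2 × Fin 2)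

/-- The target values at the places: the inertia part (`false`) and Frobenius (`true`). -/
structure Target (O : Type) [CommRing O] [IsLocalRing O] (Λ : Type) where
  sc : Λ → Bool
  l : Λ → ℕ
  e : Λ → ℤ
  W : Λ → Bool → Matrix (Fin 2) (Fin 2) O
  sq : ∀ k, e k * e k = 1
  unit : ∀ k, IsUnit (l k : O)
  spec : ∀ k, SpecialPair (l k : O) (e k : O) (W k false) (W k true)
  ne : ∀ k, W k false ≠ 0
  memN : ∀ k i j, W k false i j ∈ maximalIdeal O
  memF : ∀ k, sc k = true → ∀ i j, (W k true - (e k : O) • 1) i j ∈ maximalIdeal O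
  one : ∀ k, sc k = true → (l k : O) - 1 ∈ maximalIdeal O
  comp : ∀ k, sc k = false → W k true 0 0 = 0 ∧ W k true 1 0 = 1

variable {O : Type} [CommRing O] {g : ℕ} {Λ : Type}

/-- The matrices with coordinates `y` around the target. -/
def varMat {R : Type} [CommRing R] [Algebra O R] (W : Λ → Bool → Matrix (Fin 2) (Fin 2) O)
    (y : Var g Λ → R) (k : Λ) (b : Bool) : Matrix (Fin 2) (Fin 2) R :=
  (W k b).map (algebraMap O R) + Matrix.of fun i j => y (.inr (k, b, i, j))

theorem varMat_map {R R' : Type} [CommRing R] [Algebra O R] [CommRing R'] [Algebra O R']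
    (W : Λ → Bool → Matrix (Fin 2) (Fin 2) O) (f : R →ₐ[O] R') (y : Var g Λ → R) (k : Λ)
    (b : Bool) : f.toRingHom.mapMatrix (varMat W y k b) = varMat W (f ∘ y) k b := by
  ext i j
  simp [varMat]

theorem varMat_apply {R : Type} [CommRing R] [Algebra O R]
    (W : Λ → Bool → Matrix (Fin 2) (Fin 2) O) (y : Var g Λ → R) (k : Λ) (b : Bool) (i j : Fin 2) :
    varMat W y k b i j = algebraMap O R (W k b i j) + y (.inr (k, b, i, j)) :=
  rfl

variable [IsDomain O] [IsDiscreteValuationRing O]

/-- A frame at each place with upper triangular inertia part. -/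
structure Frame (T : Target O Λ) (k : Λ) where
  G : Matrix (Fin 2) (Fin 2) O
  Gi : Matrix (Fin 2) (Fin 2) O
  bW : O
  inv : G * Gi = 1
  inv' : Gi * G = 1
  upper : Gi * T.W k false * G = !![0, bW; 0, 0]

variable {T : Target O Λ} {k : Λ}

theorem nonempty_frame (T : Target O Λ) (k : Λ) : Nonempty (Frame T k) :=
  let ⟨G, Gi, b, h1, h2, h3⟩ := exists_frame (T.spec k).trN (T.spec k).sqN (T.ne k)
  ⟨⟨G, Gi, b, h1, h2, h3⟩⟩

/-- The upper entry of Frobenius in a frame. -/
def Frame.BW (Fr : Frame T k) : O := (Fr.Gi * T.W k true * Fr.G) 0 1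

/-- Conjugation by a frame. -/
def Frame.conj {R : Type} [CommRing R] [Algebra O R] (Fr : Frame T k)
    (X : Matrix (Fin 2) (Fin 2) R) : Matrix (Fin 2) (Fin 2) R :=
  Fr.Gi.map (algebraMap O R) * X * Fr.G.map (algebraMap O R)

/-- The inverse conjugation. -/
def Frame.back {R : Type} [CommRing R] [Algebra O R] (Fr : Frame T k)
    (X : Matrix (Fin 2) (Fin 2) R) : Matrix (Fin 2) (Fin 2) R :=
  Fr.G.map (algebraMap O R) * X * Fr.Gi.map (algebraMap O R)

variable {R : Type} [CommRing R] [Algebra O R]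

theorem Frame.inv_map (Fr : Frame T k) :
    Fr.G.map (algebraMap O R) * Fr.Gi.map (algebraMap O R) = 1 := by
  rw [← Matrix.map_mul, Fr.inv, Matrix.map_one _ (map_zero _) (map_one _)]

theorem Frame.inv_map' (Fr : Frame T k) :
    Fr.Gi.map (algebraMap O R) * Fr.G.map (algebraMap O R) = 1 := by
  rw [← Matrix.map_mul, Fr.inv', Matrix.map_one _ (map_zero _) (map_one _)]

theorem Frame.back_conj (Fr : Frame T k) (X : Matrix (Fin 2) (Fin 2) R) :
    Fr.back (Fr.conj X) = X := by
  rw [Frame.back, Frame.conj, ← Matrix.mul_assoc, ← Matrix.mul_assoc, Fr.inv_map, Matrix.one_mul,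
    Matrix.mul_assoc, Fr.inv_map, Matrix.mul_one]

theorem Frame.conj_map {R' : Type} [CommRing R'] [Algebra O R'] (Fr : Frame T k) (f : R →ₐ[O] R')
    (X : Matrix (Fin 2) (Fin 2) R) :
    f.toRingHom.mapMatrix (Fr.conj X) = Fr.conj (f.toRingHom.mapMatrix X) := by
  have h : ∀ M : Matrix (Fin 2) (Fin 2) O, f.toRingHom.mapMatrix (M.map (algebraMap O R)) =
      M.map (algebraMap O R') := fun M => by ext i j; simp
  rw [Frame.conj, map_mul, map_mul, h, h, Frame.conj]

theorem Frame.back_map {R' : Type} [CommRing R'] [Algebra O R'] (Fr : Frame T k) (f : R →ₐ[O] R')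
    (X : Matrix (Fin 2) (Fin 2) R) :
    f.toRingHom.mapMatrix (Fr.back X) = Fr.back (f.toRingHom.mapMatrix X) := by
  have h : ∀ M : Matrix (Fin 2) (Fin 2) O, f.toRingHom.mapMatrix (M.map (algebraMap O R)) =
      M.map (algebraMap O R') := fun M => by ext i j; simp
  rw [Frame.back, map_mul, map_mul, h, h, Frame.back]

theorem Frame.conj_algebraMap (Fr : Frame T k) (b : Bool) :
    Fr.conj ((T.W k b).map (algebraMap O R)) = (Fr.Gi * T.W k b * Fr.G).map (algebraMap O R) := by
  rw [Frame.conj, Matrix.map_mul, Matrix.map_mul]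

theorem Frame.conj_N (Fr : Frame T k) :
    Fr.Gi * T.W k false * Fr.G = paramN (0 : O) Fr.bW := by
  rw [Fr.upper]
  ext i j; fin_cases i <;> fin_cases j <;> simp [paramN]

theorem Frame.bW_ne (Fr : Frame T k) : Fr.bW ≠ 0 := fun h => T.ne k (by
  have h1 : Fr.G * (Fr.Gi * T.W k false * Fr.G) * Fr.Gi = T.W k false := by
    rw [← Matrix.mul_assoc, ← Matrix.mul_assoc, Fr.inv, Matrix.one_mul, Matrix.mul_assoc, Fr.inv,
      Matrix.mul_one]
  rw [← h1, Fr.upper, h, show (!![0, 0; 0, 0] : Matrix (Fin 2) (Fin 2) O) = 0 by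
    ext i j; fin_cases i <;> fin_cases j <;> rfl, Matrix.mul_zero, Matrix.zero_mul])

theorem Target.natCast_ne [CharZero O] (T : Target O Λ) (k : Λ) :
    (T.l k : O) ≠ 0 ∧ (T.l k : O) + 1 ≠ 0 :=
  ⟨(T.unit k).ne_zero, by exact_mod_cast Nat.succ_ne_zero (T.l k)⟩

theorem Frame.conj_F [CharZero O] (Fr : Frame T k) :
    Fr.Gi * T.W k true * Fr.G = paramF (T.l k : O) (T.e k : O) 0 Fr.BW := by
  obtain ⟨hl0, hl1⟩ := T.natCast_ne k
  exact (((T.spec k).conj Fr.inv).eq_param hl0 hl1
    (by rw [Fr.upper]; simpa using Fr.bW_ne) (t := 0) (by rw [Fr.upper]; simp)).2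

theorem Frame.bW_mem (Fr : Frame T k) : Fr.bW ∈ maximalIdeal O := by
  rw [show Fr.bW = (Fr.Gi * T.W k false * Fr.G) 0 1 by rw [Fr.upper]; rfl]
  simp only [Matrix.mul_apply]
  exact Ideal.sum_mem _ fun a _ => Ideal.mul_mem_right _ _
    (Ideal.sum_mem _ fun b _ => Ideal.mul_mem_left _ _ (T.memN k b a))

theorem Frame.BW_mem (Fr : Frame T k) (hsc : T.sc k = true) : Fr.BW ∈ maximalIdeal O := by
  have h : Fr.BW = (Fr.Gi * (T.W k true - (T.e k : O) • 1) * Fr.G) 0 1 := by
    rw [Matrix.mul_sub, Matrix.sub_mul, Matrix.mul_smul, Matrix.mul_one, Matrix.smul_mul, Fr.inv',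
      Matrix.sub_apply, Matrix.smul_apply, Matrix.one_apply_ne (by decide), smul_zero, sub_zero]
    rfl
  rw [h]
  simp only [Matrix.mul_apply]
  exact Ideal.sum_mem _ fun a _ => Ideal.mul_mem_right _ _
    (Ideal.sum_mem _ fun b _ => Ideal.mul_mem_left _ _ (T.memF k hsc b a))

section Cut

variable [CharZero O] {E : Type} [CommRing E] [IsDomain E] [Algebra O E]

theorem algebraMap_eq_zero_of_mem {ϖ : O} (hϖ : Irreducible ϖ) (h0 : algebraMap O E ϖ = 0)
    {a : O} (ha : a ∈ maximalIdeal O) : algebraMap O E a = 0 := by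
  rw [hϖ.maximalIdeal_eq, Ideal.mem_span_singleton] at ha
  obtain ⟨u, rfl⟩ := ha
  rw [map_mul, h0, zero_mul]

/-- At a scalar place in residue characteristic the cut leaves the target. -/
theorem vars_eq_zero_scalar {ϖ : O} (hϖ : Irreducible ϖ) (h0 : algebraMap O E ϖ = 0)
    (Fr : Frame T k) (hsc : T.sc k = true) (y : Var g Λ → E)
    (H : SpecialPair (T.l k : E) (T.e k : E) (varMat T.W y k false) (varMat T.W y k true))
    (hb : Fr.conj (varMat T.W y k false) 0 1 = 0)
    (hC : Fr.conj (varMat T.W y k true) 1 0 = 0)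
    (hcB : Fr.conj (varMat T.W y k false) 1 0 = Fr.conj (varMat T.W y k true) 0 1) :
    ∀ b i j, y (.inr (k, b, i, j)) = 0 := by
  have hl : (T.l k : E) = 1 := by
    have := algebraMap_eq_zero_of_mem hϖ h0 (T.one k hsc)
    rwa [map_sub, map_natCast, map_one, sub_eq_zero] at this
  obtain ⟨hN, hF⟩ := (H.conj Fr.inv_map).eq_scalar_of_cut hl
    (by rw [← Int.cast_mul, T.sq, Int.cast_one]) hb hC hcB
  have hN' : varMat T.W y k false = 0 := by
    rw [← Fr.back_conj (varMat T.W y k false), Frame.conj, hN, Frame.back, Matrix.mul_zero,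
      Matrix.zero_mul]
  have hF' : varMat T.W y k true = (T.e k : E) • 1 := by
    rw [← Fr.back_conj (varMat T.W y k true), Frame.conj, hF, Frame.back, Matrix.mul_smul,
      Matrix.mul_one, Matrix.smul_mul, Fr.inv_map]
  intro b i j
  cases b
  · have h := congrFun (congrFun hN' i) j
    rwa [varMat_apply, algebraMap_eq_zero_of_mem hϖ h0 (T.memN k i j), zero_add,
      Matrix.zero_apply] at h
  · have h := congrFun (congrFun hF' i) j
    have h2 := algebraMap_eq_zero_of_mem hϖ h0 (T.memF k hsc i j)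
    rw [Matrix.sub_apply, map_sub, sub_eq_zero] at h2
    rw [varMat_apply, h2] at h
    have h3 : algebraMap O E (((T.e k : O) • (1 : Matrix (Fin 2) (Fin 2) O)) i j) =
        ((T.e k : E) • (1 : Matrix (Fin 2) (Fin 2) E)) i j := by
      rw [Matrix.smul_apply, Matrix.smul_apply, Matrix.one_apply, Matrix.one_apply]
      split <;> simp
    rwa [h3, add_eq_left] at h

/-- At a nonscalar place in residue characteristic the cut leaves the target. -/
theorem vars_eq_zero_comp {ϖ : O} (hϖ : Irreducible ϖ) (h0 : algebraMap O E ϖ = 0)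
    (hns : T.sc k = false) (y : Var g Λ → E)
    (H : SpecialPair (T.l k : E) (T.e k : E) (varMat T.W y k false) (varMat T.W y k true))
    (h00 : y (.inr (k, true, 0, 0)) = 0) (h10 : y (.inr (k, true, 1, 0)) = 0)
    (hb : varMat T.W y k false 0 1 = 0) :
    ∀ b i j, y (.inr (k, b, i, j)) = 0 := by
  obtain ⟨hW0, hW1⟩ := T.comp k hns
  obtain ⟨hl0, hl1⟩ := T.natCast_ne k
  obtain ⟨-, hWF⟩ := (T.spec k).eq_comp hl0 hl1 hW0 hW1
  have hlE : (T.l k : E) ≠ 0 := by
    simpa using ((T.unit k).map (algebraMap O E)).ne_zero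
  have hF0 : varMat T.W y k true 0 0 = 0 := by rw [varMat_apply, hW0, h00, map_zero, add_zero]
  have hF1 : varMat T.W y k true 1 0 = 1 := by rw [varMat_apply, hW1, h10, map_one, add_zero]
  obtain ⟨hd, hsq, he00, -, -, htr, hdet⟩ := H.entries
  set N := varMat T.W y k false
  set F := varMat T.W y k true
  rw [hb, zero_mul, add_zero] at hsq
  have ha : N 0 0 = 0 := mul_self_eq_zero.1 hsq
  rw [hF0, hF1] at hdet
  rw [hF0, zero_add] at htr
  have hF01 : F 0 1 = -(T.l k : E) := by linear_combination -hdet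
  rw [hF01, hF0, ha, hb] at he00
  simp only [mul_zero, zero_mul, add_zero, zero_add, neg_mul, neg_eq_zero] at he00
  have hc : N 1 0 = 0 := (mul_eq_zero.1 he00).resolve_left hlE
  have hW := congrFun (congrFun hWF 0) 1
  have hW' := congrFun (congrFun hWF 1) 1
  simp [compF] at hW hW'
  intro b i j
  cases b
  · have hz : N i j = 0 := by
      fin_cases i <;> fin_cases j <;> simp [ha, hb, hc, hd]
    rwa [show N i j = _ from varMat_apply T.W y k false i j,
      algebraMap_eq_zero_of_mem hϖ h0 (T.memN k i j), zero_add] at hz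
  · fin_cases i <;> fin_cases j
    · exact h00
    · have := hF01
      rw [show F 0 1 = _ from varMat_apply T.W y k true 0 1, hW] at this
      simpa using this
    · exact h10
    · have := htr
      rw [show F 1 1 = _ from varMat_apply T.W y k true 1 1, hW'] at this
      simpa using this

/-- The cutting polynomials at a place. -/
def cutPolys (Fr : (k : Λ) → Frame T k) (k : Λ) : List (MvPolynomial (Var g Λ) O) :=
  let N := varMat T.W (MvPolynomial.X : Var g Λ → MvPolynomial (Var g Λ) O) k false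
  let F := varMat T.W (MvPolynomial.X : Var g Λ → MvPolynomial (Var g Λ) O) k true
  if T.sc k then [(Fr k).conj N 0 1, (Fr k).conj F 1 0, (Fr k).conj N 1 0 - (Fr k).conj F 0 1]
  else [N 0 1]

theorem length_cutPolys (Fr : (k : Λ) → Frame T k) (k : Λ) :
    (cutPolys (g := g) Fr k).length = if T.sc k then 3 else 1 := by
  unfold cutPolys
  split <;> rfl

theorem constantCoeff_conj (Fr₀ : Frame T k) (b : Bool) (i j : Fin 2) :
    MvPolynomial.constantCoeff (Fr₀.conj
      (varMat T.W (MvPolynomial.X : Var g Λ → MvPolynomial (Var g Λ) O) k b) i j) =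
      (Fr₀.Gi * T.W k b * Fr₀.G) i j := by
  let cc : MvPolynomial (Var g Λ) O →ₐ[O] O := MvPolynomial.aeval (0 : Var g Λ → O)
  have hcc : ∀ q, MvPolynomial.constantCoeff q = cc q := fun q =>
    (MvPolynomial.aeval_zero q).symm.trans rfl
  have hv : cc.toRingHom.mapMatrix
      (varMat T.W (MvPolynomial.X : Var g Λ → MvPolynomial (Var g Λ) O) k b) = T.W k b := by
    rw [varMat_map]
    ext i j
    simp [varMat, cc]
  rw [hcc, show cc (Fr₀.conj _ i j) = cc.toRingHom.mapMatrix (Fr₀.conj _) i j from rfl,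
    Frame.conj_map, hv, Frame.conj, Algebra.algebraMap_self]
  simp

theorem constantCoeff_cutPolys (Fr : (k : Λ) → Frame T k) (k : Λ)
    {p : MvPolynomial (Var g Λ) O} (hp : p ∈ cutPolys Fr k) :
    MvPolynomial.constantCoeff p ∈ maximalIdeal O := by
  unfold cutPolys at hp
  split at hp <;> rename_i hsc <;> simp only [List.mem_cons, List.not_mem_nil, or_false] at hp
  · rcases hp with rfl | rfl | rfl
    · rw [constantCoeff_conj, (Fr k).upper]; exact (Fr k).bW_mem
    · rw [constantCoeff_conj, (Fr k).conj_F]; simp [paramF]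
    · rw [map_sub, constantCoeff_conj, constantCoeff_conj, (Fr k).upper]
      exact sub_mem (by simp) ((Fr k).BW_mem hsc)
  · subst hp
    rw [varMat_apply, map_add, MvPolynomial.algebraMap_eq, MvPolynomial.constantCoeff_C,
      MvPolynomial.constantCoeff_X, add_zero]
    exact T.memN k 0 1

/-- The cut leaves only the target. -/
theorem vars_eq_zero_of_cutPolys {ϖ : O} (hϖ : Irreducible ϖ) (h0 : algebraMap O E ϖ = 0)
    (Fr : (k : Λ) → Frame T k) (k : Λ) (ev : MvPolynomial (Var g Λ) O →ₐ[O] E)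
    (H : SpecialPair (T.l k : E) (T.e k : E) (varMat T.W (ev ∘ MvPolynomial.X) k false)
      (varMat T.W (ev ∘ MvPolynomial.X) k true))
    (hcomp : T.sc k = false → ev (MvPolynomial.X (.inr (k, true, 0, 0))) = 0 ∧
      ev (MvPolynomial.X (.inr (k, true, 1, 0))) = 0)
    (hL : ∀ p ∈ cutPolys Fr k, ev p = 0) :
    ∀ b i j, ev (MvPolynomial.X (.inr (k, b, i, j))) = 0 := by
  have hent : ∀ b i j, ev ((Fr k).conj
      (varMat T.W (MvPolynomial.X : Var g Λ → MvPolynomial (Var g Λ) O) k b) i j) =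
      (Fr k).conj (varMat T.W (ev ∘ MvPolynomial.X) k b) i j := fun b i j => by
    rw [← varMat_map, ← Frame.conj_map]
    rfl
  by_cases hsc : T.sc k = true
  · unfold cutPolys at hL
    rw [if_pos hsc] at hL
    refine vars_eq_zero_scalar hϖ h0 (Fr k) hsc (ev ∘ MvPolynomial.X) H ?_ ?_ ?_
    · rw [← hent]; exact hL _ (by simp)
    · rw [← hent]; exact hL _ (by simp)
    · rw [← sub_eq_zero, ← hent, ← hent, ← map_sub]; exact hL _ (by simp)
  · rw [Bool.not_eq_true] at hsc
    unfold cutPolys at hL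
    rw [if_neg (by simp [hsc])] at hL
    refine vars_eq_zero_comp hϖ h0 hsc (ev ∘ MvPolynomial.X) H (hcomp hsc).1 (hcomp hsc).2 ?_
    have := hL _ (List.mem_singleton_self _)
    rw [← varMat_map]
    exact this

end Cut

section Main

variable [IsAdicComplete (maximalIdeal O) O] [Finite (ResidueField O)] [CharZero O] [Fintype Λ]
  {r : ℕ}

local notation "S" => MvPowerSeries (Fin r) O
local notation "𝔐" => maximalIdeal (MvPowerSeries (Fin r) O)

variable {D : Type} [CommRing D] [IsDomain D] [Algebra O D] [Algebra (MvPowerSeries (Fin r) O) D]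
  [IsScalarTower O (MvPowerSeries (Fin r) O) D] [Module.Finite (MvPowerSeries (Fin r) O) D]

/-- Too few elements cannot cut down to the closed point. -/
theorem false_of_small (hinj : Function.Injective (algebraMap S D)) {ϖ : O} (hϖ : Irreducible ϖ)
    {V : Type} (y : V → D)
    (hX : ∀ Q : Ideal D, Q.IsPrime → algebraMap O D ϖ ∈ Q → (∀ v, y v ∈ Q) →
      ∀ i, algebraMap S D (MvPowerSeries.X i) ∈ Q)
    (L : Finset D) (hLcard : L.card ≤ r)
    (hL : ∀ Q : Ideal D, Q.IsPrime → Q.comap (algebraMap S D) = 𝔐 → ∀ v ∈ L, v ∈ Q)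
    (hcut : ∀ Q : Ideal D, Q.IsPrime → (∀ v ∈ L, v ∈ Q) →
      algebraMap O D ϖ ∈ Q ∧ ∀ v, y v ∈ Q) : False := by
  haveI : IsNoetherianRing D := IsNoetherianRing.of_finite S D
  haveI : Algebra.IsIntegral S D := Algebra.IsIntegral.of_finite _ _
  obtain ⟨C, hC⟩ := exists_fullChain hϖ r
  obtain ⟨Q, hQ, -, hQh⟩ := exists_prime_top C hinj
  have hdim : ringKrullDim (D ⧸ (⊥ : Ideal D)) ≤ (L.card : ℕ∞) := by
    refine ringKrullDim_quotient_le_of_list C ⊥ L hL fun u hu => ?_
    rw [sup_bot_eq, Ideal.radical_eq_sInf, Ideal.mem_sInf]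
    rintro P ⟨hle, hP⟩
    obtain ⟨hϖP, hyP⟩ := hcut P hP fun v hv => hle (Ideal.subset_span hv)
    rw [hC] at hu
    rcases hu with rfl | ⟨i, rfl⟩
    · rw [show (MvPowerSeries.C ϖ : S) = algebraMap O S ϖ from (algebraMap_eq_C ϖ).symm,
        ← IsScalarTower.algebraMap_apply]
      exact hϖP
    · exact hX P hP hϖP hyP i
  have h : ((r + 1 : ℕ) : WithBot ℕ∞) ≤ ((L.card : ℕ∞) : WithBot ℕ∞) :=
    calc ((r + 1 : ℕ) : WithBot ℕ∞) ≤ (Q.height : WithBot ℕ∞) := by exact_mod_cast hQh
      _ ≤ ringKrullDim D := Ideal.height_le_ringKrullDim_of_ne_top hQ.ne_top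
      _ ≤ ringKrullDim (D ⧸ (⊥ : Ideal D)) :=
        ringKrullDim_le_of_surjective (RingEquiv.quotientBot D).toRingHom
          (RingEquiv.quotientBot D).surjective
      _ ≤ _ := hdim
  have h' : r + 1 ≤ L.card := by exact_mod_cast h
  omega

variable (T : Target O Λ) (y : Var g Λ → D)

/-- The weights of the places. -/
def Target.weight (k : Λ) : ℕ := if T.sc k then 3 else 1

theorem natCast_ne_of_injective (hinjO : Function.Injective (algebraMap O D)) (k : Λ) :
    (T.l k : D) ≠ 0 ∧ (T.l k : D) + 1 ≠ 0 := by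
  obtain ⟨h0, h1⟩ := T.natCast_ne k
  exact ⟨by simpa using (map_ne_zero_iff _ hinjO).2 h0, by simpa using (map_ne_zero_iff _ hinjO).2 h1⟩

/-- In no frame does the upper entry of the inertia part vanish. -/
theorem frame_upper_ne_zero (hinj : Function.Injective (algebraMap S D))
    (hinjO : Function.Injective (algebraMap O D)) {ϖ : O} (hϖ : Irreducible ϖ)
    (hy : ∀ Q : Ideal D, Q.IsPrime → Q.comap (algebraMap S D) = 𝔐 → ∀ v, y v ∈ Q)
    (hX : ∀ Q : Ideal D, Q.IsPrime → algebraMap O D ϖ ∈ Q → (∀ v, y v ∈ Q) →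
      ∀ i, algebraMap S D (MvPowerSeries.X i) ∈ Q)
    (hD : ∀ k, SpecialPair (T.l k : D) (T.e k : D) (varMat T.W y k false) (varMat T.W y k true))
    (hne : ∀ k, varMat T.W y k false ≠ 0)
    (hcomp : ∀ k, T.sc k = false → y (.inr (k, true, 0, 0)) = 0 ∧ y (.inr (k, true, 1, 0)) = 0)
    (hcount : g + ∑ k, T.weight k ≤ r)
    {k₀ : Λ} (hsc : T.sc k₀ = true) (Fr₀ : Frame T k₀) :
    Fr₀.conj (varMat T.W y k₀ false) 0 1 ≠ 0 := by
  classical
  intro hzero
  obtain ⟨-, hl1⟩ := natCast_ne_of_injective T hinjO k₀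
  have hne' : Fr₀.conj (varMat T.W y k₀ false) ≠ 0 := fun h => hne k₀ (by
    rw [← Fr₀.back_conj (varMat T.W y k₀ false), h, Frame.back, Matrix.mul_zero, Matrix.zero_mul])
  obtain ⟨h00, h11, hF01, hF00, -⟩ :=
    ((hD k₀).conj Fr₀.inv_map).lower hl1 hzero hne'
  replace hF01 : Fr₀.conj (varMat T.W y k₀ true) 0 1 = 0 := hF01
  let Fr : (k : Λ) → Frame T k := fun k => (nonempty_frame T k).some
  let Fr' : (k : Λ) → Frame T k := Function.update Fr k₀ Fr₀
  let ev : MvPolynomial (Var g Λ) O →ₐ[O] D := MvPolynomial.aeval y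
  let N₀ := Fr₀.conj (varMat T.W (MvPolynomial.X : Var g Λ → MvPolynomial (Var g Λ) O) k₀ false)
  let F₀ := Fr₀.conj (varMat T.W (MvPolynomial.X : Var g Λ → MvPolynomial (Var g Λ) O) k₀ true)
  let lp : List (MvPolynomial (Var g Λ) O) := List.ofFn (fun j => MvPolynomial.X (.inl j)) ++
    ((Finset.univ.erase k₀).toList.flatMap fun k => cutPolys Fr' k) ++
      [N₀ 1 0, F₀ 1 0, MvPolynomial.C ϖ]
  have hev : ∀ b i j, ev (Fr₀.conj
      (varMat T.W (MvPolynomial.X : Var g Λ → MvPolynomial (Var g Λ) O) k₀ b) i j) =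
      Fr₀.conj (varMat T.W y k₀ b) i j := fun b i j => by
    have e : y = ev ∘ MvPolynomial.X := funext fun v => (MvPolynomial.aeval_X y v).symm
    conv_rhs => rw [e, ← varMat_map, ← Frame.conj_map]
    rfl
  have hcc : ∀ p ∈ lp, MvPolynomial.constantCoeff p ∈ maximalIdeal O := by
    intro p hp
    simp only [lp, List.mem_append, List.mem_flatMap, List.mem_cons, List.not_mem_nil,
      or_false, List.mem_ofFn] at hp
    rcases hp with (⟨j, rfl⟩ | ⟨k, -, hk⟩) | rfl | rfl | rfl
    · simp
    · exact constantCoeff_cutPolys Fr' k hk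
    · rw [constantCoeff_conj, Fr₀.upper]; simp
    · rw [constantCoeff_conj, Fr₀.conj_F]; simp [paramF]
    · rw [MvPolynomial.constantCoeff_C, hϖ.maximalIdeal_eq]
      exact Ideal.mem_span_singleton_self _
  refine false_of_small hinj hϖ y hX (lp.toFinset.image ev) ?_ ?_ ?_
  · refine (Finset.card_image_le.trans (List.toFinset_card_le _)).trans ?_
    simp only [lp, List.length_append, List.length_ofFn, List.length_flatMap, List.length_cons,
      List.length_nil, Finset.sum_map_toList, length_cutPolys]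
    have hw : (T.weight k₀) + ∑ k ∈ Finset.univ.erase k₀, T.weight k = ∑ k, T.weight k :=
      Finset.add_sum_erase _ _ (Finset.mem_univ _)
    have hw0 : T.weight k₀ = 3 := if_pos hsc
    simp only [Target.weight] at hw hcount ⊢ hw0
    omega
  · intro Q hQ hQm v hv
    obtain ⟨p, hp, rfl⟩ := Finset.mem_image.1 hv
    have hsplit : p - MvPolynomial.C (MvPolynomial.constantCoeff p) ∈
        Ideal.span (Set.range (MvPolynomial.X : Var g Λ → MvPolynomial (Var g Λ) O)) := by
      rw [← MvPolynomial.idealOfVars, ← pow_one (MvPolynomial.idealOfVars _ _),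
        MvPolynomial.mem_pow_idealOfVars_iff']
      intro x hx
      obtain rfl := (Finsupp.degree_eq_zero_iff x).1 (by omega)
      simp [MvPolynomial.constantCoeff_eq]
    have h1 : Ideal.span (Set.range (MvPolynomial.X : Var g Λ → MvPolynomial (Var g Λ) O)) ≤
        Q.comap ev := by
      refine Ideal.span_le.2 ?_
      rintro _ ⟨u, rfl⟩
      rw [SetLike.mem_coe, Ideal.mem_comap, MvPolynomial.aeval_X]
      exact hy Q hQ hQm u
    have h2 : algebraMap O D (MvPolynomial.constantCoeff p) ∈ Q := by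
      rw [IsScalarTower.algebraMap_apply O S D, ← Ideal.mem_comap, hQm, algebraMap_eq_C,
        IsLocalRing.mem_maximalIdeal, mem_nonunits_iff, MvPowerSeries.isUnit_iff_constantCoeff,
        MvPowerSeries.constantCoeff_C]
      exact hcc p (List.mem_toFinset.1 hp)
    have h3 := add_mem (h1 hsplit) (show MvPolynomial.C (MvPolynomial.constantCoeff p) ∈ Q.comap ev
      by rw [Ideal.mem_comap, MvPolynomial.algHom_C]; exact h2)
    rw [sub_add_cancel] at h3
    exact h3
  · intro Q hQ hv
    have hlp : ∀ p ∈ lp, ev p ∈ Q := fun p hp =>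
      hv _ (Finset.mem_image_of_mem _ (List.mem_toFinset.2 hp))
    haveI := hQ
    haveI : IsDomain (D ⧸ Q) := Ideal.Quotient.isDomain Q
    let mkQ : D →ₐ[O] D ⧸ Q := Ideal.Quotient.mkₐ O Q
    have h0 : algebraMap O D ϖ ∈ Q := by
      rw [← MvPolynomial.algHom_C ev]
      exact hlp _ (by simp [lp])
    have h0' : algebraMap O (D ⧸ Q) ϖ = 0 := Ideal.Quotient.eq_zero_iff_mem.2 h0
    let evQ : MvPolynomial (Var g Λ) O →ₐ[O] D ⧸ Q := mkQ.comp ev
    have hyQ : (evQ ∘ MvPolynomial.X : Var g Λ → D ⧸ Q) = mkQ ∘ y := funext fun v => by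
      simp [evQ, ev]
    have hDQ : ∀ k, SpecialPair (T.l k : D ⧸ Q) (T.e k : D ⧸ Q)
        (varMat T.W (mkQ ∘ y) k false) (varMat T.W (mkQ ∘ y) k true) := fun k => by
      have := (hD k).map mkQ.toRingHom
      rwa [map_natCast, map_intCast, varMat_map, varMat_map] at this
    refine ⟨h0, fun v => Ideal.Quotient.eq_zero_iff_mem.1 ?_⟩
    show mkQ (y v) = 0
    rcases v with j | ⟨k, b, i, i'⟩
    · refine Ideal.Quotient.eq_zero_iff_mem.2 ?_
      rw [← MvPolynomial.aeval_X (R := O) y (.inl j)]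
      exact hlp _ (by simp [lp])
    by_cases hk : k = k₀
    · subst hk
      have hz : ∀ b i i', Fr₀.conj (varMat T.W (mkQ ∘ y) k b) i i' =
          mkQ (Fr₀.conj (varMat T.W y k b) i i') := fun b i i' => by
        rw [← varMat_map, ← Frame.conj_map]
        rfl
      refine vars_eq_zero_scalar hϖ h0' Fr₀ hsc (mkQ ∘ y) (hDQ k) ?_ ?_ ?_ b i i'
      · rw [hz, hzero, map_zero]
      · rw [hz]
        refine Ideal.Quotient.eq_zero_iff_mem.2 ?_
        rw [← hev]
        exact hlp _ (by simp [lp, F₀])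
      · rw [hz, hz, hF01, map_zero]
        refine Ideal.Quotient.eq_zero_iff_mem.2 ?_
        rw [← hev]
        exact hlp _ (by simp [lp, N₀])
    · have hk' := vars_eq_zero_of_cutPolys hϖ h0' Fr' k evQ (by rw [hyQ]; exact hDQ k)
        (fun hns => by
          obtain ⟨a1, a2⟩ := hcomp k hns
          constructor <;> simp [evQ, ev, a1, a2])
        (fun p hp => Ideal.Quotient.eq_zero_iff_mem.2 (hlp p (by
          simp only [lp, List.mem_append, List.mem_flatMap]
          exact Or.inl (Or.inr ⟨k, by simp [hk], hp⟩))))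
      simpa [evQ, ev] using hk' b i i'

end Main

end FLTAgent.Lower.Lift.Final
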