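import Mathlib
import Fermat.Agent.Lower.Lift.Final.Place

/-!
# The target lies on a domain of full dimension

`exists_prime_over_special`: a domain finite over `r`-variable power series, with special pairs at
all the places and `g + ∑ weights ≤ r`, has a prime of characteristic zero at which all the
coordinates around the target vanish.  The pairs are written in frames twisted so that their lines
stay finite (`Frame.twist`, `pairMat`), and `exists_prime_at_origin` is applied to this
parametrisation.
-/

set_option autoImplicit false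
set_option linter.unusedSectionVars false
set_option linter.style.haveILetI false

noncomputable section

namespace FLTAgent.Lower.Lift.Final

open IsLocalRing (maximalIdeal ResidueField)
open FLTAgent.Lower

/-- The parameters: the test elements and `t`, `b`, `B` at each place. -/
abbrev PVar (g : ℕ) (Λ : Type) : Type := Fin g ⊕ (Λ × Fin 3)

variable {O : Type} [CommRing O] [IsDomain O] [IsDiscreteValuationRing O] {g : ℕ} {Λ : Type}
  {T : Target O Λ} {k : Λ}

/-- The frame twisted by the unipotent fixing its line. -/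
def Frame.twist (Fr : Frame T k) : Frame T k where
  G := Fr.G * !![1, 1; 0, 1]
  Gi := !![1, -1; 0, 1] * Fr.Gi
  bW := Fr.bW
  inv := by
    rw [Matrix.mul_assoc, ← Matrix.mul_assoc !![(1 : O), 1; 0, 1],
      show (!![1, 1; 0, 1] * !![1, -1; 0, 1] : Matrix (Fin 2) (Fin 2) O) = 1 by
        ext i j; fin_cases i <;> fin_cases j <;> simp [Matrix.mul_apply, Fin.sum_univ_two],
      Matrix.one_mul, Fr.inv]
  inv' := by
    rw [Matrix.mul_assoc, ← Matrix.mul_assoc Fr.Gi, Fr.inv', Matrix.one_mul]
    ext i j; fin_cases i <;> fin_cases j <;> simp [Matrix.mul_apply, Fin.sum_univ_two]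
  upper := by
    rw [show !![1, -1; 0, 1] * Fr.Gi * T.W k false * (Fr.G * !![1, 1; 0, 1]) =
      !![1, -1; 0, 1] * (Fr.Gi * T.W k false * Fr.G) * !![(1 : O), 1; 0, 1] by
        simp only [Matrix.mul_assoc], Fr.upper]
    ext i j; fin_cases i <;> fin_cases j <;> simp [Matrix.mul_apply, Fin.sum_univ_two]

theorem Frame.twist_conj {R : Type} [CommRing R] [Algebra O R] (Fr : Frame T k)
    (X : Matrix (Fin 2) (Fin 2) R) :
    Fr.twist.conj X = !![1, -1; 0, 1] * Fr.conj X * !![1, 1; 0, 1] := by
  have h1 : (!![1, -1; 0, 1] : Matrix (Fin 2) (Fin 2) O).map (algebraMap O R) = !![1, -1; 0, 1] := by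
    ext i j; fin_cases i <;> fin_cases j <;> simp
  have h2 : (!![1, 1; 0, 1] : Matrix (Fin 2) (Fin 2) O).map (algebraMap O R) = !![1, 1; 0, 1] := by
    ext i j; fin_cases i <;> fin_cases j <;> simp
  simp only [Frame.conj, Frame.twist, Matrix.map_mul, h1, h2, Matrix.mul_assoc]

/-- The parametrised matrices at a place. -/
def pairMat (Fr : (k : Λ) → Frame T k) (k : Λ) (b : Bool) :
    Matrix (Fin 2) (Fin 2) (MvPolynomial (PVar g Λ) O) :=
  let t := MvPolynomial.X (.inr (k, 0))
  if T.sc k then
    if b then (Fr k).back (paramF (T.l k : MvPolynomial (PVar g Λ) O) (T.e k : _) t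
      (MvPolynomial.C (Fr k).BW + MvPolynomial.X (.inr (k, 2))))
    else (Fr k).back (paramN t (MvPolynomial.C (Fr k).bW + MvPolynomial.X (.inr (k, 1))))
  else
    if b then compF (T.l k : MvPolynomial (PVar g Λ) O) (T.e k : _)
    else compN (T.e k : MvPolynomial (PVar g Λ) O)
      (MvPolynomial.C (T.W k false 0 1) + MvPolynomial.X (.inr (k, 1)))

theorem Frame.back_paramN_zero {R : Type} [CommRing R] [Algebra O R] (Fr : Frame T k) (t : R) :
    Fr.back (paramN t 0) = 0 := by
  rw [show paramN t 0 = 0 by ext i j; fin_cases i <;> fin_cases j <;> simp [paramN], Frame.back,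
    Matrix.mul_zero, Matrix.zero_mul]

theorem Frame.back_paramF_one {R : Type} [CommRing R] [Algebra O R] (Fr : Frame T k) (e t : R) :
    Fr.back (paramF 1 e t 0) = e • 1 := by
  rw [show paramF 1 e t 0 = e • 1 by ext i j; fin_cases i <;> fin_cases j <;> simp [paramF],
    Frame.back, Matrix.mul_smul, Matrix.mul_one, Matrix.smul_mul, Fr.inv_map]

/-- The parametrised coordinates. -/
def coordPoly (Fr : (k : Λ) → Frame T k) : Var g Λ → MvPolynomial (PVar g Λ) O :=
  Sum.elim (fun j => MvPolynomial.X (.inl j))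
    fun p => pairMat Fr p.1 p.2.1 p.2.2.1 p.2.2.2 - MvPolynomial.C (T.W p.1 p.2.1 p.2.2.1 p.2.2.2)

theorem varMat_coordPoly (Fr : (k : Λ) → Frame T k) (k : Λ) (b : Bool) :
    varMat T.W (coordPoly (g := g) Fr) k b = pairMat Fr k b := by
  ext i j
  simp [varMat, coordPoly, MvPolynomial.algebraMap_eq]

theorem specialPair_pairMat (Fr : (k : Λ) → Frame T k) (k : Λ) :
    SpecialPair (T.l k : MvPolynomial (PVar g Λ) O) (T.e k : _)
      (pairMat Fr k false) (pairMat Fr k true) := by
  have he : ((T.e k : MvPolynomial (PVar g Λ) O)) * (T.e k : _) = 1 := by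
    rw [← Int.cast_mul, T.sq, Int.cast_one]
  cases hsc : T.sc k
  · simpa [pairMat, hsc] using specialPair_comp he _
  · simpa [pairMat, hsc, Frame.back] using (specialPair_param he _ _ _).conj (Fr k).inv_map'

variable [CharZero O]

/-- The image of a parametrised place under an algebra map. -/
theorem pairMat_map {R : Type} [CommRing R] [Algebra O R] (Fr : (k : Λ) → Frame T k) (k : Λ)
    (b : Bool) (f : MvPolynomial (PVar g Λ) O →ₐ[O] R) :
    f.toRingHom.mapMatrix (pairMat Fr k b) =
      if T.sc k then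
        if b then (Fr k).back (paramF (T.l k : R) (T.e k : R) (f (MvPolynomial.X (.inr (k, 0))))
          (algebraMap O R (Fr k).BW + f (MvPolynomial.X (.inr (k, 2)))))
        else (Fr k).back (paramN (f (MvPolynomial.X (.inr (k, 0))))
          (algebraMap O R (Fr k).bW + f (MvPolynomial.X (.inr (k, 1)))))
      else
        if b then compF (T.l k : R) (T.e k : R)
        else compN (T.e k : R)
          (algebraMap O R (T.W k false 0 1) + f (MvPolynomial.X (.inr (k, 1)))) := by
  unfold pairMat
  cases T.sc k <;> cases b <;>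
    simp only [Bool.false_eq_true, if_false, if_true] <;>
    simp only [Frame.back_map, paramN_map, paramF_map, compN_map, compF_map] <;>
    simp [MvPolynomial.algHom_C]

theorem pairMat_target {R : Type} [CommRing R] [Algebra O R] (Fr : (k : Λ) → Frame T k) (k : Λ)
    (b : Bool) (f : MvPolynomial (PVar g Λ) O →ₐ[O] R)
    (h0 : f (MvPolynomial.X (.inr (k, 0))) = 0) (h1 : f (MvPolynomial.X (.inr (k, 1))) = 0)
    (h2 : f (MvPolynomial.X (.inr (k, 2))) = 0) :
    f.toRingHom.mapMatrix (pairMat Fr k b) = (T.W k b).map (algebraMap O R) := by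
  obtain ⟨hl0, hl1⟩ := T.natCast_ne k
  rw [pairMat_map, h0, h1, h2, add_zero, add_zero, add_zero]
  cases hsc : T.sc k
  · obtain ⟨hN, hF⟩ := (T.spec k).eq_comp hl0 hl1 (T.comp k hsc).1 (T.comp k hsc).2
    cases b
    · simp only [Bool.false_eq_true, if_false]
      conv_rhs => rw [hN]
      rw [← RingHom.mapMatrix_apply, compN_map, map_intCast]
    · simp only [Bool.false_eq_true, if_false, if_true]
      conv_rhs => rw [hF]
      rw [← RingHom.mapMatrix_apply, compF_map, map_natCast, map_intCast]
  · cases b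
    · simp only [Bool.false_eq_true, if_false, if_true]
      conv_rhs => rw [← (Fr k).back_conj ((T.W k false).map (algebraMap O R)), Frame.conj_algebraMap,
        (Fr k).conj_N, ← RingHom.mapMatrix_apply, paramN_map, map_zero]
    · simp only [if_true]
      conv_rhs => rw [← (Fr k).back_conj ((T.W k true).map (algebraMap O R)), Frame.conj_algebraMap,
        (Fr k).conj_F, ← RingHom.mapMatrix_apply, paramF_map, map_zero, map_natCast, map_intCast]

theorem constantCoeff_coordPoly (Fr : (k : Λ) → Frame T k) (v : Var g Λ) :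
    MvPolynomial.constantCoeff (coordPoly Fr v) = 0 := by
  rcases v with j | ⟨k, b, i, j⟩
  · simp [coordPoly]
  · have h := congrFun (congrFun (pairMat_target Fr k b
      (MvPolynomial.aeval (0 : PVar g Λ → O)) (by simp) (by simp) (by simp)) i) j
    simp only [RingHom.mapMatrix_apply, Matrix.map_apply, Algebra.algebraMap_self,
      RingHom.id_apply] at h
    simp only [coordPoly, Sum.elim_inr, map_sub, MvPolynomial.constantCoeff_C, sub_eq_zero]
    rw [← h]
    exact ((MvPolynomial.aeval_zero (S₁ := O) (pairMat Fr k b i j)).symm.trans rfl)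

/-- The weighted parameters: all but the line parameters. -/
def weighted (g : ℕ) (Λ : Type) : Set (PVar g Λ) :=
  {z | ∀ k, z ≠ .inr (k, 0)}

theorem coordPoly_mem_wtGen {ϖ : O} (hϖ : Irreducible ϖ) (Fr : (k : Λ) → Frame T k)
    (v : Var g Λ) : coordPoly Fr v ∈ wtGen (weighted g Λ) ϖ := by
  rcases v with j | ⟨k, b, i, i'⟩
  · exact Ideal.subset_span (Or.inr ⟨.inl j, fun k => Sum.inl_ne_inr, rfl⟩)
  let Q := wtGen (weighted g Λ) ϖ
  let π : MvPolynomial (PVar g Λ) O →ₐ[O] MvPolynomial (PVar g Λ) O ⧸ Q := Ideal.Quotient.mkₐ O Q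
  have h0 : algebraMap O (MvPolynomial (PVar g Λ) O ⧸ Q) ϖ = 0 :=
    Ideal.Quotient.eq_zero_iff_mem.2 (Ideal.subset_span (Set.mem_insert _ _))
  have hm : ∀ a ∈ maximalIdeal O, algebraMap O (MvPolynomial (PVar g Λ) O ⧸ Q) a = 0 := by
    intro a ha
    rw [hϖ.maximalIdeal_eq, Ideal.mem_span_singleton] at ha
    obtain ⟨u, rfl⟩ := ha
    rw [map_mul, h0, zero_mul]
  have hX : ∀ z ∈ weighted g Λ, π (MvPolynomial.X z) = 0 := fun z hz =>
    Ideal.Quotient.eq_zero_iff_mem.2 (Ideal.subset_span (Or.inr ⟨z, hz, rfl⟩))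
  have h1 : π (MvPolynomial.X (.inr (k, 1))) = 0 := hX _ fun k' h => by simp at h
  have h2 : π (MvPolynomial.X (.inr (k, 2))) = 0 := hX _ fun k' h => by simp at h
  have key : π.toRingHom.mapMatrix (pairMat Fr k b) =
      (T.W k b).map (algebraMap O (MvPolynomial (PVar g Λ) O ⧸ Q)) := by
    cases hsc : T.sc k
    · obtain ⟨hl0, hl1⟩ := T.natCast_ne k
      obtain ⟨hN, hF⟩ := (T.spec k).eq_comp hl0 hl1 (T.comp k hsc).1 (T.comp k hsc).2
      rw [pairMat_map, hsc]
      cases b
      · simp only [Bool.false_eq_true, if_false]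
        conv_rhs => rw [hN]
        rw [h1, add_zero, ← RingHom.mapMatrix_apply, compN_map, map_intCast]
      · simp only [Bool.false_eq_true, if_false, if_true]
        conv_rhs => rw [hF]
        rw [← RingHom.mapMatrix_apply, compF_map, map_natCast, map_intCast]
    · rw [pairMat_map, hsc, h1, h2, add_zero, add_zero, hm _ (Fr k).bW_mem,
        hm _ ((Fr k).BW_mem hsc)]
      cases b
      · simp only [Bool.false_eq_true, if_false, if_true]
        have hW : (T.W k false).map (algebraMap O (MvPolynomial (PVar g Λ) O ⧸ Q)) = 0 :=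
          Matrix.ext fun i j => hm _ (T.memN k i j)
        rw [hW, (Fr k).back_paramN_zero]
      · simp only [if_true]
        have hl : ((T.l k : MvPolynomial (PVar g Λ) O ⧸ Q)) = 1 := by
          have := hm _ (T.one k hsc)
          rwa [map_sub, map_natCast, map_one, sub_eq_zero] at this
        have hW : (T.W k true).map (algebraMap O (MvPolynomial (PVar g Λ) O ⧸ Q)) =
            (T.e k : MvPolynomial (PVar g Λ) O ⧸ Q) • 1 := Matrix.ext fun i j => by
          have h := hm _ (T.memF k hsc i j)
          rw [Matrix.sub_apply, map_sub, sub_eq_zero] at h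
          rw [Matrix.map_apply, h, Matrix.smul_apply, Matrix.smul_apply, Matrix.one_apply,
            Matrix.one_apply]
          split <;> simp
        rw [hW, hl, (Fr k).back_paramF_one]
  rw [← Ideal.Quotient.eq_zero_iff_mem]
  show π (coordPoly Fr (.inr (k, b, i, i'))) = 0
  have h := congrFun (congrFun key i) i'
  simp only [RingHom.mapMatrix_apply, Matrix.map_apply] at h
  simp only [coordPoly, Sum.elim_inr, map_sub, MvPolynomial.algHom_C, sub_eq_zero]
  exact h

section Main

variable [IsAdicComplete (maximalIdeal O) O] [Finite (ResidueField O)] [Fintype Λ] {r : ℕ}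

local notation "S" => MvPowerSeries (Fin r) O
local notation "𝔐" => maximalIdeal (MvPowerSeries (Fin r) O)

set_option maxHeartbeats 1000000 in
-- one long assembly
/-- **The target lies on the domain.** -/
theorem exists_prime_over_special {D : Type} [CommRing D] [IsDomain D] [Algebra O D]
    [Algebra S D] [IsScalarTower O S D] [Module.Finite S D]
    (hinj : Function.Injective (algebraMap S D)) {ϖ : O} (hϖ : Irreducible ϖ)
    (T : Target O Λ) (y : Var g Λ → D)
    (hy : ∀ Q : Ideal D, Q.IsPrime → Q.comap (algebraMap S D) = 𝔐 → ∀ v, y v ∈ Q)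
    (hX : ∀ Q : Ideal D, Q.IsPrime → algebraMap O D ϖ ∈ Q → (∀ v, y v ∈ Q) →
      ∀ i, algebraMap S D (MvPowerSeries.X i) ∈ Q)
    (hD : ∀ k, SpecialPair (T.l k : D) (T.e k : D) (varMat T.W y k false) (varMat T.W y k true))
    (hne : ∀ k, varMat T.W y k false ≠ 0)
    (hcomp : ∀ k, T.sc k = false → y (.inr (k, true, 0, 0)) = 0 ∧ y (.inr (k, true, 1, 0)) = 0)
    (hcount : g + ∑ k, T.weight k ≤ r) :
    ∃ Q : Ideal D, Q.IsPrime ∧ (∀ v, y v ∈ Q) ∧ algebraMap O D ϖ ∉ Q := by
  classical
  haveI : Algebra.IsIntegral S D := Algebra.IsIntegral.of_finite _ _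
  haveI : IsNoetherianRing D := IsNoetherianRing.of_finite S D
  have hinjO : Function.Injective (algebraMap O D) := by
    rw [IsScalarTower.algebraMap_eq O S D, RingHom.coe_comp]
    exact hinj.comp fun a b h => MvPowerSeries.C_injective (by
      rwa [algebraMap_eq_C, algebraMap_eq_C] at h)
  obtain ⟨C, -⟩ := exists_fullChain hϖ r
  obtain ⟨M, hMp, hM, -⟩ := exists_prime_top C hinj
  haveI := hMp
  -- a valuation ring centred at the closed point
  let K := FractionRing D
  let φ : D →ₐ[O] K := IsScalarTower.toAlgHom O D K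
  have hDK : Function.Injective (algebraMap D K) := IsFractionRing.injective D K
  let A : Subring K := (algebraMap D K).range
  let I : Ideal A := M.map (algebraMap D K).rangeRestrict
  have hI : I ≠ ⊤ := fun h => hMp.ne_top (by
    have h2 := Ideal.comap_map_of_surjective (algebraMap D K).rangeRestrict
      (algebraMap D K).rangeRestrict_surjective M
    rw [show M.map (algebraMap D K).rangeRestrict = ⊤ from h, Ideal.comap_top,
      ← RingHom.ker_eq_comap_bot, (RingHom.injective_iff_ker_eq_bot _).1
        (fun a b hab => hDK (congrArg Subtype.val hab)), sup_bot_eq] at h2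
    exact h2.symm)
  obtain ⟨B, hAB, hIB⟩ := I.image_subset_nonunits_valuationSubring hI
  have hB : ∀ d, algebraMap D K d ∈ B := fun d => hAB ⟨d, rfl⟩
  have hMB : ∀ d ∈ M, algebraMap D K d ∈ B.nonunits := fun d hd =>
    hIB ⟨_, Ideal.mem_map_of_mem (algebraMap D K).rangeRestrict hd, rfl⟩
  -- frames in which the lines of `D` are finite
  have hupper : ∀ k, T.sc k = true → ∀ Fr : Frame T k, Fr.conj (varMat T.W y k false) 0 1 ≠ 0 :=
    fun k hsc Fr => frame_upper_ne_zero T y hinj hinjO hϖ hy hX hD hne hcomp hcount hsc Fr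
  have hframe : ∀ k, ∃ (Fr : Frame T k) (t : K), t ∈ B ∧ (T.sc k = true →
      φ (Fr.conj (varMat T.W y k false) 0 0) = t * φ (Fr.conj (varMat T.W y k false) 0 1)) := by
    intro k
    obtain ⟨Fr⟩ := nonempty_frame T k
    cases hsc : T.sc k
    · exact ⟨Fr, 0, zero_mem _, fun h => by simp at h⟩
    set a := φ (Fr.conj (varMat T.W y k false) 0 0)
    set b := φ (Fr.conj (varMat T.W y k false) 0 1)
    have hb : b ≠ 0 := (map_ne_zero_iff _ hDK).2 (hupper k hsc Fr)
    by_cases ht : a / b ∈ B
    · exact ⟨Fr, a / b, ht, fun _ => (div_mul_cancel₀ a hb).symm⟩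
    have ha : a ≠ 0 := fun ha => ht (by rw [ha, zero_div]; exact zero_mem _)
    have hinv : (a / b)⁻¹ ∈ B := (B.mem_or_inv_mem _).resolve_left ht
    have hu : IsUnit (⟨_, hinv⟩ + 1 : B) := by
      rcases IsLocalRing.isUnit_or_isUnit_one_sub_self (-(⟨_, hinv⟩ : B)) with h | h
      · exfalso
        obtain ⟨w, hw⟩ := (IsUnit.neg_iff _).1 h |>.exists_right_inv
        refine ht ?_
        have hw' : (a / b)⁻¹ * (w : K) = 1 := congrArg Subtype.val hw
        rw [show a / b = (w : K) from by
          rw [← mul_one (a / b), ← hw', ← mul_assoc, mul_inv_cancel₀ (div_ne_zero ha hb), one_mul]]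
        exact w.2
      · rwa [sub_neg_eq_add, add_comm] at h
    obtain ⟨w, hw⟩ := hu.exists_right_inv
    refine ⟨Fr.twist, w, w.2, fun _ => ?_⟩
    have hw' : ((a / b)⁻¹ + 1) * (w : K) = 1 := congrArg Subtype.val hw
    have hent : ∀ i j, φ (Fr.twist.conj (varMat T.W y k false) i j) =
        (!![1, -1; 0, 1] * φ.toRingHom.mapMatrix (Fr.conj (varMat T.W y k false)) *
          !![1, 1; 0, 1] : Matrix (Fin 2) (Fin 2) K) i j := fun i j => by
      rw [show φ (Fr.twist.conj (varMat T.W y k false) i j) =
        φ.toRingHom.mapMatrix (Fr.twist.conj (varMat T.W y k false)) i j from rfl,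
        Frame.conj_map, Frame.twist_conj, Frame.conj_map]
    obtain ⟨hd, hsq, -⟩ := ((((hD k).conj Fr.inv_map).map φ.toRingHom)).entries
    set Nk := φ.toRingHom.mapMatrix (Fr.conj (varMat T.W y k false))
    have e00 : Nk 0 0 = a := rfl
    have e01 : Nk 0 1 = b := rfl
    have hd' : Nk 1 1 = -Nk 0 0 := hd
    have hsq' : Nk 0 0 * Nk 0 0 + Nk 0 1 * Nk 1 0 = 0 := hsq
    rw [e00, e01] at hsq'
    rw [e00] at hd'
    have hc : Nk 1 0 = -(a * a) / b := by
      rw [eq_div_iff hb]
      linear_combination hsq'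
    rw [hent, hent]
    simp [Matrix.mul_apply, Fin.sum_univ_two, Matrix.vecMul, dotProduct, e00, e01, hc, hd']
    rw [inv_div] at hw'
    have hw'' : (b + a) * (w : K) = a := by
      linear_combination a * hw' - (w : K) * div_mul_cancel₀ b ha
    have hcb := div_mul_cancel₀ (-(a * a)) hb
    refine mul_right_cancel₀ hb ?_
    linear_combination (-(a + b)) * hw'' + ((w : K) - 1) * hcb
  choose Fr t htB ht using hframe
  -- the parameters in `D`
  let Nc : Λ → Matrix (Fin 2) (Fin 2) D := fun k => (Fr k).conj (varMat T.W y k false)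
  let Fc : Λ → Matrix (Fin 2) (Fin 2) D := fun k => (Fr k).conj (varMat T.W y k true)
  let β : Λ → Fin 3 → D := fun k =>
    ![0, if T.sc k then Nc k 0 1 - algebraMap O D (Fr k).bW else y (.inr (k, false, 0, 1)),
      if T.sc k then Fc k 0 1 - algebraMap O D (Fr k).BW else 0]
  let τ : PVar g Λ → K :=
    Sum.elim (fun j => φ (y (.inl j))) fun p => if p.2 = 0 then t p.1 else φ (β p.1 p.2)
  have hkey : ∀ k b, φ.toRingHom.mapMatrix (varMat T.W y k b) =
      (MvPolynomial.aeval τ : MvPolynomial (PVar g Λ) O →ₐ[O] K).toRingHom.mapMatrix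
        (pairMat Fr k b) := by
    intro k b
    obtain ⟨hl0, hl1⟩ := natCast_ne_of_injective T hinjO k
    have hl0K : (T.l k : K) ≠ 0 := by simpa using (map_ne_zero_iff _ hDK).2 hl0
    have hl1K : (T.l k : K) + 1 ≠ 0 := by simpa using (map_ne_zero_iff _ hDK).2 hl1
    rw [pairMat_map]
    simp only [MvPolynomial.aeval_X, τ, Sum.elim_inr, if_true,
      show (1 : Fin 3) ≠ 0 by decide, show (2 : Fin 3) ≠ 0 by decide, if_false]
    cases hsc : T.sc k
    · have hF0 : varMat T.W y k true 0 0 = 0 ∧ varMat T.W y k true 1 0 = 1 := by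
        constructor
        · rw [varMat_apply, (T.comp k hsc).1, (hcomp k hsc).1, map_zero, add_zero]
        · rw [varMat_apply, (T.comp k hsc).2, (hcomp k hsc).2, map_one, add_zero]
      obtain ⟨hN, hF⟩ := (hD k).eq_comp hl0 hl1 hF0.1 hF0.2
      cases b
      · simp only [Bool.false_eq_true, if_false]
        rw [hN, compN_map, map_intCast, varMat_apply, map_add]
        congr 1
        simp [β, hsc, φ, ← IsScalarTower.algebraMap_apply]
      · simp only [Bool.false_eq_true, if_false, if_true]
        rw [hF, compF_map, map_natCast, map_intCast]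
    · have H := ((hD k).conj (Fr k).inv_map).map φ.toRingHom
      rw [map_natCast, map_intCast] at H
      have hb0 : φ.toRingHom.mapMatrix (Nc k) 0 1 ≠ 0 :=
        (map_ne_zero_iff _ hDK).2 (hupper k hsc (Fr k))
      obtain ⟨hN, hF⟩ := H.eq_param hl0K hl1K hb0 (t := t k) (ht k hsc)
      have hβ1 : algebraMap O K (Fr k).bW + φ (β k 1) = φ (Nc k 0 1) := by
        simp [β, hsc, φ, ← IsScalarTower.algebraMap_apply]
      have hβ2 : algebraMap O K (Fr k).BW + φ (β k 2) = φ (Fc k 0 1) := by
        simp [β, hsc, φ, ← IsScalarTower.algebraMap_apply]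
      cases b
      · simp only [Bool.false_eq_true, if_false, if_true]
        conv_lhs => rw [← (Fr k).back_conj (varMat T.W y k false), Frame.back_map]
        refine congrArg _ ?_
        rw [hβ1]
        exact hN
      · simp only [if_true]
        conv_lhs => rw [← (Fr k).back_conj (varMat T.W y k true), Frame.back_map]
        refine congrArg _ ?_
        rw [hβ2]
        exact hF
  have hτ : ∀ v, MvPolynomial.aeval τ (coordPoly Fr v) = algebraMap D K (y v) := by
    rintro (j | ⟨k, b, i, i'⟩)
    · simp [coordPoly, τ, φ]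
    · have h := congrFun (congrFun (hkey k b) i) i'
      simp only [RingHom.mapMatrix_apply, Matrix.map_apply, varMat_apply] at h
      simp only [coordPoly, Sum.elim_inr, map_sub, MvPolynomial.aeval_C]
      change φ (algebraMap O D (T.W k b i i') + y (.inr (k, b, i, i'))) =
        MvPolynomial.aeval τ (pairMat Fr k b i i') at h
      rw [← h, map_add, AlgHom.commutes, add_sub_cancel_left]
      rfl
  have hyM : ∀ v, y v ∈ M := hy M hMp hM
  have hβM : ∀ k z, β k z ∈ M := by
    intro k z
    have hWy : ∀ b, (Ideal.Quotient.mkₐ O M).toRingHom.mapMatrix (varMat T.W y k b) =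
        (T.W k b).map (algebraMap O (D ⧸ M)) := fun b => by
      rw [varMat_map]
      ext i j
      simp [varMat, Ideal.Quotient.eq_zero_iff_mem.2 (hyM _)]
    fin_cases z
    · exact zero_mem _
    · show (if T.sc k then _ else _) ∈ M
      split_ifs
      · rw [← Ideal.Quotient.eq_zero_iff_mem, map_sub, sub_eq_zero]
        show (Ideal.Quotient.mkₐ O M).toRingHom.mapMatrix (Nc k) 0 1 = _
        rw [Frame.conj_map, hWy, Frame.conj_algebraMap, (Fr k).upper]
        rfl
      · exact hyM _
    · show (if T.sc k then _ else _) ∈ M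
      split_ifs
      · rw [← Ideal.Quotient.eq_zero_iff_mem, map_sub, sub_eq_zero]
        show (Ideal.Quotient.mkₐ O M).toRingHom.mapMatrix (Fc k) 0 1 = _
        rw [Frame.conj_map, hWy, Frame.conj_algebraMap]
        rfl
      · exact zero_mem _
  -- the cut
  let lp : List (MvPolynomial (Var g Λ) O) := List.ofFn (fun j => MvPolynomial.X (.inl j)) ++
    (Finset.univ : Finset Λ).toList.flatMap fun k => cutPolys Fr k
  refine exists_prime_at_origin hinj hϖ y hy hX (weighted g Λ) (coordPoly Fr)
    (constantCoeff_coordPoly Fr) (coordPoly_mem_wtGen hϖ Fr) (K := K) hDK τ hτ B hB ?_ M hM hMB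
    ?_ lp.toFinset ?_ ?_ ?_
  · rintro (j | ⟨k, z⟩)
    · exact hB _
    · show (if z = 0 then _ else _) ∈ B
      split_ifs
      · exact htB k
      · exact hB _
  · rintro (j | ⟨k, z⟩) hz
    · exact ⟨_, hyM _, rfl⟩
    · have hz0 : z ≠ 0 := fun h => hz k (by rw [h])
      exact ⟨β k z, hβM k z, if_neg hz0⟩
  · refine (List.toFinset_card_le _).trans ?_
    simp only [lp, List.length_append, List.length_ofFn, List.length_flatMap,
      Finset.sum_map_toList, length_cutPolys]
    exact hcount
  · intro p hp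
    simp only [lp, List.mem_toFinset, List.mem_append, List.mem_ofFn, List.mem_flatMap] at hp
    rcases hp with ⟨j, rfl⟩ | ⟨k, -, hk⟩
    · simp
    · exact constantCoeff_cutPolys Fr k hk
  · intro E _ _ gg hker hgϖ hgL
    letI : Algebra O E := (gg.comp MvPolynomial.C).toAlgebra
    let ev : MvPolynomial (Var g Λ) O →ₐ[O] E := { gg with commutes' := fun a => rfl }
    let qh : MvPolynomial (Var g Λ) O →ₐ[O] MvPolynomial (PVar g Λ) O :=
      MvPolynomial.aeval (coordPoly Fr)
    let R₀ := MvPolynomial (Var g Λ) O ⧸ RingHom.ker qh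
    let inj₀ : R₀ →ₐ[O] MvPolynomial (PVar g Λ) O :=
      Ideal.Quotient.liftₐ (RingHom.ker qh) qh fun a ha => RingHom.mem_ker.1 ha
    have hinj₀ : Function.Injective inj₀ := RingHom.lift_injective_of_ker_le_ideal _ _ le_rfl
    let ev₀ : R₀ →ₐ[O] E :=
      Ideal.Quotient.liftₐ (RingHom.ker qh) ev fun a ha => hker a (RingHom.mem_ker.1 ha)
    let mk₀ : MvPolynomial (Var g Λ) O →ₐ[O] R₀ := Ideal.Quotient.mkₐ O (RingHom.ker qh)
    have hev : (ev₀ ∘ (mk₀ ∘ MvPolynomial.X) : Var g Λ → E) = ev ∘ MvPolynomial.X :=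
      funext fun v => rfl
    have hq : (inj₀ ∘ (mk₀ ∘ MvPolynomial.X) : Var g Λ → _) = coordPoly Fr :=
      funext fun v => MvPolynomial.aeval_X (coordPoly Fr) v
    have hE : ∀ k, SpecialPair (T.l k : E) (T.e k : E) (varMat T.W (ev ∘ MvPolynomial.X) k false)
        (varMat T.W (ev ∘ MvPolynomial.X) k true) := fun k => by
      have h0 : SpecialPair (T.l k : R₀) (T.e k : R₀) (varMat T.W (mk₀ ∘ MvPolynomial.X) k false)
          (varMat T.W (mk₀ ∘ MvPolynomial.X) k true) := by
        refine SpecialPair.of_injective inj₀.toRingHom hinj₀ ?_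
        rw [map_natCast, map_intCast, varMat_map, varMat_map, hq, varMat_coordPoly,
          varMat_coordPoly]
        exact specialPair_pairMat Fr k
      have := h0.map ev₀.toRingHom
      rwa [map_natCast, map_intCast, varMat_map, varMat_map, hev] at this
    rintro (j | ⟨k, b, i, i'⟩)
    · exact hgL _ (by simp [lp])
    · refine vars_eq_zero_of_cutPolys hϖ hgϖ Fr k ev (hE k) (fun hns => ?_)
        (fun p hp => hgL p (by
          simp only [lp, List.mem_toFinset, List.mem_append, List.mem_flatMap]
          exact Or.inr ⟨k, Finset.mem_toList.2 (Finset.mem_univ k), hp⟩)) b i i'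
      constructor <;> refine hker _ ?_ <;>
        simp [coordPoly, pairMat, hns, compF, (T.comp k hns).1, (T.comp k hns).2]

end Main

end FLTAgent.Lower.Lift.Final
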