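import Mathlib
import Fermat.Agent.Lower.Lift.Final.Special
import Fermat.Agent.Lower.Lift.Support
import Fermat.Agent.Lower.Lift.Coords
import Fermat.Agent.Lower.Lift.Relations
import Fermat.Agent.Lower.Compact
import Fermat.Agent.Lower.Limit

/-!
# Systems of coordinates at every depth give the point

`ActsWith` and `Approx` describe a system of depth `n`: matrices satisfying the relations of the
special pairs whose traces are given by polynomials with the target values at the origin.  By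
compactness systems at all depths have a limit (`exists_limit`); a component of it over a point
with nonzero inertia at every place passes through the origin, so there is a point with exactly
the target traces (`exists_point_of_approx`).
-/

set_option autoImplicit false
set_option linter.unusedSectionVars false
set_option linter.style.haveILetI false

noncomputable section

namespace FLTAgent.Lower.Lift.Final

open IsLocalRing (maximalIdeal ResidueField)
open MvPowerSeries (constantCoeff)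
open FLTAgent.Lower

variable {O : Type} [CommRing O] [IsDomain O] [IsDiscreteValuationRing O] {g r d : ℕ} {Λ : Type}

local notation "S" => MvPowerSeries (Fin r) O
local notation "𝔐" => maximalIdeal (MvPowerSeries (Fin r) O)

/-- The polynomial ring acting at the limit. -/
abbrev Ring' (O : Type) [CommRing O] (r g : ℕ) (Λ : Type) : Type :=
  MvPolynomial (Var g Λ) (MvPowerSeries (Fin r) O)

/-- Polynomials over `O` in the limit ring. -/
def lift' : MvPolynomial (Var g Λ) O →ₐ[O] Ring' O r g Λ :=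
  MvPolynomial.aeval MvPolynomial.X

/-- The inertia part (`false`) and Frobenius (`true`) in the limit ring. -/
def mats' (T : Target O Λ) (k : Λ) (b : Bool) : Matrix (Fin 2) (Fin 2) (Ring' O r g Λ) :=
  varMat T.W MvPolynomial.X k b

/-- The relations of tame pairs with unipotent inertia, in companion form at nonscalar places. -/
def relSet (T : Target O Λ) : Set (Ring' O r g Λ) :=
  let M := mats' (r := r) (g := g) T
  {z | ∃ k, z = (M k false).trace ∨
    (∃ i j, z = (M k false * M k false) i j) ∨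
    (∃ i j, z = (M k true * M k false -
      (T.l k : Ring' O r g Λ) • (M k false * M k true)) i j) ∨
    z = (M k true).det - (T.l k : Ring' O r g Λ) ∨
    T.sc k = false ∧ (z = MvPolynomial.X (.inr (k, true, 0, 0)) ∨
      z = MvPolynomial.X (.inr (k, true, 1, 0)))}

/-- The constant terms agree with `M` modulo `𝔪 ^ n`. -/
def BaseCongr (n : ℕ) (X : Matrix (Fin d) (Fin d) (S ⧸ 𝔐 ^ n)) (M : Matrix (Fin d) (Fin d) O) :
    Prop :=
  ∀ i j f, Ideal.Quotient.mk (𝔐 ^ n) f = X i j → constantCoeff f - M i j ∈ maximalIdeal O ^ n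

variable {A : Type} [CommRing A] [Algebra O A] {ι : Type}

/-- A system of depth `n`. -/
structure ActsWith (T : Target O Λ) (Φ : A →ₐ[O] Matrix (Fin d) (Fin d) O) (τ : ι → A) (a : ι → O)
    (tF : Λ → A) (E : Λ → Fin 2 → Fin 2 → A) (n : ℕ)
    (φ : Ring' O r g Λ →ₐ[MvPowerSeries (Fin r) O]
      Matrix (Fin d) (Fin d) (MvPowerSeries (Fin r) O ⧸
        maximalIdeal (MvPowerSeries (Fin r) O) ^ n)) : Prop where
  nil : ∀ v i j, φ (MvPolynomial.X v ^ d) i j ∈ (maximalIdeal (MvPowerSeries (Fin r) O)).map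
    (Ideal.Quotient.mk (maximalIdeal (MvPowerSeries (Fin r) O) ^ n))
  rel : ∀ z ∈ relSet (g := g) T, φ z = 0
  tw : ∀ i, ∃ G : MvPolynomial (Var g Λ) O,
    MvPolynomial.constantCoeff G ∈ maximalIdeal O ^ n ∧
      φ (lift' G * MvPolynomial.C (1 + MvPowerSeries.X i) -
        MvPolynomial.C (MvPowerSeries.X i ^ 2)) = 0
  trace : ∀ s, ∃ F : MvPolynomial (Var g Λ) O,
    MvPolynomial.constantCoeff F - a s ∈ maximalIdeal O ^ n ∧ BaseCongr n (φ (lift' F)) (Φ (τ s))
  frob : ∀ k, BaseCongr n (φ (mats' T k true).trace) (Φ (tF k))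
  inert : ∀ k i j, ∃ F ∈ Ideal.span
      (Set.range fun p : Fin 2 × Fin 2 => mats' (r := r) (g := g) T k false p.1 p.2),
    BaseCongr n (φ F) (Φ (E k i j))

/-- The matrices `N` form a system of depth `n`. -/
def Approx (T : Target O Λ) (Φ : A →ₐ[O] Matrix (Fin d) (Fin d) O) (τ : ι → A) (a : ι → O)
    (tF : Λ → A) (E : Λ → Fin 2 → Fin 2 → A) (n : ℕ)
    (N : Var g Λ × Fin d × Fin d → MvPowerSeries (Fin r) O) : Prop :=
  ∃ φ : Ring' O r g Λ →ₐ[MvPowerSeries (Fin r) O] Matrix (Fin d) (Fin d)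
      (MvPowerSeries (Fin r) O ⧸ maximalIdeal (MvPowerSeries (Fin r) O) ^ n),
    (∀ v i j, φ (MvPolynomial.X v) i j = Ideal.Quotient.mk _ (N (v, i, j))) ∧
      ActsWith T Φ τ a tF E n φ

theorem exists_limit [IsAdicComplete (maximalIdeal O) O] [Finite (ResidueField O)] [Finite Λ]
    {T : Target O Λ} {Φ : A →ₐ[O] Matrix (Fin d) (Fin d) O} {τ : ι → A} {a : ι → O}
    {tF : Λ → A} {E : Λ → Fin 2 → Fin 2 → A}
    (h : ∀ n, ∃ N : Var g Λ × Fin d × Fin d → S, Approx T Φ τ a tF E n N) :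
    ∃ φ : Ring' O r g Λ →ₐ[MvPowerSeries (Fin r) O]
        Matrix (Fin d) (Fin d) (MvPowerSeries (Fin r) O),
      ∀ n, ActsWith T Φ τ a tF E n
        ((Ideal.Quotient.mkₐ (MvPowerSeries (Fin r) O) (𝔐 ^ n)).mapMatrix.comp φ) := by
  classical
  haveI : IsPrecomplete 𝔐 S := FLTAgent.Deform.isPrecomplete_mvPowerSeries
  suffices h' : ∃ N : Var g Λ × Fin d × Fin d → S, ∀ n, Approx T Φ τ a tF E n N by
    obtain ⟨N, hN⟩ := h'
    let X : Var g Λ → Matrix (Fin d) (Fin d) S := fun v => Matrix.of fun i j => N (v, i, j)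
    have hmap : ∀ (n : ℕ) (φn : Ring' O r g Λ →ₐ[MvPowerSeries (Fin r) O]
        Matrix (Fin d) (Fin d) (S ⧸ 𝔐 ^ n)),
        (∀ v i j, φn (MvPolynomial.X v) i j = Ideal.Quotient.mk (𝔐 ^ n) (N (v, i, j))) →
        ∀ v, (Ideal.Quotient.mk (𝔐 ^ n)).mapMatrix (X v) = φn (MvPolynomial.X v) := by
      intro n φn h v
      ext i j
      exact (h v i j).symm
    have hcomm : ∀ u v, X u * X v = X v * X u := fun u v => eq_of_forall_map fun n => by
      obtain ⟨φn, hφn, -⟩ := hN n
      rw [map_mul, map_mul, hmap n φn hφn, hmap n φn hφn, ← map_mul, ← map_mul, mul_comm]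
    refine ⟨polyHom X hcomm, fun n => ?_⟩
    obtain ⟨φn, hφn, hacts⟩ := hN n
    convert hacts
    refine MvPolynomial.algHom_ext fun v => ?_
    rw [AlgHom.comp_apply, polyHom_X]
    exact hmap n φn hφn v
  refine exists_forall_of_congruence 𝔐 (fun n => finite_quotient_pow r n)
    (fun n N => Approx T Φ τ a tF E n N) (fun n N => ?_) (fun n N N' hNN' => ?_) h
  · rintro ⟨φ, hφ, hA⟩
    have hle : (𝔐 : Ideal S) ^ (n + 1) ≤ 𝔐 ^ n := Ideal.pow_le_pow_right n.le_succ
    have hleO : maximalIdeal O ^ (n + 1) ≤ maximalIdeal O ^ n := Ideal.pow_le_pow_right n.le_succ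
    let π := (Ideal.Quotient.factorₐ (MvPowerSeries (Fin r) O) hle).mapMatrix (m := Fin d)
    have hbc : ∀ X M, BaseCongr (n + 1) X M → BaseCongr n (π X) M := by
      intro X M h i j f hf
      obtain ⟨f', hf'⟩ := Ideal.Quotient.mk_surjective (X i j)
      have h1 : f - f' ∈ 𝔐 ^ n := by
        rw [← Ideal.Quotient.mk_eq_mk_iff_sub_mem, hf]
        show Ideal.Quotient.factor hle (X i j) = _
        rw [← hf', Ideal.Quotient.factor_mk]
      have h2 := add_mem (constantCoeff_mem_pow h1) (hleO (h i j f' hf'))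
      rwa [map_sub, sub_add_sub_cancel] at h2
    refine ⟨π.comp φ, fun v i j => ?_, fun v i j => ?_, fun z hz => ?_, fun i => ?_, fun s => ?_,
      fun k => hbc _ _ (hA.frob k), fun k i j => ?_⟩
    · show Ideal.Quotient.factor hle (φ (MvPolynomial.X v) i j) = _
      rw [hφ, Ideal.Quotient.factor_mk]
    · show Ideal.Quotient.factor hle (φ (MvPolynomial.X v ^ d) i j) ∈ _
      obtain ⟨w, hw, hwe⟩ := (Ideal.mem_map_iff_of_surjective _
        Ideal.Quotient.mk_surjective).1 (hA.nil v i j)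
      rw [← hwe, Ideal.Quotient.factor_mk]
      exact Ideal.mem_map_of_mem _ hw
    · rw [AlgHom.comp_apply, hA.rel z hz, map_zero]
    · obtain ⟨G, hG, hG'⟩ := hA.tw i
      exact ⟨G, hleO hG, by rw [AlgHom.comp_apply, hG', map_zero]⟩
    · obtain ⟨F, hF, hF'⟩ := hA.trace s
      exact ⟨F, hleO hF, hbc _ _ hF'⟩
    · obtain ⟨F, hF, hF'⟩ := hA.inert k i j
      exact ⟨F, hF, hbc _ _ hF'⟩
  · rintro ⟨φ, hφ, hA⟩
    refine ⟨φ, fun v i j => ?_, hA⟩
    rw [hφ, Ideal.Quotient.mk_eq_mk_iff_sub_mem]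
    exact hNN' (v, i, j)

/-- An element whose matrix has entries in `I` is, up to the kernel, nilpotent modulo `I`. -/
theorem pow_mem_of_entries {S' P : Type} [CommRing S'] [Nontrivial S'] [CommRing P] [Algebra S' P]
    {d : ℕ} (φ : P →ₐ[S'] Matrix (Fin d) (Fin d) S') (I : Ideal S') (z : P)
    (h : ∀ i j, φ z i j ∈ I) : z ^ d ∈ I.map (algebraMap S' P) ⊔ RingHom.ker φ := by
  classical
  set p := (φ z).charpoly
  have hk : Polynomial.aeval z p ∈ RingHom.ker φ := by
    rw [RingHom.mem_ker, ← Polynomial.aeval_algHom_apply]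
    exact Matrix.aeval_self_charpoly _
  have hdeg : p.natDegree = d := by rw [Matrix.charpoly_natDegree_eq_dim, Fintype.card_fin]
  have hco : ∀ i < d, p.coeff i ∈ I := fun i hi => by
    by_cases htop : I = ⊤
    · rw [htop]; exact Submodule.mem_top
    haveI : Nontrivial (S' ⧸ I) := Ideal.Quotient.nontrivial_iff.2 htop
    have hz : (φ z).map (Ideal.Quotient.mk I) = 0 :=
      Matrix.ext fun a b => Ideal.Quotient.eq_zero_iff_mem.2 (h a b)
    have h1 := Matrix.charpoly_map (φ z) (Ideal.Quotient.mk I)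
    rw [hz, Matrix.charpoly_zero, Fintype.card_fin] at h1
    rw [← Ideal.Quotient.eq_zero_iff_mem, ← Polynomial.coeff_map, ← h1, Polynomial.coeff_X_pow,
      if_neg hi.ne]
  rw [Polynomial.aeval_eq_sum_range, hdeg, Finset.sum_range_succ] at hk
  have hlead : p.coeff d = 1 := by rw [← hdeg]; exact (Matrix.charpoly_monic _).coeff_natDegree
  rw [hlead, one_smul] at hk
  refine (Ideal.add_mem_iff_right _ (Ideal.sum_mem _ fun i hi => ?_)).1 (Ideal.mem_sup_right hk)
  rw [Algebra.smul_def]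
  exact Ideal.mem_sup_left (Ideal.mul_mem_right _ _
    (Ideal.mem_map_of_mem _ (hco i (Finset.mem_range.1 hi))))

theorem map_maximalIdeal_ne_top {R : Type} [CommRing R] [IsLocalRing R] (E : Type) [CommRing E]
    [Algebra R E] [Module.Finite R E] [Nontrivial E] :
    (maximalIdeal R).map (algebraMap R E) ≠ ⊤ := fun htop => by
  have h1 : (⊤ : Submodule R E) ≤ maximalIdeal R • ⊤ := by
    rw [Ideal.smul_top_eq_map, htop]
    exact fun _ _ => Submodule.mem_top
  have h2 := Submodule.eq_bot_of_le_smul_of_le_jacobson_bot _ _ Module.Finite.fg_top h1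
    (IsLocalRing.maximalIdeal_le_jacobson _)
  exact one_ne_zero (α := E) ((Submodule.mem_bot R).1 (h2 ▸ Submodule.mem_top))

/-- A prime containing the kernel contains what is arbitrarily close to having small matrix. -/
theorem mem_of_approx (φ : Ring' O r g Λ →ₐ[MvPowerSeries (Fin r) O]
      Matrix (Fin d) (Fin d) (MvPowerSeries (Fin r) O))
    (Q : Ideal (Ring' O r g Λ)) [Q.IsPrime] (hker : RingHom.ker φ ≤ Q) (K : Ideal S)
    (hK : K ≤ Q.comap (algebraMap S (Ring' O r g Λ))) (a : Ring' O r g Λ)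
    (h : ∀ n, ∃ z, (∀ i j, φ z i j ∈ 𝔐 ^ n ⊔ K) ∧
      a - z ∈ Q ⊔ ((𝔐 : Ideal S) ^ n).map (algebraMap S (Ring' O r g Λ))) : a ∈ Q := by
  haveI : IsDomain S := NoZeroDivisors.to_isDomain _
  haveI := moduleFinite_quot_ker φ
  haveI : Module.Finite S (Ring' O r g Λ ⧸ Q) := Module.Finite.of_surjective
    ((Ideal.Quotient.factorₐ S hker).toLinearMap) (Ideal.Quotient.factor_surjective hker)
  haveI : IsNoetherianRing (Ring' O r g Λ ⧸ Q) := IsNoetherianRing.of_finite S (Ring' O r g Λ ⧸ Q)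
  haveI : IsDomain (Ring' O r g Λ ⧸ Q) := Ideal.Quotient.isDomain Q
  let J : Ideal (Ring' O r g Λ ⧸ Q) := (𝔐 : Ideal S).map (algebraMap S (Ring' O r g Λ ⧸ Q))
  haveI : Nontrivial (Ring' O r g Λ ⧸ Q) := Ideal.Quotient.nontrivial_iff.2 ‹Q.IsPrime›.ne_top
  have hJ : J ≠ ⊤ := map_maximalIdeal_ne_top (R := MvPowerSeries (Fin r) O) (Ring' O r g Λ ⧸ Q)
  have hn : ∀ n, Ideal.Quotient.mk Q a ^ d ∈ J ^ n := by
    intro n
    obtain ⟨z, hz, haz⟩ := h n
    set mk := Ideal.Quotient.mk Q
    have hcomp : ∀ I : Ideal S, (I.map (algebraMap S (Ring' O r g Λ))).map mk =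
        I.map (algebraMap S (Ring' O r g Λ ⧸ Q)) := fun I => by rw [Ideal.map_map]; rfl
    have hz' : mk z ^ d ∈ J ^ n := by
      rw [← map_pow]
      refine (Ideal.map_le_iff_le_comap.1 ?_) (pow_mem_of_entries φ (𝔐 ^ n ⊔ K) z hz)
      rw [Ideal.map_sup, Ideal.map_sup, Ideal.map_sup, hcomp, hcomp,
        show (((𝔐 : Ideal S) ^ n).map (algebraMap S (Ring' O r g Λ ⧸ Q))) = J ^ n from Ideal.map_pow (algebraMap S (Ring' O r g Λ ⧸ Q)) (𝔐 : Ideal S) n]
      refine sup_le (sup_le le_rfl ?_) ?_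
      · refine (Ideal.map_le_iff_le_comap.2 fun s hs => ?_ : K.map (algebraMap S (Ring' O r g Λ ⧸ Q)) ≤ (⊥ : Ideal (Ring' O r g Λ ⧸ Q))).trans bot_le
        rw [Ideal.mem_comap, Ideal.mem_bot]
        show mk (algebraMap S (Ring' O r g Λ) s) = 0
        exact Ideal.Quotient.eq_zero_iff_mem.2 (hK hs)
      · refine (Ideal.map_mono hker).trans ?_
        rw [Ideal.map_quotient_self]
        exact bot_le
    have haz' : mk a - mk z ∈ J ^ n := by
      rw [← map_sub]
      refine (Ideal.map_le_iff_le_comap.1 ?_) haz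
      rw [Ideal.map_sup, hcomp, show mk = Ideal.Quotient.mk Q from rfl, Ideal.map_quotient_self]
      exact sup_le bot_le (le_of_eq
        (Ideal.map_pow (algebraMap S (Ring' O r g Λ ⧸ Q)) (𝔐 : Ideal S) n))
    obtain ⟨c, hc⟩ := sub_dvd_pow_sub_pow (mk a) (mk z) d
    rw [← sub_add_cancel (mk a ^ d) (mk z ^ d), hc]
    exact add_mem (mul_comm (mk a - mk z) c ▸ (J ^ n).mul_mem_left c haz') hz'
  have h0 : Ideal.Quotient.mk Q a ^ d = 0 := by
    have hbot := Ideal.iInf_pow_eq_bot_of_isDomain (R := Ring' O r g Λ ⧸ Q) J hJ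
    have hmem : Ideal.Quotient.mk Q a ^ d ∈ ⨅ n, J ^ n := Submodule.mem_iInf _ |>.2 hn
    exact (Submodule.mem_bot _).1 (hbot.le hmem)
  rw [← map_pow, Ideal.Quotient.eq_zero_iff_mem] at h0
  exact ‹Q.IsPrime›.mem_of_pow_mem d h0

theorem lift'_sub_C_mem (F : MvPolynomial (Var g Λ) O) (Q : Ideal (Ring' O r g Λ))
    (hQ : ∀ v, (MvPolynomial.X v : Ring' O r g Λ) ∈ Q) :
    lift' F - algebraMap O (Ring' O r g Λ) (MvPolynomial.constantCoeff F) ∈ Q := by
  induction F using MvPolynomial.induction_on with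
  | C c => simp [lift']
  | add p q hp hq =>
    rw [map_add, map_add, map_add, add_sub_add_comm]
    exact add_mem hp hq
  | mul_X p v _ =>
    rw [map_mul, map_mul, MvPolynomial.constantCoeff_X, mul_zero, map_zero, sub_zero,
      show lift' (MvPolynomial.X v) = (MvPolynomial.X v : Ring' O r g Λ) from
        MvPolynomial.aeval_X _ v]
    exact Ideal.mul_mem_left _ _ (hQ v)

/-- The evaluation at the origin. -/
def evalOrigin : Ring' O r g Λ →+* O :=
  (constantCoeff (σ := Fin r) (R := O)).comp MvPolynomial.constantCoeff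

theorem sub_evalOrigin_mem (z : Ring' O r g Λ) (Q : Ideal (Ring' O r g Λ))
    (hQ : ∀ v, (MvPolynomial.X v : Ring' O r g Λ) ∈ Q)
    (hQS : ∀ i, algebraMap S (Ring' O r g Λ) (MvPowerSeries.X i) ∈ Q) :
    z - algebraMap O (Ring' O r g Λ) (evalOrigin z) ∈ Q := by
  have h1 : z - MvPolynomial.C (MvPolynomial.constantCoeff z) ∈ Q := by
    induction z using MvPolynomial.induction_on with
    | C c => simp
    | add p q hp hq =>
      rw [map_add, map_add, add_sub_add_comm]
      exact add_mem hp hq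
    | mul_X p v _ =>
      rw [map_mul, MvPolynomial.constantCoeff_X, mul_zero, map_zero, sub_zero]
      exact Ideal.mul_mem_left _ _ (hQ v)
  set s := MvPolynomial.constantCoeff z
  have h2 : s - MvPowerSeries.C (constantCoeff s) ∈
      Q.comap (algebraMap S (Ring' O r g Λ)) := by
    refine Ideal.span_le.2 ?_ (sub_C_mem s)
    rintro _ ⟨i, rfl⟩
    exact hQS i
  rw [Ideal.mem_comap, map_sub, MvPolynomial.algebraMap_eq] at h2
  have h3 := add_mem h1 h2
  rw [sub_add_sub_cancel] at h3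
  rwa [show algebraMap O (Ring' O r g Λ) (evalOrigin z) =
    MvPolynomial.C (MvPowerSeries.C (constantCoeff s)) by
      rw [IsScalarTower.algebraMap_apply O S, MvPowerSeries.algebraMap_apply,
        Algebra.algebraMap_self, RingHom.id_apply]; rfl]

omit [CommRing A] [Algebra O A] in
/-- A prime over a point of an integral extension. -/
theorem exists_prime_over_point {A' C D₀ : Type} [CommRing A'] [CommRing C] [CommRing D₀]
    [IsDomain D₀] [Algebra O A'] [Algebra O C] [Algebra O D₀] [Module.Finite O C]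
    (γ : A' →ₐ[O] C) (hγ : Function.Injective γ) (f : A' →ₐ[O] D₀) :
    ∃ Q' : Ideal C, Q'.IsPrime ∧ ∀ t, γ t ∈ Q' ↔ f t = 0 := by
  letI : Algebra A' C := γ.toRingHom.toAlgebra
  haveI : IsScalarTower O A' C := IsScalarTower.of_algebraMap_eq fun c => (γ.commutes c).symm
  haveI : Algebra.IsIntegral O C := Algebra.IsIntegral.of_finite _ _
  haveI : Algebra.IsIntegral A' C := Algebra.IsIntegral.tower_top O
  haveI : (RingHom.ker f).IsPrime := RingHom.ker_isPrime _
  obtain ⟨Q', -, hQ', hQ'c⟩ := Ideal.exists_ideal_over_prime_of_isIntegral (RingHom.ker f)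
    (⊥ : Ideal C) (fun t ht => by
      rw [RingHom.mem_ker, show t = 0 from hγ ((Ideal.mem_bot.1 ht).trans (map_zero γ).symm),
        map_zero])
  exact ⟨Q', hQ', fun t => by rw [← RingHom.mem_ker (f := f), ← hQ'c, Ideal.mem_comap]; rfl⟩

variable [IsAdicComplete (maximalIdeal O) O] [Finite (ResidueField O)] [CharZero O] [Fintype Λ]

set_option maxHeartbeats 1000000 in
-- one long assembly
/-- **The point.** -/
theorem exists_point_of_approx [Module.Finite O A] (T : Target O Λ)
    (Φ : A →ₐ[O] Matrix (Fin d) (Fin d) O) (hΦ : Function.Injective Φ) (τ : ι → A)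
    (hτ : Algebra.adjoin O (Set.range τ) = ⊤) (a : ι → O) (tF : Λ → A)
    (E : Λ → Fin 2 → Fin 2 → A)
    {D₀ : Type} [CommRing D₀] [IsDomain D₀] [CharZero D₀] [Algebra O D₀] (f : A →ₐ[O] D₀)
    (hfF : ∀ k, f (tF k) = (T.e k : D₀) * ((T.l k : D₀) + 1))
    (hfE : ∀ k, ∃ i j, f (E k i j) ≠ 0) (hl1 : ∀ k, 1 < T.l k)
    (hcount : g + ∑ k, T.weight k ≤ r)
    (h : ∀ n, ∃ N : Var g Λ × Fin d × Fin d → S, Approx T Φ τ a tF E n N) :
    ∃ f' : A →ₐ[O] O, ∀ s, f' (τ s) = a s := by
  classical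
  haveI : IsDomain S := NoZeroDivisors.to_isDomain _
  obtain ⟨ϖ, hϖ⟩ := IsDiscreteValuationRing.exists_irreducible O
  obtain ⟨φ, hφ⟩ := exists_limit h
  have hrel : ∀ z ∈ relSet (g := g) T, φ z = 0 := fun z hz => eq_of_forall_map fun n => by
    have := (hφ n).rel z hz
    rw [map_zero]
    exact this
  -- the action at the base
  let φ₀ : Ring' O r g Λ →ₐ[O] Matrix (Fin d) (Fin d) O :=
    { (RingHom.mapMatrix (m := Fin d) (constantCoeff (σ := Fin r) (R := O))).comp φ.toRingHom with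
      commutes' := fun c => by
        show (φ (algebraMap O (Ring' O r g Λ) c)).map constantCoeff = _
        rw [IsScalarTower.algebraMap_apply O S, AlgHom.commutes]
        ext i j
        by_cases hij : i = j <;> simp [Matrix.algebraMap_matrix_apply, hij, algebraMap_eq_C] }
  have hφ₀ : ∀ z i j, φ₀ z i j = constantCoeff (φ z i j) := fun z i j => rfl
  have hsmall : ∀ (n : ℕ) z, (∀ i j, φ₀ z i j ∈ maximalIdeal O ^ n) →
      ∀ i j, φ z i j ∈ 𝔐 ^ n ⊔ RingHom.ker (constantCoeff (σ := Fin r) (R := O)) := by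
    intro n z hz i j
    refine Submodule.mem_sup.2 ⟨MvPowerSeries.C (constantCoeff (φ z i j)), ?_,
      φ z i j - MvPowerSeries.C (constantCoeff (φ z i j)), ?_, add_sub_cancel _ _⟩
    · have h1 := hz i j
      rw [hφ₀, hϖ.maximalIdeal_eq, Ideal.span_singleton_pow, Ideal.mem_span_singleton] at h1
      obtain ⟨u, hu⟩ := h1
      rw [hu, map_mul, map_pow]
      refine Ideal.mul_mem_right _ _ (Ideal.pow_mem_pow ?_ n)
      rw [IsLocalRing.mem_maximalIdeal, mem_nonunits_iff, MvPowerSeries.isUnit_iff_constantCoeff,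
        MvPowerSeries.constantCoeff_C]
      exact hϖ.not_isUnit
    · simp [RingHom.mem_ker]
  have hbase : ∀ n z M, BaseCongr n ((Ideal.Quotient.mkₐ (MvPowerSeries (Fin r) O)
      (𝔐 ^ n)).mapMatrix.comp φ z) M → ∀ i j, φ₀ z i j - M i j ∈ maximalIdeal O ^ n :=
    fun n z M hzM i j => hzM i j (φ z i j) rfl
  have hbase' : ∀ n (z z' : Ring' O r g Λ) M, φ₀ z = M →
      (∀ i j, φ₀ z' i j - M i j ∈ maximalIdeal O ^ n) →
      ∀ i j, φ₀ (z - z') i j ∈ maximalIdeal O ^ n := fun n z z' M hz hz' i j => by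
    rw [map_sub, Matrix.sub_apply, hz, ← neg_mem_iff, neg_sub]
    exact hz' i j
  -- the Hecke ring in the quotient of the limit ring
  have hrange : ∀ t : A, Φ t ∈ φ₀.range := by
    have hgen : ∀ s, Φ (τ s) ∈ φ₀.range := by
      intro s
      let W := Matrix (Fin d) (Fin d) O ⧸ φ₀.toLinearMap.range
      haveI : IsHausdorff (maximalIdeal O) W := IsHausdorff.of_isLocalRing _ _
        (IsLocalRing.maximalIdeal.isMaximal O).ne_top
      show Φ (τ s) ∈ φ₀.toLinearMap.range
      rw [← Submodule.Quotient.mk_eq_zero]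
      refine IsHausdorff.haus (I := maximalIdeal O) inferInstance _ fun n => ?_
      rw [SModEq.zero]
      obtain ⟨F, -, hF⟩ := (hφ n).trace s
      have hd' : ∀ i j, φ₀ (lift' F) i j - Φ (τ s) i j ∈ maximalIdeal O ^ n := hbase n _ _ hF
      have h1 : Φ (τ s) - φ₀ (lift' F) ∈
          maximalIdeal O ^ n • (⊤ : Submodule O (Matrix (Fin d) (Fin d) O)) := by
        rw [Matrix.matrix_eq_sum_single (Φ (τ s) - φ₀ (lift' F))]
        refine Submodule.sum_mem _ fun i _ => Submodule.sum_mem _ fun j _ => ?_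
        rw [show Matrix.single i j ((Φ (τ s) - φ₀ (lift' F)) i j) =
          (Φ (τ s) - φ₀ (lift' F)) i j • Matrix.single i j (1 : O) by
            rw [Matrix.smul_single, smul_eq_mul, mul_one]]
        refine Submodule.smul_mem_smul ?_ Submodule.mem_top
        rw [Matrix.sub_apply, ← neg_mem_iff, neg_sub]
        exact hd' i j
      have h2 := Submodule.mem_map_of_mem (f := φ₀.toLinearMap.range.mkQ) h1
      rw [Submodule.map_smul'', Submodule.map_top, Submodule.range_mkQ, map_sub,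
        (show φ₀.toLinearMap.range.mkQ (φ₀ (lift' F)) = 0 from
          (Submodule.Quotient.mk_eq_zero _).2 ⟨lift' F, rfl⟩), sub_zero] at h2
      exact h2
    have hle : Algebra.adjoin O (Set.range τ) ≤ φ₀.range.comap Φ := by
      refine Algebra.adjoin_le ?_
      rintro _ ⟨s, rfl⟩
      exact hgen s
    intro t
    exact hle (hτ ▸ Algebra.mem_top)
  let C₀ := Ring' O r g Λ ⧸ RingHom.ker φ₀
  let φ₀' : C₀ →ₐ[O] Matrix (Fin d) (Fin d) O :=
    Ideal.Quotient.liftₐ (RingHom.ker φ₀) φ₀ fun z hz => RingHom.mem_ker.1 hz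
  have hφ₀' : Function.Injective φ₀' := RingHom.lift_injective_of_ker_le_ideal _ _ le_rfl
  have hC₀ : ∀ t, ∃ c : C₀, φ₀' c = Φ t := fun t => by
    obtain ⟨z, hz⟩ := (AlgHom.mem_range φ₀).1 (hrange t)
    exact ⟨Ideal.Quotient.mk _ z, hz⟩
  choose γ' hγ' using hC₀
  let γ : A →ₐ[O] C₀ :=
    { toFun := γ'
      map_one' := hφ₀' (by rw [hγ', map_one, map_one])
      map_mul' := fun x y => hφ₀' (by rw [hγ', map_mul, map_mul, hγ', hγ'])
      map_zero' := hφ₀' (by rw [hγ', map_zero, map_zero])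
      map_add' := fun x y => hφ₀' (by rw [hγ', map_add, map_add, hγ', hγ'])
      commutes' := fun c => hφ₀' (by rw [hγ', AlgHom.commutes, AlgHom.commutes]) }
  have hγ : ∀ t z, φ₀ z = Φ t → γ t = Ideal.Quotient.mk (RingHom.ker φ₀) z := fun t z hz =>
    hφ₀' ((hγ' t).trans hz.symm)
  have hγz : ∀ t, ∃ z, φ₀ z = Φ t ∧ γ t = Ideal.Quotient.mk (RingHom.ker φ₀) z := fun t => by
    obtain ⟨z, hz⟩ := (AlgHom.mem_range φ₀).1 (hrange t)
    exact ⟨z, hz, hγ t z hz⟩
  -- a prime over the given point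
  haveI : Module.Finite O C₀ := Module.Finite.of_injective φ₀'.toLinearMap hφ₀'
  have hγinj : Function.Injective γ := fun x y h => hΦ (by
    rw [← hγ', ← hγ', show γ' x = γ x from rfl, h]; rfl)
  obtain ⟨Q', hQ', hQ'c⟩ := exists_prime_over_point (C := C₀) γ hγinj f
  let Q₀ : Ideal (Ring' O r g Λ) := Q'.comap (Ideal.Quotient.mk (RingHom.ker φ₀))
  haveI := hQ'
  haveI hQ₀ : Q₀.IsPrime := Ideal.IsPrime.comap _
  have hk₀ : RingHom.ker φ ≤ Q₀ := fun z hz => by
    have h0 : z ∈ RingHom.ker φ₀ := by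
      rw [RingHom.mem_ker]
      ext i j
      rw [hφ₀, RingHom.mem_ker.1 hz, Matrix.zero_apply, map_zero, Matrix.zero_apply]
    show Ideal.Quotient.mk _ z ∈ Q'
    rw [Ideal.Quotient.eq_zero_iff_mem.2 h0]; exact zero_mem _
  have hQ₀γ : ∀ t z, φ₀ z = Φ t → (z ∈ Q₀ ↔ f t = 0) := fun t z hz => by
    show Ideal.Quotient.mk _ z ∈ Q' ↔ _
    rw [← hγ t z hz]
    exact hQ'c t
  have hcc₀ : RingHom.ker (constantCoeff (σ := Fin r) (R := O)) ≤
      Q₀.comap (algebraMap S (Ring' O r g Λ)) := fun s hs => by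
    have h0 : algebraMap S (Ring' O r g Λ) s ∈ RingHom.ker φ₀ := by
      rw [RingHom.mem_ker]
      ext i j
      rw [hφ₀, AlgHom.commutes, Matrix.algebraMap_matrix_apply]
      split <;> simp [RingHom.mem_ker.1 hs]
    show Ideal.Quotient.mk _ _ ∈ Q'
    rw [Ideal.Quotient.eq_zero_iff_mem.2 h0]; exact zero_mem _
  have hQ₀O : ∀ c : O, algebraMap O (Ring' O r g Λ) c ∈ Q₀ → c = 0 := fun c hc => by
    rw [hQ₀γ (algebraMap O A c) _ (by rw [AlgHom.commutes, AlgHom.commutes]), AlgHom.commutes] at hc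
    by_contra h0
    obtain ⟨p, hp, hp0, -⟩ : ∃ p : ℕ, (algebraMap O D₀ (p : O) = 0) ∧ 0 < p ∧ True := by
      obtain ⟨m, u, hu⟩ := IsDiscreteValuationRing.eq_unit_mul_pow_irreducible h0 hϖ
      obtain ⟨q, hq⟩ := CharP.exists (ResidueField O)
      haveI := hq
      have hq0 : q ≠ 0 := fun h0 => by
        subst h0
        haveI := CharP.charP_to_charZero (ResidueField O)
        exact not_finite (ResidueField O)
      refine ⟨q, ?_, Nat.pos_of_ne_zero hq0, trivial⟩
      have hqm : (q : O) ∈ maximalIdeal O := by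
        rw [← IsLocalRing.residue_eq_zero_iff, map_natCast, CharP.cast_eq_zero]
      rw [hϖ.maximalIdeal_eq, Ideal.mem_span_singleton] at hqm
      obtain ⟨w, hw⟩ := hqm
      have hϖ0 : algebraMap O D₀ ϖ = 0 := by
        rw [hu, map_mul, map_pow] at hc
        exact eq_zero_of_pow_eq_zero ((mul_eq_zero.1 hc).resolve_left (u.isUnit.map _).ne_zero)
      rw [hw, map_mul, hϖ0, zero_mul]
    rw [map_natCast, Nat.cast_eq_zero] at hp
    omega
  -- special values at the given point
  have hwQ₀ : ∀ k, (mats' (r := r) (g := g) T k true).trace -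
      (T.e k : Ring' O r g Λ) * ((T.l k : Ring' O r g Λ) + 1) ∈ Q₀ := by
    intro k
    have hz : φ₀ (mats' (r := r) (g := g) T k true).trace = Φ (tF k) := by
      ext i j
      rw [← sub_eq_zero]
      refine IsHausdorff.haus (I := maximalIdeal O) inferInstance _ fun n => ?_
      rw [SModEq.zero, smul_eq_mul, Ideal.mul_top]
      exact hbase n _ _ ((hφ n).frob k) i j
    have hm : φ₀ ((mats' (r := r) (g := g) T k true).trace -
        (T.e k : Ring' O r g Λ) * ((T.l k : Ring' O r g Λ) + 1)) =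
        Φ (tF k - (T.e k : A) * ((T.l k : A) + 1)) := by
      simp only [map_sub, map_mul, map_add, map_one, map_natCast, map_intCast, hz]
    rw [hQ₀γ _ _ hm]
    simp only [map_sub, map_mul, map_add, map_one, map_natCast, map_intCast, hfF, sub_self]
  have hNQ₀ : ∀ k, ∃ i j, mats' (r := r) (g := g) T k false i j ∉ Q₀ := by
    intro k
    obtain ⟨i, j, hij⟩ := hfE k
    by_contra hall
    simp only [not_exists, not_not] at hall
    obtain ⟨z, hz, -⟩ := hγz (E k i j)
    refine hij ((hQ₀γ _ z hz).1 (mem_of_approx φ Q₀ hk₀ _ hcc₀ z fun n => ?_))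
    obtain ⟨F, hF, hF'⟩ := (hφ n).inert k i j
    refine ⟨z - F, hsmall n _ (hbase' n z F _ hz (hbase n F _ hF')), Ideal.mem_sup_left ?_⟩
    rw [sub_sub_cancel]
    refine Ideal.span_le.2 ?_ hF
    rintro _ ⟨q, rfl⟩
    exact hall q.1 q.2
  -- the component
  obtain ⟨P₀, hP₀, hkP₀, hP₀le, hP₀S⟩ := exists_horizontal_prime φ Q₀ hk₀
  haveI := hP₀
  let D := Ring' O r g Λ ⧸ P₀
  haveI : IsDomain D := Ideal.Quotient.isDomain P₀
  haveI := moduleFinite_quot_ker φ
  haveI : Module.Finite S D := Module.Finite.of_surjective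
    ((Ideal.Quotient.factorₐ S hkP₀).toLinearMap) (Ideal.Quotient.factor_surjective hkP₀)
  let mk : Ring' O r g Λ →ₐ[O] D := Ideal.Quotient.mkₐ O P₀
  have hinj : Function.Injective (algebraMap S D) := by
    rw [injective_iff_map_eq_zero]
    intro s hs
    rw [← Ideal.mem_bot (R := S), ← hP₀S, Ideal.mem_comap]
    exact Ideal.Quotient.eq_zero_iff_mem.1 hs
  let y : Var g Λ → D := fun v => mk (MvPolynomial.X v)
  have hmats : ∀ k b, mk.toRingHom.mapMatrix (mats' T k b) = varMat T.W y k b := fun k b =>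
    varMat_map T.W mk MvPolynomial.X k b
  have hrelD : ∀ z ∈ relSet (g := g) T, mk z = 0 := fun z hz =>
    Ideal.Quotient.eq_zero_iff_mem.2 (hkP₀ (RingHom.mem_ker.2 (hrel z hz)))
  have hD : ∀ k, SpecialPair (T.l k : D) (T.e k : D) (varMat T.W y k false) (varMat T.W y k true) := by
    intro k
    have htrN : (varMat T.W y k false).trace = 0 := by
      rw [← hmats, RingHom.mapMatrix_apply, ← AddMonoidHom.map_trace]
      exact hrelD _ ⟨k, Or.inl rfl⟩
    have hsqN : varMat T.W y k false * varMat T.W y k false = 0 := by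
      rw [← hmats, ← map_mul]
      ext i j
      exact hrelD _ ⟨k, Or.inr (Or.inl ⟨i, j, rfl⟩)⟩
    have htame : varMat T.W y k true * varMat T.W y k false =
        (T.l k : D) • (varMat T.W y k false * varMat T.W y k true) := by
      ext i j
      let M := mats' (r := r) (g := g) T
      have h1 : mk ((M k true * M k false -
          (T.l k : Ring' O r g Λ) • (M k false * M k true)) i j) = 0 :=
        hrelD _ ⟨k, Or.inr (Or.inr (Or.inl ⟨i, j, rfl⟩))⟩
      rw [Matrix.sub_apply, map_sub, sub_eq_zero, Matrix.smul_apply, smul_eq_mul, map_mul,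
        map_natCast] at h1
      rw [← hmats, ← hmats, ← map_mul, ← map_mul, Matrix.smul_apply, smul_eq_mul]
      exact h1
    have hdet : (varMat T.W y k true).det = (T.l k : D) := by
      rw [← hmats, ← RingHom.map_det, ← sub_eq_zero, ← map_natCast mk.toRingHom, ← map_sub]
      exact hrelD _ ⟨k, Or.inr (Or.inr (Or.inr (Or.inl rfl)))⟩
    refine ⟨htrN, hsqN, htame, ?_, hdet⟩
    set t := (varMat T.W y k true).trace with ht
    obtain ⟨i, j, hij⟩ := hNQ₀ k
    have hN0 : varMat T.W y k false i j ≠ 0 := fun h0 => hij (hP₀le (by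
      rw [← Ideal.Quotient.eq_zero_iff_mem]
      rw [← hmats] at h0
      exact h0))
    have hsr := congrFun (congrFun (special_rel htrN hsqN hdet htame) i) j
    rw [Matrix.smul_apply, Matrix.zero_apply, smul_eq_mul, ← ht] at hsr
    have hll : (T.l k : D) * ((T.l k : D) - 1) ≠ 0 := by
      intro h0
      have h1 : mk (algebraMap O (Ring' O r g Λ) ((T.l k : O) * ((T.l k : O) - 1))) = 0 := by
        rw [AlgHom.commutes, map_mul, map_sub, map_natCast, map_one, h0]
      have h2 : (T.l k : O) * ((T.l k : O) - 1) = 0 :=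
        hQ₀O _ (hP₀le (Ideal.Quotient.eq_zero_iff_mem.1 h1))
      rcases mul_eq_zero.1 h2 with h3 | h3
      · exact (T.natCast_ne k).1 h3
      · rw [sub_eq_zero] at h3
        have h4 : T.l k = 1 := by exact_mod_cast h3
        have := hl1 k
        omega
    have h5 := ((mul_eq_zero.1 hsr).resolve_right hN0 |> mul_eq_zero.1).resolve_left hll
    have he : ((T.e k : D)) * (T.e k : D) = 1 := by rw [← Int.cast_mul, T.sq, Int.cast_one]
    have h6 : (t - (T.e k : D) * ((T.l k : D) + 1)) * (t + (T.e k : D) * ((T.l k : D) + 1)) = 0 := by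
      linear_combination h5 - ((T.l k : D) + 1) ^ 2 * he
    refine sub_eq_zero.1 ((mul_eq_zero.1 h6).resolve_right fun h7 => ?_)
    have h8 : mk ((mats' T k true).trace + (T.e k : Ring' O r g Λ) * ((T.l k : Ring' O r g Λ) + 1))
        = 0 := by
      rw [map_add, map_mul, map_add, map_one, map_natCast, map_intCast, ← h7, ht, ← hmats,
        RingHom.mapMatrix_apply, ← AddMonoidHom.map_trace]
      rfl
    have h9 := sub_mem (hP₀le (Ideal.Quotient.eq_zero_iff_mem.1 h8)) (hwQ₀ k)
    have h10 : algebraMap O (Ring' O r g Λ) (2 * (T.e k : O) * ((T.l k : O) + 1)) ∈ Q₀ := by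
      convert h9 using 1
      simp only [map_mul, map_add, map_one, map_natCast, map_intCast, map_ofNat]
      ring
    rcases mul_eq_zero.1 (hQ₀O _ h10) with h11 | h11
    · rcases mul_eq_zero.1 h11 with h12 | h12
      · exact two_ne_zero h12
      · have h13 : (T.e k : O) * (T.e k : O) = 1 := by rw [← Int.cast_mul, T.sq, Int.cast_one]
        rw [h12, mul_zero] at h13
        exact zero_ne_one h13
    · exact (T.natCast_ne k).2 h11
  have hne : ∀ k, varMat T.W y k false ≠ 0 := fun k h0 => by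
    obtain ⟨i, j, hij⟩ := hNQ₀ k
    refine hij (hP₀le ?_)
    rw [← Ideal.Quotient.eq_zero_iff_mem]
    rw [← hmats] at h0
    exact congrFun (congrFun h0 i) j
  have hy : ∀ Q : Ideal D, Q.IsPrime → Q.comap (algebraMap S D) = 𝔐 → ∀ v, y v ∈ Q := by
    intro Q hQ hQm v
    haveI := hQ
    haveI : (Q.comap mk).IsPrime := Ideal.IsPrime.comap _
    refine Ideal.mem_comap.1 ((‹(Q.comap mk).IsPrime›).mem_of_pow_mem d ?_)
    refine mem_of_entries φ (Q.comap mk) (fun z hz => ?_) 𝔐 (fun s hs => ?_) fun i j => ?_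
    · rw [Ideal.mem_comap, show mk z = 0 from Ideal.Quotient.eq_zero_iff_mem.2 (hkP₀ hz)]
      exact zero_mem _
    · rw [← hQm] at hs
      exact hs
    · obtain ⟨w, hw, hwe⟩ := (Ideal.mem_map_iff_of_surjective _
        Ideal.Quotient.mk_surjective).1 ((hφ 1).nil v i j)
      have h1 : w - φ (MvPolynomial.X v ^ d) i j ∈ 𝔐 ^ 1 :=
        (Ideal.Quotient.mk_eq_mk_iff_sub_mem _ _).1 hwe
      rw [pow_one] at h1
      simpa using sub_mem hw h1
  have htw : ∀ Q : Ideal D, Q.IsPrime → (∀ v, y v ∈ Q) →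
      ∀ i, algebraMap S D (MvPowerSeries.X i) ∈ Q := by
    intro Q hQ hyQ i
    haveI := hQ
    haveI : (Q.comap mk).IsPrime := Ideal.IsPrime.comap _
    have hkQ : RingHom.ker φ ≤ Q.comap mk := fun z hz => by
      rw [Ideal.mem_comap, show mk z = 0 from Ideal.Quotient.eq_zero_iff_mem.2 (hkP₀ hz)]
      exact zero_mem _
    have h1 : (MvPolynomial.C (MvPowerSeries.X i ^ 2) : Ring' O r g Λ) ∈ Q.comap mk := by
      refine mem_of_approx φ (Q.comap mk) hkQ ⊥ bot_le _ fun n => ?_
      obtain ⟨G, hG, hG'⟩ := (hφ n).tw i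
      refine ⟨-(lift' G * MvPolynomial.C (1 + MvPowerSeries.X i) -
        MvPolynomial.C (MvPowerSeries.X i ^ 2)), fun a b => Ideal.mem_sup_left ?_, ?_⟩
      · rw [map_neg, Matrix.neg_apply, neg_mem_iff, ← Ideal.Quotient.eq_zero_iff_mem]
        exact congrFun (congrFun hG' a) b
      · rw [sub_neg_eq_add, add_sub_cancel]
        refine Ideal.mul_mem_right _ _ ?_
        rw [← sub_add_cancel (lift' G) (algebraMap O (Ring' O r g Λ) (MvPolynomial.constantCoeff G))]
        refine add_mem (Ideal.mem_sup_left (lift'_sub_C_mem G _ fun v => hyQ v))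
          (Ideal.mem_sup_right ?_)
        rw [IsScalarTower.algebraMap_apply O S]
        refine Ideal.mem_map_of_mem _ ?_
        rw [hϖ.maximalIdeal_eq, Ideal.span_singleton_pow, Ideal.mem_span_singleton] at hG
        obtain ⟨u, hu⟩ := hG
        rw [hu, map_mul, map_pow]
        refine Ideal.mul_mem_right _ _ (Ideal.pow_mem_pow ?_ n)
        rw [IsLocalRing.mem_maximalIdeal, mem_nonunits_iff, MvPowerSeries.isUnit_iff_constantCoeff,
          algebraMap_eq_C, MvPowerSeries.constantCoeff_C]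
        exact hϖ.not_isUnit
    rw [map_pow] at h1
    exact (‹(Q.comap mk).IsPrime›).mem_of_pow_mem 2 h1
  obtain ⟨Q, hQ, hyQ, hϖQ⟩ := exists_prime_over_special hinj hϖ T y hy
    (fun Q hQ _ h2 => htw Q hQ h2) hD hne
    (fun k hns => ⟨hrelD _ ⟨k, Or.inr (Or.inr (Or.inr (Or.inr ⟨hns, Or.inl rfl⟩)))⟩,
      hrelD _ ⟨k, Or.inr (Or.inr (Or.inr (Or.inr ⟨hns, Or.inr rfl⟩)))⟩⟩) hcount
  haveI := hQ
  let Q₁ : Ideal (Ring' O r g Λ) := Q.comap mk
  haveI hQ₁ : Q₁.IsPrime := Ideal.IsPrime.comap _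
  have hQ₁O : ∀ c : O, algebraMap O (Ring' O r g Λ) c ∈ Q₁ → c = 0 := fun c hc => by
    by_contra h0
    obtain ⟨m, u, hu⟩ := IsDiscreteValuationRing.eq_unit_mul_pow_irreducible h0 hϖ
    have hc' : algebraMap O D c ∈ Q := by
      rw [← mk.commutes]
      exact hc
    rw [hu, map_mul, map_pow] at hc'
    exact hϖQ (hQ.mem_of_pow_mem m
      ((Ideal.unit_mul_mem_iff_mem _ (u.isUnit.map _)).1 hc'))
  have hkQ₁ : RingHom.ker φ ≤ Q₁ := fun z hz => by
    rw [Ideal.mem_comap, show mk z = 0 from Ideal.Quotient.eq_zero_iff_mem.2 (hkP₀ hz)]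
    exact zero_mem _
  have hcc₁ : RingHom.ker (constantCoeff (σ := Fin r) (R := O)) ≤
      Q₁.comap (algebraMap S (Ring' O r g Λ)) := fun s hs => by
    have h1 := sub_C_mem s
    rw [RingHom.mem_ker.1 hs, map_zero, sub_zero] at h1
    refine Ideal.span_le.2 ?_ h1
    rintro _ ⟨i, rfl⟩
    exact htw Q hQ hyQ i
  have hk₀Q₁ : RingHom.ker φ₀ ≤ Q₁ := fun z hz =>
    mem_of_entries φ Q₁ hkQ₁ _ hcc₁ fun i j => by
      rw [RingHom.mem_ker, ← hφ₀, RingHom.mem_ker.1 hz]
      rfl
  have hev : ∀ z, z - algebraMap O (Ring' O r g Λ) (evalOrigin z) ∈ Q₁ := fun z =>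
    sub_evalOrigin_mem z Q₁ hyQ fun i => htw Q hQ hyQ i
  have hker1 : ∀ z ∈ Q₁, evalOrigin z = 0 := fun z hz => hQ₁O _ (by
    have := sub_mem hz (hev z)
    rwa [sub_sub_cancel] at this)
  let ev : Ring' O r g Λ →ₐ[O] O :=
    { evalOrigin with
      commutes' := fun c => by
        show evalOrigin (algebraMap O (Ring' O r g Λ) c) = c
        rw [IsScalarTower.algebraMap_apply O S, algebraMap_eq_C]
        simp [evalOrigin, MvPolynomial.algebraMap_eq] }
  let evC : C₀ →ₐ[O] O :=
    Ideal.Quotient.liftₐ (RingHom.ker φ₀) ev fun z hz => hker1 z (hk₀Q₁ hz)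
  refine ⟨evC.comp γ, fun s => ?_⟩
  obtain ⟨z, hz, hγs⟩ := hγz (τ s)
  rw [AlgHom.comp_apply, hγs]
  show evalOrigin z = a s
  have hmem : z - algebraMap O (Ring' O r g Λ) (a s) ∈ Q₁ := by
    refine mem_of_approx φ Q₁ hkQ₁ _ hcc₁ _ fun n => ?_
    obtain ⟨F, hF, hF'⟩ := (hφ n).trace s
    refine ⟨z - lift' F, hsmall n _ (hbase' n z _ _ hz (hbase n _ _ hF')), ?_⟩
    rw [sub_sub_sub_cancel_left, ← sub_add_sub_cancel (lift' F)
      (algebraMap O (Ring' O r g Λ) (MvPolynomial.constantCoeff F)), ← map_sub]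
    refine add_mem (Ideal.mem_sup_left (lift'_sub_C_mem F _ hyQ)) (Ideal.mem_sup_right ?_)
    rw [IsScalarTower.algebraMap_apply O S]
    refine Ideal.mem_map_of_mem _ ?_
    rw [hϖ.maximalIdeal_eq, Ideal.span_singleton_pow, Ideal.mem_span_singleton] at hF
    obtain ⟨u, hu⟩ := hF
    rw [hu, map_mul, map_pow]
    refine Ideal.mul_mem_right _ _ (Ideal.pow_mem_pow ?_ n)
    rw [IsLocalRing.mem_maximalIdeal, mem_nonunits_iff, MvPowerSeries.isUnit_iff_constantCoeff,
      algebraMap_eq_C, MvPowerSeries.constantCoeff_C]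
    exact hϖ.not_isUnit
  have h1 := hker1 _ hmem
  rw [map_sub, sub_eq_zero] at h1
  rw [h1]
  exact ev.commutes (a s)

end FLTAgent.Lower.Lift.Final
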