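import Mathlib
import Fermat.Agent.Lower.Lift.Final.Pair
import Fermat.Agent.Lower.Lift.Final.System
import Fermat.Agent.Lower.Lift.Descend
import Fermat.Agent.Deform.Levels
import Fermat.Agent.TW.Transport

/-!
# A Hecke level gives a system of coordinates

`exists_approx_level`: a Hecke level at auxiliary primes of depth `n`, paired with the target lift
modulo `𝔪 ^ n` (`nonempty_pairRep`) and written in the detecting elements and in bases at the
special places, gives a system of depth `n` in the sense of `Approx`.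
-/

set_option autoImplicit false
set_option linter.unusedSectionVars false
set_option linter.style.haveILetI false

noncomputable section

namespace FLTAgent.Lower.Lift.Final

open IsLocalRing (maximalIdeal ResidueField)
open MvPowerSeries (constantCoeff)
open scoped TensorProduct
open FLTAgent.Lower

local notation "ℚ̄" => AlgebraicClosure ℚ
local notation "Γℚ" => (AlgebraicClosure ℚ ≃ₐ[ℚ] AlgebraicClosure ℚ)

variable {O : Type} [CommRing O] [IsDomain O] [IsDiscreteValuationRing O]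
  [IsAdicComplete (maximalIdeal O) O] [Finite (ResidueField O)] [CharZero O]

theorem matrix_pow_eq_zero_of_nilpotent {K : Type} [Field K] {d : ℕ}
    {X : Matrix (Fin d) (Fin d) K} (h : IsNilpotent X) : X ^ d = 0 := by
  have h1 := Matrix.isNilpotent_charpoly_sub_pow_of_isNilpotent h
  rw [Fintype.card_fin] at h1
  have h2 : X.charpoly = Polynomial.X ^ d := sub_eq_zero.1 h1.eq_zero
  have h3 := X.aeval_self_charpoly
  rwa [h2, map_pow, Polynomial.aeval_X] at h3

/-- A basis of the target lifting a residual basis. -/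
theorem exists_basis_residual_self {ρbar : ResidualGaloisRep (ResidueField O)}
    (ρ : GaloisRepAdic O) (h : ρ.residual.IsEquiv ρbar)
    (c₀ : Module.Basis (Fin 2) (ResidueField O) ρbar.V) :
    ∃ b : Module.Basis (Fin 2) O ρ.V, ∀ τ,
      (IsLocalRing.residue O).mapMatrix (matHom ρ b τ) = resMat ρbar c₀ τ := by
  obtain ⟨e⟩ := h
  let b' : Module.Basis (Fin 2) (ResidueField O) (TensorProduct O (ResidueField O) ρ.V) :=
    c₀.map e.toLinearEquiv.symm
  haveI : IsLocalHom (algebraMap O (ResidueField O)) :=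
    IsLocalHom.of_surjective _ IsLocalRing.residue_surjective
  obtain ⟨b, hb⟩ := exists_lift_basis (T := O) (B := ResidueField O)
    IsLocalRing.residue_surjective ρ.finrank_eq b'
  refine ⟨b, fun τ => ?_⟩
  ext r s
  rw [RingHom.mapMatrix_apply, Matrix.map_apply, matHom_apply, resMat, Matrix.of_apply]
  have hrepr : ∀ (v : ρ.V) (r : Fin 2),
      b'.repr ((1 : ResidueField O) ⊗ₜ[O] v) r = IsLocalRing.residue O (b.repr v r) := fun v r => by
    conv_lhs => rw [← b.sum_repr v]
    rw [TensorProduct.tmul_sum, map_sum, Finsupp.finsetSum_apply]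
    have h2 : ∀ x : Fin 2, (1 : ResidueField O) ⊗ₜ[O] (b.repr v x • b x) =
        IsLocalRing.residue O (b.repr v x) • b' x := fun x => by
      rw [TensorProduct.tmul_smul, hb, algebra_compatible_smul (ResidueField O)]
      rfl
    simp only [h2, map_smul, Finsupp.smul_apply, Module.Basis.repr_self, Finsupp.single_apply,
      smul_eq_mul, mul_ite, mul_one, mul_zero, Finset.sum_ite_eq', Finset.mem_univ, if_true]
  rw [← hrepr, show (1 : ResidueField O) ⊗ₜ[O] (ρ.ρ τ (b s)) =
    (ρ.residual.ρ τ) ((1 : ResidueField O) ⊗ₜ[O] b s) from rfl, hb]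
  change c₀.repr (e.toLinearEquiv (ρ.residual.ρ τ (e.toLinearEquiv.symm (c₀ s)))) r = _
  rw [e.map_apply]
  erw [LinearEquiv.apply_symm_apply]

/-- Evaluation of the polynomial ring of the limit through an action of a finite algebra. -/
theorem exists_action {A : Type} [CommRing A] [Algebra O A] {g r d : ℕ} {Λ : Type} {n : ℕ}
    (Φ₀ : A →ₐ[O] Matrix (Fin d) (Fin d)
      (MvPowerSeries (Fin r) O ⧸ maximalIdeal (MvPowerSeries (Fin r) O) ^ n))
    (v : Var g Λ → A) :
    ∃ φ : Ring' O r g Λ →ₐ[MvPowerSeries (Fin r) O] Matrix (Fin d) (Fin d)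
        (MvPowerSeries (Fin r) O ⧸ maximalIdeal (MvPowerSeries (Fin r) O) ^ n),
      (∀ w, φ (MvPolynomial.X w) = Φ₀ (v w)) ∧
        ∀ P, φ (lift' P) = Φ₀ (MvPolynomial.aeval v P) := by
  have hc : ∀ u w, Φ₀ (v u) * Φ₀ (v w) = Φ₀ (v w) * Φ₀ (v u) := fun u w => by
    rw [← map_mul, ← map_mul, mul_comm]
  refine ⟨polyHom (fun w => Φ₀ (v w)) hc, fun w => polyHom_X _ hc w, fun P => ?_⟩
  have : ((polyHom (S := MvPowerSeries (Fin r) O) (fun w => Φ₀ (v w)) hc).restrictScalars O).comp
      lift' = Φ₀.comp (MvPolynomial.aeval v) := by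
    refine MvPolynomial.algHom_ext fun w => ?_
    simp [lift', polyHom_X]
  exact AlgHom.congr_fun this P

/-- Entries of a place as polynomials over `O`. -/
theorem mats'_eq_lift' {r g : ℕ} {Λ : Type} (T : Target O Λ) (k : Λ) (b : Bool) :
    mats' (r := r) (g := g) T k b =
      (lift' (r := r)).toRingHom.mapMatrix (varMat T.W MvPolynomial.X k b) := by
  rw [varMat_map]
  ext i j
  simp [mats', varMat, lift']

theorem map_one_apply {R R' : Type} [CommRing R] [CommRing R'] (f : R →+* R') (i j : Fin 2) :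
    f ((1 : Matrix (Fin 2) (Fin 2) R) i j) = (1 : Matrix (Fin 2) (Fin 2) R') i j :=
  congrFun (congrFun (map_one f.mapMatrix) i) j

variable {p : ℕ} [Fact p.Prime] {ρbar : ResidualGaloisRep (ResidueField O)} {Smin : Finset ℕ}
  {N : ℕ} [NeZero N] {loc : LocalType}

set_option maxHeartbeats 4000000 in
-- one long assembly at a level
/-- **Level to system.** -/
theorem exists_approx_level (hp2 : p ≠ 2) (hp : (p : O) ∈ maximalIdeal O)
    (hres : Residual p Smin ρbar) (hSmin : Smin ⊆ unipPrimes p N)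
    (hloc : loc = flatType p ∨ loc = ordType p)
    (B : HeckeMod loc p (levelPrimes p N) (unipPrimes p N) ρbar)
    (P : Places p (unipPrimes p N \ Smin)) (ε : ℕ → ℤ) (hε : ∀ l, ε l * ε l = 1)
    (ρ : GaloisRepAdic O) (hρres : ρ.residual.IsEquiv ρbar)
    (hρ : Cond loc p (unipPrimes p N) (levelPrimes p N) ρ)
    (htrbar : ∀ l ∈ unipPrimes p N \ Smin,
      LinearMap.trace (ResidueField O) ρbar.V (ρbar.ρ (P.φ l)) =
        (ε l : ResidueField O) * ((l : ResidueField O) + 1))
    (T : Target O ↥(unipPrimes p N \ Smin))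
    (hTl : ∀ k, T.l k = (k : ℕ)) (he : ∀ k, T.e k = ε k)
    (hsc : ∀ k, T.sc k = true → IsScalarAt ρbar (P.A k))
    (bρ : ↥(unipPrimes p N \ Smin) → Module.Basis (Fin 2) O ρ.V)
    (hW : ∀ k, T.W k false = matHom ρ (bρ k) (P.σ k) - 1 ∧ T.W k true = matHom ρ (bρ k) (P.φ k))
    (bB : Module.Basis (Fin 2) B.T B.ρ.V)
    {n g r : ℕ} {Qv : Fin r → ℕ} (haux : IsAuxSet p N n ρbar Qv) (L : HeckeLevel B n Qv)
    (σt : Fin g → Γℚ)
    (hdet : Detects loc p Smin (unipPrimes p N \ Smin) ρbar P.A Qv σt) :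
    ∃ Nn : Var g ↥(unipPrimes p N \ Smin) × Fin B.d × Fin B.d → MvPowerSeries (Fin r) O,
      Approx T B.Φ B.ρ.trace ρ.trace (fun k => B.ρ.trace (P.φ k))
        (fun k i j => (matHom B.ρ bB (P.σ k) - 1) i j) n Nn := by
  classical
  have hpp : p.Prime := Fact.out
  have hmem : ∀ {l}, l ∈ (unipPrimes p N \ Smin) → l.Prime ∧ l ≠ p ∧ ρbar.IsUnramifiedAt l := fun {l} hl => by
    obtain ⟨h1, h2⟩ := Finset.mem_sdiff.1 hl
    obtain ⟨h3, h4⟩ := Finset.mem_erase.1 h1
    exact ⟨Nat.prime_of_mem_primeFactors h4, h3,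
      hres.unramified l (Nat.prime_of_mem_primeFactors h4) h2 h3⟩
  have hodd : Odd p := hpp.odd_of_ne_two hp2
  obtain ⟨ϖ, hϖ⟩ := IsDiscreteValuationRing.exists_irreducible O
  obtain ⟨h, hh⟩ : ∃ h : O, 2 * h = 1 := by
    have hu : IsUnit (2 : O) := by
      rw [← IsLocalRing.residue_ne_zero_iff_isUnit, map_ofNat]
      exact isUnit_two_residue hodd hp
    exact hu.exists_right_inv
  -- the level modulo the power of the maximal ideal
  let S' := MvPowerSeries (Fin r) O
  let 𝔐' := maximalIdeal (MvPowerSeries (Fin r) O)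
  have hlev : levelIdeal p n r O ≤ 𝔐' ^ n :=
    (levelIdeal_le_pow hp n r).trans (Ideal.pow_le_pow_right n.le_succ)
  let F : (S' ⧸ levelIdeal p n r O) →ₐ[S'] (S' ⧸ 𝔐' ^ n) := Ideal.Quotient.factorₐ S' hlev
  let Ψn : L.T →ₐ[O] Matrix (Fin B.d) (Fin B.d) (S' ⧸ 𝔐' ^ n) :=
    (F.restrictScalars O).mapMatrix.comp L.Ψ
  haveI : IsNoetherianRing L.T := IsNoetherianRing.of_finite O L.T
  haveI : Finite (S' ⧸ 𝔐' ^ n) := finite_quotient_pow r n
  obtain ⟨χT⟩ := FLTAgent.Deform.exists_resHom (𝒪 := O) (A := L.T) inferInstance L.residue_surjective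
  obtain ⟨M₀, hM₀⟩ : ∃ M₀, maximalIdeal L.T ^ M₀ ≤ RingHom.ker Ψn := by
    haveI : Finite (L.T ⧸ RingHom.ker Ψn) :=
      Finite.of_injective _ (RingHom.kerLift_injective Ψn.toRingHom)
    by_cases htop : RingHom.ker Ψn = ⊤
    · exact ⟨0, htop ▸ le_top⟩
    haveI : Nontrivial (L.T ⧸ RingHom.ker Ψn) := Ideal.Quotient.nontrivial_iff.2 htop
    haveI : IsLocalRing (L.T ⧸ RingHom.ker Ψn) :=
      IsLocalRing.of_surjective' (Ideal.Quotient.mk _) Ideal.Quotient.mk_surjective
    obtain ⟨a, ha⟩ := FLTAgent.Deform.exists_maximalIdeal_pow_eq_bot (A := L.T ⧸ RingHom.ker Ψn)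
    refine ⟨a, fun x hx => ?_⟩
    rw [← Ideal.Quotient.eq_zero_iff_mem, ← Ideal.mem_bot, ← ha]
    exact FLTAgent.Deform.map_mem_maximalIdeal_pow _
      (IsLocalHom.of_surjective _ Ideal.Quotient.mk_surjective) hx
  let M := M₀ + n + 1
  have hMn : n ≤ M := Nat.le_add_right_of_le (Nat.le_add_left n M₀)
  have hMker : maximalIdeal L.T ^ M ≤ RingHom.ker Ψn :=
    (Ideal.pow_le_pow_right (by omega)).trans hM₀
  -- the two finite rings
  let R₁ := L.T ⧸ maximalIdeal L.T ^ M
  let R₂ := O ⧸ maximalIdeal O ^ M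
  haveI : Finite R₁ := FLTAgent.Deform.finite_quotient_maximalIdeal_pow χT M
  haveI : Finite (O ⧸ maximalIdeal O) := ‹Finite (ResidueField O)›
  haveI : Finite R₂ := Ideal.finite_quotient_pow (IsNoetherian.noetherian _) M
  haveI : Nontrivial R₁ := Ideal.Quotient.nontrivial_iff.2
    (ne_top_of_le_ne_top (IsLocalRing.maximalIdeal.isMaximal L.T).ne_top
      (Ideal.pow_le_self (by omega)))
  haveI : Nontrivial R₂ := Ideal.Quotient.nontrivial_iff.2
    (ne_top_of_le_ne_top (IsLocalRing.maximalIdeal.isMaximal O).ne_top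
      (Ideal.pow_le_self (by omega)))
  haveI : IsLocalRing R₁ :=
    IsLocalRing.of_surjective' (Ideal.Quotient.mk _) Ideal.Quotient.mk_surjective
  haveI : IsLocalRing R₂ :=
    IsLocalRing.of_surjective' (Ideal.Quotient.mk _) Ideal.Quotient.mk_surjective
  let q₁ : L.T →ₐ[O] R₁ := Ideal.Quotient.mkₐ O _
  let q₂ : O →ₐ[O] R₂ := Ideal.Quotient.mkₐ O _
  have hq₁ : IsLocalHom (q₁ : L.T →+* R₁) :=
    IsLocalHom.of_surjective _ Ideal.Quotient.mk_surjective
  have hq₂ : IsLocalHom (q₂ : O →+* R₂) :=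
    IsLocalHom.of_surjective _ Ideal.Quotient.mk_surjective
  let χ₁ : R₁ →ₐ[O] ResidueField O := Ideal.Quotient.liftₐ _ χT fun x hx =>
    (FLTAgent.Deform.resHom_eq_zero_iff χT x).2 (Ideal.pow_le_self (by omega) hx)
  let χ₂ : R₂ →ₐ[O] ResidueField O :=
    Ideal.Quotient.liftₐ _ (Ideal.Quotient.mkₐ O (maximalIdeal O)) fun x hx =>
      Ideal.Quotient.eq_zero_iff_mem.2 (Ideal.pow_le_self (by omega) hx)
  haveI : IsLocalHom (algebraMap O R₁) := FLTAgent.Deform.isLocalHom_algebraMap χ₁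
  haveI : IsLocalHom (algebraMap O R₂) := FLTAgent.Deform.isLocalHom_algebraMap χ₂
  haveI : Finite (ResidueField R₁) := Finite.of_surjective _ IsLocalRing.residue_surjective
  haveI : Finite (ResidueField R₂) := Finite.of_surjective _ IsLocalRing.residue_surjective
  let ρ₁ := L.ρ.baseChangeAlong (q₁ : L.T →+* R₁) hq₁
  let ρ₂ := ρ.baseChangeAlong (q₂ : O →+* R₂) hq₂
  let c₀ := Module.finBasisOfFinrankEq (ResidueField O) ρbar.V ρbar.finrank_eq
  have he₁ : ρ₁.residual.IsEquiv (ρbar.baseChangeAlong (ResidueField.map (algebraMap O R₁))) := by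
    obtain ⟨b, hb⟩ := exists_basis_residual L.ρ ρbar c₀ _ L.residual_isEquiv
    refine residual_isEquiv_of_resHom χ₁ ρ₁ (basisBaseChange _ hq₁ L.ρ b) c₀ fun τ i j => ?_
    rw [matHom_baseChange]
    exact resHom_matHom χT (hb τ) i j
  have he₂ : ρ₂.residual.IsEquiv (ρbar.baseChangeAlong (ResidueField.map (algebraMap O R₂))) := by
    obtain ⟨b, hb⟩ := exists_basis_residual_self ρ hρres c₀
    refine residual_isEquiv_of_resHom χ₂ ρ₂ (basisBaseChange _ hq₂ ρ b) c₀ fun τ i j => ?_
    rw [matHom_baseChange]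
    exact congrFun (congrFun (hb τ) i) j
  have hadj₁ : Algebra.adjoin O (Set.range ρ₁.trace) = ⊤ := by
    rw [show ρ₁.trace = q₁ ∘ L.ρ.trace from funext fun s => trace_baseChangeAlong _ hq₁ L.ρ s,
      Set.range_comp, Algebra.adjoin_image, L.adjoin_trace, Algebra.map_top, AlgHom.range_eq_top]
    exact Ideal.Quotient.mk_surjective
  obtain ⟨D⟩ := nonempty_pairRep hres.absIrr χ₁ χ₂ Ideal.Quotient.mk_surjective ρ₁ ρ₂ he₁ he₂
    hadj₁
  haveI : Module.Finite O D.A := Module.Finite.of_finite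
  haveI : Finite (ResidueField D.A) := Finite.of_surjective _ IsLocalRing.residue_surjective
  have hresD : Function.Surjective (IsLocalRing.residue D.A ∘ algebraMap O D.A) :=
    FLTAgent.Deform.residue_comp_surjective D.χ
  have hpairA : ∀ x y : D.A, D.pr₁ x = D.pr₁ y → D.pr₂ x = D.pr₂ y → x = y := fun x y h h' =>
    D.inj (Prod.ext h h')
  have hmatA : ∀ X Y : Matrix (Fin 2) (Fin 2) D.A,
      D.pr₁.toRingHom.mapMatrix X = D.pr₁.toRingHom.mapMatrix Y →
      D.pr₂.toRingHom.mapMatrix X = D.pr₂.toRingHom.mapMatrix Y → X = Y := fun X Y h h' =>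
    Matrix.ext fun i j => hpairA _ _ (congrFun (congrFun h i) j) (congrFun (congrFun h' i) j)
  have htr₁ : ∀ s, D.pr₁ (D.ρ.trace s) = q₁ (L.ρ.trace s) := fun s =>
    (trace_baseChangeAlong _ D.pr₁_isLocalHom D.ρ s).symm.trans
      ((FLTAgent.Deform.trace_eq_of_isEquiv D.equiv₁ s).trans (trace_baseChangeAlong _ hq₁ L.ρ s))
  have htr₂ : ∀ s, D.pr₂ (D.ρ.trace s) = q₂ (ρ.trace s) := fun s =>
    (trace_baseChangeAlong _ D.pr₂_isLocalHom D.ρ s).symm.trans
      ((FLTAgent.Deform.trace_eq_of_isEquiv D.equiv₂ s).trans (trace_baseChangeAlong _ hq₂ ρ s))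
  -- the deformation conditions
  have hcond₁ : Cond loc p (unipPrimes p N) (levelPrimes p N ∪ Finset.univ.image Qv) ρ₁ :=
    cond_baseChangeAlong _ hq₁ Ideal.Quotient.mk_surjective L.cond
  have hcond₂ : Cond loc p (unipPrimes p N) (levelPrimes p N) ρ₂ :=
    cond_baseChangeAlong _ hq₂ Ideal.Quotient.mk_surjective hρ
  let bA := Module.finBasisOfFinrankEq D.A D.ρ.V D.ρ.finrank_eq
  have hcyc : D.ρ.DetIsCyclotomic p := by
    refine ⟨by simpa using map_nonunit (algebraMap O D.A) (p : O) hp, fun m τ a ha => ?_⟩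
    have hdetc : LinearMap.det (D.ρ.ρ τ) = algebraMap O D.A (LinearMap.det (ρ.ρ τ)) := by
      have hpr₁ : D.pr₁ (LinearMap.det (D.ρ.ρ τ)) = LinearMap.det (ρ₁.ρ τ) := by
        rw [← det_eq_of_isEquiv D.equiv₁, ← endAlong_rho, det_endAlong]
        rfl
      have hpr₂ : D.pr₂ (LinearMap.det (D.ρ.ρ τ)) = LinearMap.det (ρ₂.ρ τ) := by
        rw [← det_eq_of_isEquiv D.equiv₂, ← endAlong_rho, det_endAlong]
        rfl
      have hdρ₂ : LinearMap.det (ρ₂.ρ τ) = algebraMap O R₂ (LinearMap.det (ρ.ρ τ)) := by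
        rw [← endAlong_rho, det_endAlong]
        rfl
      refine hpairA _ _ ?_ (by rw [hpr₂, hdρ₂, D.pr₂.commutes])
      rw [hpr₁, D.pr₁.commutes]
      -- both agree with an exponent of `τ` on roots of unity of order `p ^ M`
      have hspec : ∀ μ : ℚ̄, μ ^ p ^ M = 1 → τ μ = μ ^ (Reps.cycMod p M τ).val :=
        fun μ hμ => Reps.cycMod_spec p M τ hμ
      have hpM : ∀ {R : Type} [CommRing R] [IsLocalRing R], (p : R) ∈ maximalIdeal R →
          maximalIdeal R ^ M = ⊥ → Ideal.span {((p ^ M : ℕ) : R)} = ⊥ := fun {R} _ _ h1 h2 => by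
        rw [Ideal.span_singleton_eq_bot, Nat.cast_pow, ← Ideal.mem_bot, ← h2]
        exact Ideal.pow_mem_pow h1 M
      have hm₁ : maximalIdeal R₁ ^ M = ⊥ := by
        rw [← IsLocalRing.map_maximalIdeal_of_surjective (Ideal.Quotient.mk (maximalIdeal L.T ^ M))
          Ideal.Quotient.mk_surjective, ← Ideal.map_pow, Ideal.map_quotient_self]
      have h₁ := hcond₁.det.2 M τ _ hspec
      rw [hpM hcond₁.det.1 hm₁, Ideal.mem_bot, sub_eq_zero] at h₁
      have h₀ := hρ.det.2 M τ _ hspec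
      obtain ⟨c, hc⟩ := Ideal.mem_span_singleton'.1 h₀
      have h₂ := congrArg (algebraMap O R₁) hc
      have hz : ((p ^ M : ℕ) : R₁) = 0 := by
        have := hpM hcond₁.det.1 hm₁
        rwa [Ideal.span_singleton_eq_bot] at this
      rw [map_mul, map_natCast, hz, mul_zero, map_sub, map_natCast, eq_comm, sub_eq_zero] at h₂
      rw [h₁, h₂]
    rw [hdetc, ← map_natCast (algebraMap O D.A) a, ← map_sub, ← map_natCast (algebraMap O D.A),
      ← Set.image_singleton, ← Ideal.map_span]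
    exact Ideal.mem_map_of_mem _ (hρ.det.2 m τ a ha)
  have hlocA : loc.cond D.ρ := by
    rcases hloc with rfl | rfl
    · exact isFlatAt_of_jointly_injective hp D.pr₁ D.pr₂ D.pr₁_isLocalHom D.pr₂_isLocalHom D.inj
        D.ρ (TW.isFlatAt_of_isEquiv ⟨D.equiv₁.some.symm⟩ hcond₁.local_p)
        (TW.isFlatAt_of_isEquiv ⟨D.equiv₂.some.symm⟩ hcond₂.local_p)
    · exact isStrictOrdinaryAt_of_jointly_injective hp2 hp D.pr₁ D.pr₂ D.pr₁_isLocalHom
        D.pr₂_isLocalHom D.inj D.ρ hcyc
        (TW.isStrictOrdinaryAt_of_isEquiv ⟨D.equiv₁.some.symm⟩ hcond₁.local_p)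
        (TW.isStrictOrdinaryAt_of_isEquiv ⟨D.equiv₂.some.symm⟩ hcond₂.local_p)
  have hunrA : ∀ q : ℕ, q.Prime → q ∉ ramSet p Smin (unipPrimes p N \ Smin) Qv → D.ρ.IsUnramifiedAt q := by
    intro q hq hqS
    have hq₁' : q ∉ levelPrimes p N ∪ Finset.univ.image Qv := fun hmem' => hqS (by
      simp only [Finset.mem_union, levelPrimes, Finset.mem_insert] at hmem'
      rw [ramSet, Finset.mem_insert]
      rcases hmem' with (rfl | h) | h
      · exact Or.inl rfl
      · by_cases hlp : q = p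
        · exact Or.inl hlp
        · refine Or.inr (Finset.mem_union_left _ ?_)
          by_cases hlS' : q ∈ Smin
          · exact Finset.mem_union_left _ hlS'
          · exact Finset.mem_union_right _
              (Finset.mem_sdiff.2 ⟨Finset.mem_erase.2 ⟨hlp, h⟩, hlS'⟩)
      · exact Or.inr (Finset.mem_union_right _ h))
    intro A hA τ hτ
    have hM1 : matHom D.ρ bA τ = 1 := by
      refine hmatA _ _ ?_ ?_
      · rw [map_one]
        refine (matHom_baseChange _ D.pr₁_isLocalHom D.ρ bA τ).symm.trans ?_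
        rw [matHom_eq_smul_one (c := 1) (by
          rw [eq_one_of_isEquiv D.equiv₁ (hcond₁.unramified q hq hq₁' A hA τ hτ), one_smul]),
          one_smul]
      · rw [map_one]
        refine (matHom_baseChange _ D.pr₂_isLocalHom D.ρ bA τ).symm.trans ?_
        rw [matHom_eq_smul_one (c := 1) (by
          rw [eq_one_of_isEquiv D.equiv₂ (hcond₂.unramified q hq
            (fun h => hq₁' (Finset.mem_union_left _ h)) A hA τ hτ), one_smul]), one_smul]
    rw [eq_smul_one_of_matHom (c := 1) (hM1.trans (one_smul _ _).symm), one_smul]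
  have hunipA : ∀ q ∈ Smin ∪ (unipPrimes p N \ Smin), D.ρ.IsUnipotentOnInertiaAt q := by
    intro q hq A hA τ hτ
    have hqU : q ∈ unipPrimes p N := by
      rcases Finset.mem_union.1 hq with h | h
      · exact hSmin h
      · exact (Finset.mem_sdiff.1 h).1
    refine Polynomial.ext fun m => hpairA _ _ ?_ ?_
    · have h1 := charpoly_eq_of_isEquiv D.equiv₁ τ
      rw [hcond₁.unipotent q hqU A hA τ hτ] at h1
      letI : Algebra D.A R₁ := (D.pr₁ : D.A →+* R₁).toAlgebra
      change LinearMap.charpoly ((D.ρ.ρ τ).baseChange R₁) = _ at h1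
      rw [LinearMap.charpoly_baseChange] at h1
      have h2 := congrArg (fun P => Polynomial.coeff P m) h1
      simp only [Polynomial.coeff_map] at h2
      rw [show D.pr₁ ((LinearMap.charpoly (D.ρ.ρ τ)).coeff m) = _ from h2]
      show _ = (D.pr₁ : D.A →+* R₁) _
      rw [← Polynomial.coeff_map]
      simp
    · have h1 := charpoly_eq_of_isEquiv D.equiv₂ τ
      rw [hcond₂.unipotent q hqU A hA τ hτ] at h1
      letI : Algebra D.A R₂ := (D.pr₂ : D.A →+* R₂).toAlgebra
      change LinearMap.charpoly ((D.ρ.ρ τ).baseChange R₂) = _ at h1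
      rw [LinearMap.charpoly_baseChange] at h1
      have h2 := congrArg (fun P => Polynomial.coeff P m) h1
      simp only [Polynomial.coeff_map] at h2
      rw [show D.pr₂ ((LinearMap.charpoly (D.ρ.ρ τ)).coeff m) = _ from h2]
      show _ = (D.pr₂ : D.A →+* R₂) _
      rw [← Polynomial.coeff_map]
      simp
  -- the bases at the places
  have hbex : ∀ l, ∃ b : Module.Basis (Fin 2) D.A D.ρ.V, ∀ hl : l ∈ (unipPrimes p N \ Smin),
      (∀ τ, (D.pr₂ : D.A →+* R₂).mapMatrix (matHom D.ρ b τ) =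
        (q₂ : O →+* R₂).mapMatrix (matHom ρ (bρ ⟨l, hl⟩) τ)) ∧
      (T.sc ⟨l, hl⟩ = false →
        matHom D.ρ b (P.φ l) 0 0 = 0 ∧ matHom D.ρ b (P.φ l) 1 0 = 1) := by
    intro l
    by_cases hl : l ∈ (unipPrimes p N \ Smin)
    · obtain ⟨b, hb⟩ := exists_lift_basis_mat (D.pr₂ : D.A →+* R₂) D.pr₂_isLocalHom D.surj₂ D.ρ ρ₂
        D.equiv₂ (basisBaseChange _ hq₂ ρ (bρ ⟨l, hl⟩))
      have hb' : ∀ τ, (D.pr₂ : D.A →+* R₂).mapMatrix (matHom D.ρ b τ) =
          (q₂ : O →+* R₂).mapMatrix (matHom ρ (bρ ⟨l, hl⟩) τ) := fun τ => by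
        rw [hb, matHom_baseChange]
      cases hs : T.sc ⟨l, hl⟩
      · obtain ⟨h0, h1⟩ := T.comp _ hs
        rw [(hW _).2] at h0 h1
        have e := hb' (P.φ l)
        obtain ⟨b', hb'', hc⟩ := exists_companion (D.pr₂ : D.A →+* R₂) D.pr₂_isLocalHom D.ρ b
          (P.φ l)
          ((congrFun (congrFun e 0) 0).trans ((congrArg (q₂ : O →+* R₂) h0).trans (map_zero _)))
          ((congrFun (congrFun e 1) 0).trans ((congrArg (q₂ : O →+* R₂) h1).trans (map_one _)))
        exact ⟨b', fun _ => ⟨fun τ => (hb'' τ).trans (hb' τ), fun _ => hc⟩⟩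
      · exact ⟨b, fun _ => ⟨hb', fun h => absurd (hs.symm.trans h) (by simp)⟩⟩
    · exact ⟨bA, fun h => absurd h hl⟩
  choose b hb using hbex
  -- the values of the variables
  let mk2 : ↥(unipPrimes p N \ Smin) → Bool → Matrix (Fin 2) (Fin 2) D.A := fun k c =>
    match c with
    | false => matHom D.ρ (b k) (P.σ k) - 1
    | true => matHom D.ρ (b k) (P.φ k)
  let val : Var g ↥(unipPrimes p N \ Smin) → D.A := Sum.elim
    (fun j => D.ρ.trace (σt j) - algebraMap O D.A (ρ.trace (σt j)))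
    fun x => mk2 x.1 x.2.1 x.2.2.1 x.2.2.2 - algebraMap O D.A (T.W x.1 x.2.1 x.2.2.1 x.2.2.2)
  have hvm : ∀ k c, varMat T.W val k c = mk2 k c := fun k c =>
    Matrix.ext fun i j => add_sub_cancel _ _
  have hmk2 : ∀ k c i j, D.pr₂ (mk2 k c i j) = algebraMap O R₂ (T.W k c i j) := by
    intro k c i j
    cases c
    · have e := congrFun (congrFun ((hb k k.2).1 (P.σ k)) i) j
      show D.pr₂ ((matHom D.ρ (b k) (P.σ k) - 1) i j) = _
      rw [(hW k).1, Matrix.sub_apply, Matrix.sub_apply, map_sub, map_sub]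
      exact congrArg₂ (· - ·) e ((map_one_apply (D.pr₂ : D.A →+* R₂) i j).trans
        (map_one_apply (algebraMap O R₂) i j).symm)
    · have e := congrFun (congrFun ((hb k k.2).1 (P.φ k)) i) j
      rw [(hW k).2]
      exact e
  have hval₂ : ∀ v, D.pr₂ (val v) = 0 := by
    rintro (j | ⟨k, c, i, j⟩)
    · show D.pr₂ (_ - _) = 0
      rw [map_sub, htr₂, D.pr₂.commutes]
      exact sub_self _
    · show D.pr₂ (_ - _) = 0
      rw [map_sub, hmk2, D.pr₂.commutes, sub_self]
  have hvalm : ∀ v, val v ∈ maximalIdeal D.A := fun v => by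
    haveI := D.pr₂_isLocalHom
    intro hu
    exact not_isUnit_zero (M₀ := R₂) (by
      have := IsUnit.map (D.pr₂ : D.A →+* R₂) hu
      rwa [show (D.pr₂ : D.A →+* R₂) (val v) = 0 from hval₂ v] at this)
  -- generators
  set J : Ideal D.A := (maximalIdeal O).map (algebraMap O D.A) ⊔ Ideal.span (Set.range val) with hJ
  have hJv : ∀ v, val v ∈ J := fun v => Ideal.mem_sup_right (Ideal.subset_span ⟨v, rfl⟩)
  have hJO : ∀ c ∈ maximalIdeal O, algebraMap O D.A c ∈ J := fun c hc =>
    Ideal.mem_sup_left (Ideal.mem_map_of_mem _ hc)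
  have hJW : ∀ (k : ↥(unipPrimes p N \ Smin)) (c : Bool) (i j : Fin 2),
      mk2 k c i j - algebraMap O D.A (T.W k c i j) ∈ J := fun k c i j => hJv (.inr (k, c, i, j))
  have hgens : maximalIdeal D.A = J := by
    refine le_antisymm ?_ (sup_le ?_ (Ideal.span_le.2 (by rintro _ ⟨v, rfl⟩; exact hvalm v)))
    · let scN : ℕ → Bool := fun l => if hl : l ∈ (unipPrimes p N \ Smin) then T.sc ⟨l, hl⟩ else false
      have hscN : ∀ k : ↥(unipPrimes p N \ Smin), scN k = T.sc k := fun k => dif_pos k.2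
      have hspan := maximalIdeal_le_span hpp hodd hp hϖ hh P subset_rfl (fun l hl => hmem hl)
        ε hε htrbar scN (fun l hl h => hsc ⟨l, hl⟩ ((hscN ⟨l, hl⟩).symm.trans h)) hresD D.ρ
        D.residual Qv hcyc hunrA hunipA D.adjoin_trace b
        (fun l hl h => (hb l hl).2 ((hscN ⟨l, hl⟩).symm.trans h)) σt hdet
        (fun j => ρ.trace (σt j)) (fun j => hvalm (.inl j)) ⊥ bot_le
        (fun f hfl hfs _ _ => by
          haveI : Finite (DualNumber (ResidueField O)) :=
            inferInstanceAs (Finite (ResidueField O × ResidueField O))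
          haveI : Finite (ResidueField (DualNumber (ResidueField O))) :=
            Finite.of_surjective _ IsLocalRing.residue_surjective
          exact loc.baseChange f hfl D.ρ hfs hlocA)
      refine hspan.trans (sup_le (Ideal.span_le.2 ?_) bot_le)
      rintro t (rfl | ⟨j, rfl⟩ | ht)
      · exact hJO _ (by rw [hϖ.maximalIdeal_eq]; exact Ideal.mem_span_singleton_self ϖ)
      · exact hJv (.inl j)
      · obtain ⟨l, hl, hv⟩ := Set.mem_iUnion₂.1 ht
        have hN : ∀ i j, (matHom D.ρ (b l) (P.σ l) - 1) i j ∈ J := fun i j => by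
          have h1 := add_mem (hJW ⟨l, hl⟩ false i j) (hJO _ (T.memN ⟨l, hl⟩ i j))
          rwa [sub_add_cancel] at h1
        have hF : scN l = true → ∀ i j, (matHom D.ρ (b l) (P.φ l) -
            (T.e ⟨l, hl⟩ : D.A) • 1) i j ∈ J := fun hs i j => by
          have h1 := add_mem (hJW ⟨l, hl⟩ true i j)
            (hJO _ (T.memF ⟨l, hl⟩ ((hscN ⟨l, hl⟩).symm.trans hs) i j))
          rw [show mk2 ⟨l, hl⟩ true i j - algebraMap O D.A (T.W ⟨l, hl⟩ true i j) +
              algebraMap O D.A ((T.W ⟨l, hl⟩ true - (T.e ⟨l, hl⟩ : O) • 1) i j) =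
              (matHom D.ρ (b l) (P.φ l) - (T.e ⟨l, hl⟩ : D.A) • 1) i j by
            rw [Matrix.sub_apply, Matrix.sub_apply, map_sub, Matrix.smul_apply, Matrix.smul_apply,
              smul_eq_mul, smul_eq_mul, map_mul, map_intCast]
            rw [map_one_apply (algebraMap O D.A) i j]
            exact sub_add_sub_cancel _ _ _] at h1
          exact h1
        cases hs : scN l
        · simp only [hs, Coords.gens, List.mem_cons, List.not_mem_nil, or_false,
            Set.mem_ofPred_eq] at hv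
          rcases hv with rfl | rfl | rfl
          · rw [SetLike.mem_coe, coordsAt_w, ← trace_matHom D.ρ (b l), Matrix.trace_fin_two]
            have h1 := add_mem (hJW ⟨l, hl⟩ true 0 0) (hJW ⟨l, hl⟩ true 1 1)
            have hWtr : T.W ⟨l, hl⟩ true 0 0 + T.W ⟨l, hl⟩ true 1 1 =
                (ε l : O) * ((l : O) + 1) := by
              rw [← Matrix.trace_fin_two, (T.spec ⟨l, hl⟩).trF, hTl, he]
            have h2 := congrArg (algebraMap O D.A) hWtr
            rw [map_add, map_mul, map_add, map_intCast, map_natCast, map_one] at h2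
            convert h1 using 1
            simp only [mk2]
            linear_combination h2
          · exact hN 0 0
          · exact hN 0 1
        · simp only [hs, Coords.gens, List.mem_cons, List.not_mem_nil, or_false,
            Set.mem_ofPred_eq] at hv
          have hF' := hF hs
          rcases hv with rfl | rfl | rfl | rfl | rfl | rfl
          · exact hN 0 0
          · exact hN 0 1
          · exact hN 1 0
          · refine Ideal.mul_mem_left _ _ ?_
            simpa using sub_mem (hF' 0 0) (hF' 1 1)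
          · simpa [coordsAt, coordsOf] using hF' 0 1
          · simpa [coordsAt, coordsOf] using hF' 1 0
    · exact Ideal.map_le_iff_le_comap.2 fun c hc => Ideal.mem_comap.2 (map_nonunit _ _ hc)
  have hsurj := FLTAgent.Deform.aeval_surjective_of_generators D.χ val hgens
  -- the action
  let Φ₁ : R₁ →ₐ[O] Matrix (Fin B.d) (Fin B.d) (S' ⧸ 𝔐' ^ n) :=
    Ideal.Quotient.liftₐ _ Ψn fun x hx => hMker hx
  let Φ₀ := Φ₁.comp D.pr₁
  obtain ⟨φ, hφX, hφP⟩ := exists_action Φ₀ val
  have hbase : ∀ (x : D.A) (t : L.T), D.pr₁ x = q₁ t →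
      BaseCongr n (Φ₀ x) (B.Φ (L.π t)) := by
    intro x t hxt i j f hf
    obtain ⟨f', hf'⟩ := Ideal.Quotient.mk_surjective (L.Ψ t i j)
    rw [← L.base_eq t i j f' hf']
    refine entries_congr hlev hf' ?_
    rw [hf]
    show Φ₁ (D.pr₁ x) i j = _
    rw [hxt]
    rfl
  have hconst : ∀ (Q : MvPolynomial (Var g ↥(unipPrimes p N \ Smin)) O) (c : O),
      D.pr₂ (MvPolynomial.aeval val Q) = q₂ c →
      MvPolynomial.constantCoeff Q - c ∈ maximalIdeal O ^ n := by
    intro Q c hQ
    have h1 : D.pr₂.comp (MvPolynomial.aeval val) = MvPolynomial.aeval fun _ => (0 : R₂) :=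
      MvPolynomial.algHom_ext fun v => by simp [hval₂]
    rw [← AlgHom.comp_apply, h1, MvPolynomial.aeval_zero'] at hQ
    exact Ideal.pow_le_pow_right hMn (Ideal.Quotient.eq.1 hQ)
  have htrN : ∀ k : ↥(unipPrimes p N \ Smin), (mk2 k false).trace = 0 := fun k =>
    trace_sub_one_eq_zero (by
      rw [trace_matHom]
      exact trace_inertia_eq_two (Or.inl (hunipA k (Finset.mem_union_right _ k.2)))
        (P.liesOver k k.2) (P.mem k k.2))
  have htwo : ∀ k : ↥(unipPrimes p N \ Smin), (matHom D.ρ (b k) (P.σ k)).det = 1 ∧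
      (matHom D.ρ (b k) (P.σ k)).trace = 2 := fun k => by
    rw [det_matHom, trace_matHom]
    exact ⟨det_inertia hpp (hmem k.2).1 (hmem k.2).2.1 (P.liesOver k k.2) hcyc (P.mem k k.2),
      trace_inertia_eq_two (Or.inl (hunipA k (Finset.mem_union_right _ k.2)))
        (P.liesOver k k.2) (P.mem k k.2)⟩
  let vM : ↥(unipPrimes p N \ Smin) → Bool → Matrix (Fin 2) (Fin 2) (MvPolynomial (Var g ↥(unipPrimes p N \ Smin)) O) :=
    varMat T.W MvPolynomial.X
  have hθ : ∀ k c, (MvPolynomial.aeval val).toRingHom.mapMatrix (vM k c) = mk2 k c := fun k c => by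
    rw [show vM k c = varMat T.W MvPolynomial.X k c from rfl, varMat_map,
      show (MvPolynomial.aeval val : MvPolynomial (Var g ↥(unipPrimes p N \ Smin)) O →ₐ[O] D.A) ∘ MvPolynomial.X = val
        from funext fun v => MvPolynomial.aeval_X _ _, hvm]
  have hφm : ∀ k c i j, φ (mats' (r := r) T k c i j) = Φ₀ (mk2 k c i j) := fun k c i j => by
    rw [mats'_eq_lift', RingHom.mapMatrix_apply, Matrix.map_apply]
    exact (hφP _).trans (congrArg Φ₀ (congrFun (congrFun (hθ k c) i) j))
  have hrel : ∀ z ∈ relSet (g := g) (r := r) T, φ z = 0 := by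
    rintro z ⟨k, hz⟩
    have hlin := tame_linear (htwo k).1 (htwo k).2
      (tame_relation (P.tame k k.2) hcyc.1
        (entries_sub_one_inertia D.residual (b k) (hmem k.2).2.2 (P.liesOver k k.2)))
    rcases hz with rfl | ⟨i, j, rfl⟩ | ⟨i, j, rfl⟩ | rfl | ⟨hs, rfl | rfl⟩
    · rw [mats'_eq_lift', RingHom.mapMatrix_apply, ← AddMonoidHom.map_trace]
      refine (hφP _).trans ?_
      rw [show MvPolynomial.aeval val (vM k false).trace = (mk2 k false).trace by
        rw [← hθ k false, RingHom.mapMatrix_apply]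
        exact AddMonoidHom.map_trace (MvPolynomial.aeval val).toRingHom _, htrN, map_zero]
    · rw [mats'_eq_lift', ← map_mul, RingHom.mapMatrix_apply, Matrix.map_apply]
      refine (hφP _).trans ?_
      rw [show MvPolynomial.aeval val ((vM k false * vM k false) i j) =
        (mk2 k false * mk2 k false) i j by rw [← hθ k false, ← map_mul]; rfl,
        show mk2 k false * mk2 k false = 0 from sub_one_sq (htwo k).1 (htwo k).2]
      exact map_zero Φ₀
    · have h0 : (mk2 k true * mk2 k false - (T.l k : D.A) • (mk2 k false * mk2 k true)) i j = 0 := by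
        rw [hTl, show mk2 k true * mk2 k false = _ from hlin, sub_self]
        rfl
      simp only [Matrix.sub_apply, Matrix.smul_apply, smul_eq_mul, Matrix.mul_apply, map_sub,
        map_mul, map_sum, map_natCast, hφm] at h0 ⊢
      have := congrArg Φ₀ h0
      simpa only [map_zero, map_sub, map_mul, map_sum, map_natCast] using this
    · rw [map_sub, map_natCast, mats'_eq_lift', ← RingHom.map_det]
      rw [show φ ((lift' (r := r)).toRingHom (vM k true).det) = Φ₀ (mk2 k true).det by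
        refine (hφP _).trans ?_
        rw [← hθ k true, ← RingHom.map_det]
        rfl]
      rw [show (mk2 k true).det = ((k : ℕ) : D.A) by
        show (matHom D.ρ (b k) (P.φ k)).det = _
        rw [det_matHom, det_frobenius hpp (hmem k.2).1 (hmem k.2).2.1 (P.liesOver k k.2) hcyc
          (P.frob k k.2)], map_natCast, hTl, sub_self]
    · rw [hφX]
      show Φ₀ (mk2 k true 0 0 - _) = 0
      rw [show mk2 k true 0 0 = 0 from ((hb k k.2).2 hs).1, (T.comp k hs).1, map_zero, sub_zero,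
        map_zero]
    · rw [hφX]
      show Φ₀ (mk2 k true 1 0 - _) = 0
      rw [show mk2 k true 1 0 = 1 from ((hb k k.2).2 hs).2, (T.comp k hs).2, map_one, sub_self,
        map_zero]
  have hnil : ∀ v i j, φ (MvPolynomial.X v ^ B.d) i j ∈
      (maximalIdeal (MvPowerSeries (Fin r) O)).map
        (Ideal.Quotient.mk (maximalIdeal (MvPowerSeries (Fin r) O) ^ n)) := by
    intro v i j
    rw [map_pow, hφX]
    let I := (maximalIdeal (MvPowerSeries (Fin r) O)).map
      (Ideal.Quotient.mk (maximalIdeal (MvPowerSeries (Fin r) O) ^ n))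
    by_cases hItop : I = ⊤
    · show _ ∈ I
      rw [hItop]
      exact Submodule.mem_top
    haveI : I.IsMaximal := (Ideal.map_eq_top_or_isMaximal_of_surjective
      (Ideal.Quotient.mk (maximalIdeal (MvPowerSeries (Fin r) O) ^ n))
      Ideal.Quotient.mk_surjective (IsLocalRing.maximalIdeal.isMaximal _)).resolve_left hItop
    letI := Ideal.Quotient.field I
    have hnv : IsNilpotent (val v) :=
      FLTAgent.Deform.isNilpotent_of_resHom_eq_zero D.χ _
        ((FLTAgent.Deform.resHom_eq_zero_iff D.χ _).2 (hvalm v))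
    have h0 := matrix_pow_eq_zero_of_nilpotent
      ((hnv.map Φ₀).map (Ideal.Quotient.mk I).mapMatrix)
    rw [← map_pow] at h0
    exact Ideal.Quotient.eq_zero_iff_mem.1 (congrFun (congrFun h0 i) j)
  have hσQ : ∀ i, ∃ τ, (∃ A : ValuationSubring ℚ̄, A.LiesOverPrime (Qv i) ∧
      τ ∈ A.inertiaSubgroupIn ℚ) ∧ L.Ψ (L.ρ.trace τ - 2) * Matrix.scalar (Fin B.d)
        (Ideal.Quotient.mk (levelIdeal p n r O) (1 + MvPowerSeries.X i)) =
      Matrix.scalar (Fin B.d) (Ideal.Quotient.mk (levelIdeal p n r O)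
        (MvPowerSeries.X i ^ 2)) := L.tw_rel
  have htw : ∀ i, ∃ G : MvPolynomial (Var g ↥(unipPrimes p N \ Smin)) O,
      MvPolynomial.constantCoeff G ∈ maximalIdeal O ^ n ∧
      φ (lift' G * MvPolynomial.C (1 + MvPowerSeries.X i) -
        MvPolynomial.C (MvPowerSeries.X i ^ 2)) = 0 := by
    intro i
    obtain ⟨τ, ⟨A, hA, hτ⟩, heq⟩ := hσQ i
    obtain ⟨G, hG⟩ := hsurj (D.ρ.trace τ - 2)
    refine ⟨G, ?_, ?_⟩
    · have h1 := hconst G 0 (by
        rw [hG, map_sub, htr₂, trace_inertia_eq_two (Or.inr (hρ.unramified (Qv i)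
          (haux.2 i).1.prime (haux.2 i).2)) hA hτ, map_zero, map_ofNat, map_ofNat, sub_self])
      rwa [sub_zero] at h1
    · have hΦ : Φ₀ (D.ρ.trace τ - 2) = (L.Ψ (L.ρ.trace τ - 2)).map F := by
        show Φ₁ (D.pr₁ _) = _
        rw [map_sub D.pr₁, htr₁, map_ofNat, ← map_ofNat q₁, ← map_sub]
        rfl
      have h0 := congrArg (fun X : Matrix (Fin B.d) (Fin B.d) (S' ⧸ levelIdeal p n r O) =>
        X.map F) heq
      simp only [Matrix.map_mul, Matrix.scalar_apply, Matrix.diagonal_map (map_zero F)] at h0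
      rw [map_sub, map_mul, hφP, hG, hΦ, sub_eq_zero]
      rw [MvPolynomial.algHom_C, MvPolynomial.algHom_C, Matrix.algebraMap_eq_diagonal,
        Matrix.algebraMap_eq_diagonal]
      exact h0
  have htraceπ := trace_comp_of_isEquiv L.π L.π_isLocalHom L.π_isEquiv
  have hlift : ∀ z, ∃ Nz, Ideal.Quotient.mk (maximalIdeal (MvPowerSeries (Fin r) O) ^ n) Nz = z :=
    Ideal.Quotient.mk_surjective
  choose lft hlft using hlift
  refine ⟨fun x => lft (φ (MvPolynomial.X x.1) x.2.1 x.2.2), φ, fun v i j => (hlft _).symm,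
    ⟨hnil, hrel, htw, fun s => ?_, fun k => ?_, fun k i j => ?_⟩⟩
  · obtain ⟨Q, hQ⟩ := hsurj (D.ρ.trace s)
    refine ⟨Q, hconst Q _ (by rw [hQ, htr₂]), ?_⟩
    rw [hφP, hQ, ← htraceπ s]
    exact hbase _ _ (htr₁ s)
  · rw [← htraceπ (P.φ k)]
    have : φ (mats' (r := r) T k true).trace = Φ₀ (D.ρ.trace (P.φ k)) := by
      rw [← trace_matHom D.ρ (b k), Matrix.trace_fin_two, Matrix.trace_fin_two, map_add, map_add,
        hφm, hφm]
    rw [this]
    exact hbase _ _ (htr₁ _)
  · -- inertia entries in a basis lifting that of the base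
    have hπs : Function.Surjective (L.π : L.T →+* B.T) := by
      show Function.Surjective L.π
      rw [← AlgHom.range_eq_top, eq_top_iff, ← B.adjoin_trace]
      refine Algebra.adjoin_le ?_
      rintro _ ⟨τ, rfl⟩
      exact ⟨L.ρ.trace τ, htraceπ τ⟩
    obtain ⟨bL, hbL⟩ := exists_lift_basis_mat _ L.π_isLocalHom hπs L.ρ B.ρ L.π_isEquiv bB
    obtain ⟨c₁, hc₁⟩ := exists_basis_of_equiv (ρ := ρ₁) ⟨D.equiv₁.some.symm⟩
      (basisBaseChange _ hq₁ L.ρ bL)
    set e := (matHom L.ρ bL (P.σ k) - 1) i j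
    have hmemJ : q₁ e ∈ Ideal.span (Set.range fun x : Fin 2 × Fin 2 =>
        D.pr₁ (mk2 k false x.1 x.2)) := by
      have h1 := entries_mem_of_basis (basisBaseChange _ D.pr₁_isLocalHom D.ρ (b k)) c₁ (P.σ k)
        (Ideal.span (Set.range fun x : Fin 2 × Fin 2 => D.pr₁ (mk2 k false x.1 x.2)))
        (fun i j => by
          rw [matHom_baseChange, ← map_one (D.pr₁ : D.A →+* R₁).mapMatrix, ← map_sub]
          exact Ideal.subset_span ⟨(i, j), rfl⟩) i j
      rw [hc₁, matHom_baseChange, ← map_one (q₁ : L.T →+* R₁).mapMatrix, ← map_sub] at h1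
      exact h1
    obtain ⟨cf, hcf⟩ := (Submodule.mem_span_range_iff_exists_fun _).1 hmemJ
    choose c' hc' using fun x => D.surj₁ (cf x)
    choose Q hQ using fun x => hsurj (c' x)
    refine ⟨∑ x, lift' (Q x) * mats' (r := r) T k false x.1 x.2, Ideal.sum_mem _ fun x _ =>
      Ideal.mul_mem_left _ _ (Ideal.subset_span ⟨x, rfl⟩), ?_⟩
    have hFv : φ (∑ x, lift' (Q x) * mats' (r := r) T k false x.1 x.2) =
        Φ₀ (∑ x, c' x * mk2 k false x.1 x.2) := by
      simp only [map_sum, map_mul, hφP, hQ, hφm]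
    have hπe : B.Φ (L.π e) = B.Φ ((matHom B.ρ bB (P.σ k) - 1) i j) := by
      congr 1
      have := congrFun (congrFun (hbL (P.σ k)) i) j
      simp only [e, Matrix.sub_apply, map_sub]
      exact congrArg₂ (· - ·) this (map_one_apply (L.π : L.T →+* B.T) i j)
    rw [hFv, ← hπe]
    refine hbase _ _ ?_
    rw [map_sum, ← hcf]
    exact Finset.sum_congr rfl fun x _ => by rw [map_mul, hc', smul_eq_mul]

end FLTAgent.Lower.Lift.Final
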